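import Fermat.Agent.Torsion.Descent.Card
import Fermat.Agent.EichlerShimura.BaseChangeDegree
import Mathlib.RingTheory.Jacobson.Ring

/-!
# Descent of divisibility of `Pic⁰` along an extension of algebraically closed constants

If the class of a `K`-divisor is divisible by `n` over `L ⊇ K`, then it already is over `K`:
specialise the witnessing function and divisor at a `K`-point.
-/

set_option autoImplicit false

noncomputable section

open AlgebraicCurve IntermediateField

namespace Fermat.Agent.MordellWeil

open Fermat.Agent.Torsion.Descent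

/-- A finite subset of `L` is made of units of a subalgebra with a `K`-point. -/
theorem exists_goodFor_point (K : Type*) {L : Type*} [Field K] [Field L] [Algebra K L]
    [IsAlgClosed K] (S : Finset L) :
    ∃ (R : Subalgebra K L) (_ : R →ₐ[K] K), GoodFor R S := by
  classical
  let T : Finset L := S ∪ S.image (·⁻¹)
  let R : Subalgebra K L := Algebra.adjoin K (T : Set L)
  have hR : GoodFor R S := fun t ht =>
    ⟨Algebra.subset_adjoin (by simp [T, ht]),
      Algebra.subset_adjoin (by
        simp only [T, Finset.coe_union, Finset.coe_image]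
        exact Or.inr ⟨t, ht, rfl⟩)⟩
  have : Algebra.FiniteType K R :=
    (Subalgebra.fg_iff_finiteType _).1 (Subalgebra.fg_adjoin_finset T)
  obtain ⟨m, hm⟩ := Ideal.exists_maximal R
  let : Field (R ⧸ m) := Ideal.Quotient.field m
  have : Module.Finite K (R ⧸ m) := finite_of_finite_type_of_isJacobsonRing K (R ⧸ m)
  let e : K ≃ₐ[K] R ⧸ m := AlgEquiv.ofBijective (Algebra.ofId K (R ⧸ m))
    IsAlgClosed.algebraMap_bijective_of_isIntegral
  exact ⟨R, e.symm.toAlgHom.comp (Ideal.Quotient.mkₐ K m), hR⟩

section descent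

variable {K F L F' : Type*} [Field K] [Field F] [Algebra K F] [Field L] [Field F']
  [Algebra L F'] [Algebra K L] [Algebra K F'] [Algebra F F'] [IsScalarTower K L F']
  [IsScalarTower K F F']
  [IsAlgClosed K] [CharZero K] [Fermat.Agent.Curve.IsFunctionField1 K F]
  [IsAlgClosed L] [CharZero L] [Fermat.Agent.Curve.IsFunctionField1 L F']
  [hext : IsConstExt K F L F']

theorem degree_mapDomain_sp (p : Pres K F) {R : Subalgebra K L} (χ : R →ₐ[K] K)
    (E : Divisor L F') :
    Divisor.degree (Finsupp.mapDomain (sp (L := L) (F' := F') p χ) E) = Divisor.degree E := by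
  rw [degree_eq_sum, degree_eq_sum,
    Finsupp.sum_mapDomain_index (fun _ => rfl) (fun _ _ _ => rfl)]

/-- A class divisible after extension of constants is divisible. -/
theorem exists_nsmul_eq_of_extDiv {n : ℕ} (D : Divisor.degZero (K := K) (F := F))
    (h : ∃ (E : Divisor L F') (s : F'), Divisor.degree E = 0 ∧ s ≠ 0 ∧
      ∀ w, (n • E - extDiv (L := L) (F' := F') (D : Divisor K F) : Divisor L F') w = w.ord s) :
    ∃ y : Pic0 K F, n • y = Pic0.mk D := by
  classical
  obtain ⟨E, s, hE, hs, hEs⟩ := h
  obtain ⟨x, hx⟩ := exists_transcendental (K := K) (F := F)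
  have := finite_over_adjoin hx
  obtain ⟨p, -⟩ := exists_pres hx
  obtain ⟨S, hS⟩ := exists_spec_fun (L := L) p s hs
  obtain ⟨R, χ, hR⟩ := exists_goodFor_point K S
  obtain ⟨sb, hsb0, hsb⟩ := hS R χ hR
  let m : Divisor L F' →+ Divisor K F := Finsupp.mapDomain.addMonoidHom (sp (F' := F') p χ)
  have hm : m (extDiv (L := L) (F' := F') (D : Divisor K F)) = (D : Divisor K F) := by
    show Finsupp.mapDomain (sp (F' := F') p χ) (Finsupp.mapDomain (extPlace (L := L) (F' := F')) (D : Divisor K F)) = _
    rw [← Finsupp.mapDomain_comp]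
    exact (Finsupp.mapDomain_congr (g := id) fun v _ => sp_extPlace p χ v).trans
      Finsupp.mapDomain_id
  let E₀ : Divisor.degZero (K := K) (F := F) :=
    ⟨m E, by rw [Divisor.mem_degZero]; exact (degree_mapDomain_sp p χ E).trans hE⟩
  refine ⟨Pic0.mk E₀, ?_⟩
  show n • QuotientAddGroup.mk E₀ = QuotientAddGroup.mk D
  rw [← QuotientAddGroup.mk_nsmul, ← sub_eq_zero, ← QuotientAddGroup.mk_sub]
  refine (QuotientAddGroup.eq_zero_iff _).2 ?_
  rw [AddSubgroup.mem_addSubgroupOf]
  refine ⟨sb, hsb0, fun v => ?_⟩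
  have h1 := hsb _ hEs v
  have h2 : m (n • E - extDiv (L := L) (F' := F') (D : Divisor K F)) =
      n • m E - (D : Divisor K F) := by rw [map_sub, map_nsmul, hm]
  rw [h1]
  exact (congrArg (fun Z : Divisor K F => Z v) h2).symm

/-- If `Pic⁰` over `L` is `n`-divisible then so is `Pic⁰` over `K`. -/
theorem exists_nsmul_eq_of_constExt {n : ℕ}
    (hdiv : ∀ z : Pic0 L F', ∃ y, n • y = z) (x : Pic0 K F) :
    ∃ y : Pic0 K F, n • y = x := by
  obtain ⟨D, rfl⟩ := Pic0.mk_surjective x
  have hdeg : extDiv (L := L) (F' := F') (D : Divisor K F) ∈ Divisor.degZero := by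
    rw [Divisor.mem_degZero, degree_extDiv]; exact Divisor.mem_degZero.1 D.2
  obtain ⟨y, hy⟩ := hdiv (Pic0.mk ⟨_, hdeg⟩)
  obtain ⟨E, rfl⟩ := Pic0.mk_surjective y
  change n • QuotientAddGroup.mk E = QuotientAddGroup.mk _ at hy
  rw [← QuotientAddGroup.mk_nsmul, ← sub_eq_zero, ← QuotientAddGroup.mk_sub] at hy
  have hmem := (QuotientAddGroup.eq_zero_iff _).1 hy
  rw [AddSubgroup.mem_addSubgroupOf] at hmem
  obtain ⟨s, hs, hord⟩ := hmem
  exact exists_nsmul_eq_of_extDiv (L := L) (F' := F') D
    ⟨E, s, Divisor.mem_degZero.1 E.2, hs, hord⟩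

end descent

/-- Divisibility of `Pic⁰` of a field of `q`-expansions, and finiteness of its torsion, descend
from a larger field. -/
theorem divisible_and_finite_laurentBaseChange {k L : Type*} [Field k] [Field L] [Algebra ℚ k]
    [Algebra ℚ L] [IsAlgClosed k] [IsAlgClosed L]
    (F₀ : IntermediateField ℚ (LaurentSeries ℚ)) (ι : k →ₐ[ℚ] L)
    [Curve.IsFunctionField1 k (ModularCurve.laurentBaseChange k F₀)] {n : ℕ}
    (hdiv : ∀ z : Pic0 L (ModularCurve.laurentBaseChange L F₀), ∃ y, n • y = z)
    (hfin : {z : Pic0 L (ModularCurve.laurentBaseChange L F₀) | n • z = 0}.Finite) :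
    (∀ x : Pic0 k (ModularCurve.laurentBaseChange k F₀), ∃ y, n • y = x) ∧
      {x : Pic0 k (ModularCurve.laurentBaseChange k F₀) | n • x = 0}.Finite := by
  have : CharZero k := charZero_of_injective_algebraMap (algebraMap ℚ k).injective
  have : CharZero L := charZero_of_injective_algebraMap (algebraMap ℚ L).injective
  have : Curve.IsFunctionField1 L (ModularCurve.laurentBaseChange L F₀) :=
    EichlerShimura.isFunctionField1_laurentBaseChange F₀ ι
  let : Algebra k L := (ι : k →+* L).toAlgebra
  let : Algebra (ModularCurve.laurentBaseChange k F₀) (ModularCurve.laurentBaseChange L F₀) :=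
    (EichlerShimura.bcHom F₀ ι).toAlgebra
  let : Algebra k (ModularCurve.laurentBaseChange L F₀) :=
    ((algebraMap L (ModularCurve.laurentBaseChange L F₀)).comp (ι : k →+* L)).toAlgebra
  have : IsScalarTower k L (ModularCurve.laurentBaseChange L F₀) :=
    IsScalarTower.of_algebraMap_eq fun _ => rfl
  have : IsScalarTower k (ModularCurve.laurentBaseChange k F₀)
      (ModularCurve.laurentBaseChange L F₀) :=
    IsScalarTower.of_algebraMap_eq fun c => (EichlerShimura.bcHom_algebraMap F₀ ι c).symm
  have : IsConstExt k (ModularCurve.laurentBaseChange k F₀) L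
      (ModularCurve.laurentBaseChange L F₀) := by
    refine ⟨?_⟩
    rw [eq_top_iff]
    rintro z -
    have hle : ModularCurve.laurentBaseChange L F₀ ≤
        IntermediateField.lift (IntermediateField.adjoin L (Set.range (algebraMap
          (ModularCurve.laurentBaseChange k F₀) (ModularCurve.laurentBaseChange L F₀)))) := by
      rw [IntermediateField.lift_adjoin]
      refine IntermediateField.adjoin.mono L _ _ ?_
      rintro _ ⟨w, hw, rfl⟩
      exact ⟨EichlerShimura.bcHom F₀ ι ⟨_, ModularCurve.coeffEmb_mem_laurentBaseChange k hw⟩,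
        ⟨_, rfl⟩, EichlerShimura.coeffMap_coeffEmb_base ι w⟩
    exact (IntermediateField.mem_lift z).1 (hle z.2)
  refine ⟨exists_nsmul_eq_of_constExt (L := L) (F' := ModularCurve.laurentBaseChange L F₀) hdiv,
    (hfin.preimage (extPic_injective (L := L)
      (F' := ModularCurve.laurentBaseChange L F₀)).injOn).subset fun x hx => ?_⟩
  exact (map_nsmul (extPic (L := L) (F' := ModularCurve.laurentBaseChange L F₀)) n x).symm.trans
    ((congrArg _ hx).trans (map_zero _))

end Fermat.Agent.MordellWeil
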