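import Fermat.Agent.Curve.RiemannRoch
import Fermat.Prelude.Def_AlgebraicCurve_BaseChangeGalois
import Mathlib.FieldTheory.IsAlgClosed.AlgebraicClosure
import Mathlib.FieldTheory.Galois.Infinite

/-!
A function field over `ℚ̄` with an arithmetic Galois action, a rational place and rational bases
of the spaces `L(n ∞)`: the setting of the height descent for the Jacobian.
-/

set_option autoImplicit false

noncomputable section

open AlgebraicCurve Fermat.Agent.Curve

namespace Fermat.Agent.MordellWeil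

local notation "ℚ̄" => AlgebraicClosure ℚ

/-- The setting. -/
structure Setting (F : Type) [Field F] [Algebra ℚ̄ F] [IsFunctionField1 ℚ̄ F] where
  /-- The rational place. -/
  infty : Place ℚ̄ F
  /-- The arithmetic Galois action. -/
  galois : (ℚ̄ ≃ₐ[ℚ] ℚ̄) →* SemilinearAut ℚ̄ F
  baseAut_galois : ∀ σ, SemilinearAut.baseAut (galois σ) = σ.toRingEquiv
  galois_infty : ∀ σ, galois σ • infty = infty
  /-- Rational bases of `L(n ∞)`. -/
  basis : ∀ n : ℕ, Module.Basis (Fin (ell (Finsupp.single infty (n : ℤ)))) ℚ̄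
    (riemannRochSpace (Finsupp.single infty (n : ℤ)))
  basis_fixed : ∀ (n : ℕ) i (σ : ℚ̄ ≃ₐ[ℚ] ℚ̄), galois σ • (basis n i : F) = (basis n i : F)

/-- An algebraic number fixed by all automorphisms is rational. -/
theorem exists_algebraMap_rat_of_fixed {a : ℚ̄} (h : ∀ σ : ℚ̄ ≃ₐ[ℚ] ℚ̄, σ a = a) :
    ∃ q : ℚ, algebraMap ℚ ℚ̄ q = a := by
  have : Algebra.IsAlgebraic ℚ ℚ̄ := AlgebraicClosure.isAlgebraic ℚ
  have : IsAlgClosure ℚ ℚ̄ := ⟨inferInstance, inferInstance⟩
  have : IsGalois ℚ ℚ̄ := IsAlgClosure.isGalois ℚ ℚ̄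
  exact IntermediateField.mem_bot.mp
    ((InfiniteGalois.mem_bot_iff_fixed a).mpr h)

variable {F : Type} [Field F] [Algebra ℚ̄ F] [IsFunctionField1 ℚ̄ F]

namespace Setting

variable (S : Setting F)

/-- `n · ∞`. -/
abbrev pole (n : ℕ) : Divisor ℚ̄ F := Finsupp.single S.infty (n : ℤ)

/-- Coordinates on `L(n ∞)`. -/
abbrev Coord (n : ℕ) : Type := Fin (ell (S.pole n))

/-- The function with given coordinates. -/
def elem (n : ℕ) : (S.Coord n → ℚ̄) →ₗ[ℚ̄] F :=
  (riemannRochSpace (S.pole n)).subtype ∘ₗ (S.basis n).equivFun.symm.toLinearMap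

/-- `L(n ∞ - D)` in coordinates. -/
def space (n : ℕ) (D : Divisor ℚ̄ F) : Submodule ℚ̄ (S.Coord n → ℚ̄) :=
  (riemannRochSpace (S.pole n - D)).comap (S.elem n)

/-- The genus. -/
abbrev genus (_S : Setting F) : ℕ := genusFF ℚ̄ F

/-- From this degree on, Riemann's inequality is an equality. -/
def bound (_S : Setting F) : ℕ :=
  ((exists_specialIndex_eq_zero (K := ℚ̄) (F := F)).choose).toNat + genusFF ℚ̄ F + 1

theorem ell_eq_of_bound_le {D : Divisor ℚ̄ F} (h : (S.bound : ℤ) ≤ Divisor.degree D) :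
    (ell D : ℤ) = Divisor.degree D + 1 - S.genus := by
  have hs := (exists_specialIndex_eq_zero (K := ℚ̄) (F := F)).choose_spec D (by
    unfold bound at h
    omega)
  have := riemann_roch D
  simp only [hs, Nat.cast_zero, sub_zero] at this
  exact this

theorem degree_pole (n : ℕ) : Divisor.degree (S.pole n) = n := by
  simp [pole, deg_eq_one]

theorem elem_mem (n : ℕ) (x : S.Coord n → ℚ̄) : S.elem n x ∈ riemannRochSpace (S.pole n) :=
  ((S.basis n).equivFun.symm x).2

theorem elem_injective (n : ℕ) : Function.Injective (S.elem n) :=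
  Subtype.val_injective.comp (S.basis n).equivFun.symm.injective

theorem range_elem (n : ℕ) : LinearMap.range (S.elem n) = riemannRochSpace (S.pole n) := by
  rw [elem, LinearMap.range_comp, LinearEquiv.range, Submodule.map_top, Submodule.range_subtype]

theorem elem_eq_sum (n : ℕ) (x : S.Coord n → ℚ̄) :
    S.elem n x = ∑ i, x i • (S.basis n i : F) := by
  simp [elem, Module.Basis.equivFun_symm_apply]

theorem mem_space_iff (n : ℕ) (D : Divisor ℚ̄ F) (x : S.Coord n → ℚ̄) :
    x ∈ S.space n D ↔ S.elem n x ∈ riemannRochSpace (S.pole n - D) := Iff.rfl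

theorem smul_elem (n : ℕ) (σ : ℚ̄ ≃ₐ[ℚ] ℚ̄) (x : S.Coord n → ℚ̄) :
    S.galois σ • S.elem n x = S.elem n (fun i => σ (x i)) := by
  simp only [elem_eq_sum, Finset.smul_sum]
  refine Finset.sum_congr rfl fun i _ => ?_
  rw [Algebra.smul_def, Algebra.smul_def, smul_mul', SemilinearAut.smul_algebraMap,
    S.baseAut_galois, S.basis_fixed]
  rfl

theorem exists_tens {a b c : ℕ} (h : a + b ≤ c) :
    ∃ T : S.Coord a → S.Coord b → S.Coord c → ℚ, ∀ i j,
      (S.basis a i : F) * (S.basis b j : F) = S.elem c (fun k => algebraMap ℚ ℚ̄ (T i j k)) := by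
  have hmem : ∀ i j, (S.basis a i : F) * (S.basis b j : F) ∈ riemannRochSpace (S.pole c) := by
    intro i j
    rw [mem_riemannRochSpace_iff]
    intro v
    have h1 := mem_riemannRochSpace_iff.mp (S.basis a i).2 v
    have h2 := mem_riemannRochSpace_iff.mp (S.basis b j).2 v
    by_cases hp : (S.basis a i : F) * (S.basis b j : F) = 0
    · exact Or.inl hp
    obtain ⟨ha, hb⟩ := mul_ne_zero_iff.mp hp
    refine Or.inr ?_
    rw [v.ord_mul ha hb]
    have h1' := h1.resolve_left ha
    have h2' := h2.resolve_left hb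
    classical
    simp only [pole, Finsupp.single_apply] at h1' h2' ⊢
    split_ifs at h1' h2' ⊢ <;> omega
  choose x hx using fun i j => (S.range_elem c).symm ▸ hmem i j
  have hfix : ∀ i j k, ∀ σ : ℚ̄ ≃ₐ[ℚ] ℚ̄, σ (x i j k) = x i j k := by
    intro i j k σ
    have := congrArg (fun z => S.galois σ • z) (hx i j)
    simp only [smul_elem, smul_mul', S.basis_fixed] at this
    exact congrFun (S.elem_injective c (this.trans (hx i j).symm)) k
  choose T hT using fun i j k => exists_algebraMap_rat_of_fixed (hfix i j k)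
  exact ⟨T, fun i j => by simp only [hT]; exact (hx i j).symm⟩

/-- Structure constants of `L(a ∞) × L(b ∞) → L(c ∞)`. -/
def tens {a b c : ℕ} (h : a + b ≤ c) : S.Coord a → S.Coord b → S.Coord c → ℚ :=
  (S.exists_tens h).choose

/-- Multiplication in coordinates, over any `ℚ`-algebra. -/
def mulVec {A : Type} [CommRing A] [Algebra ℚ A] {a b c : ℕ} (h : a + b ≤ c) (x : S.Coord a → A)
    (y : S.Coord b → A) : S.Coord c → A :=
  fun k => ∑ i, ∑ j, algebraMap ℚ A (S.tens h i j k) * (x i * y j)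

theorem elem_mulVec {a b c : ℕ} (h : a + b ≤ c) (x : S.Coord a → ℚ̄) (y : S.Coord b → ℚ̄) :
    S.elem c (S.mulVec h x y) = S.elem a x * S.elem b y := by
  have hT := (S.exists_tens h).choose_spec
  simp only [S.elem_eq_sum a, S.elem_eq_sum b, Finset.sum_mul_sum, smul_mul_smul_comm, hT]
  simp only [← map_smul, ← map_sum]
  congr 1
  funext k
  simp only [mulVec, tens, Finset.sum_apply, Pi.smul_apply, smul_eq_mul]
  exact Finset.sum_congr rfl fun i _ => Finset.sum_congr rfl fun j _ => by ring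

theorem map_mulVec {A B : Type} [CommRing A] [Algebra ℚ A] [CommRing B] [Algebra ℚ B]
    (φ : A →ₐ[ℚ] B) {a b c : ℕ} (h : a + b ≤ c) (x : S.Coord a → A) (y : S.Coord b → A)
    (k : S.Coord c) : φ (S.mulVec h x y k) = S.mulVec h (φ ∘ x) (φ ∘ y) k := by
  simp [mulVec]

theorem mulVec_smul_left {A : Type} [CommRing A] [Algebra ℚ A] {a b c : ℕ} (h : a + b ≤ c) (t : A)
    (x : S.Coord a → A) (y : S.Coord b → A) :
    S.mulVec h (t • x) y = t • S.mulVec h x y := by
  funext k
  simp only [mulVec, Pi.smul_apply, smul_eq_mul, Finset.mul_sum]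
  exact Finset.sum_congr rfl fun i _ => Finset.sum_congr rfl fun j _ => by ring

theorem mulVec_smul_right {A : Type} [CommRing A] [Algebra ℚ A] {a b c : ℕ} (h : a + b ≤ c)
    (t : A) (x : S.Coord a → A) (y : S.Coord b → A) :
    S.mulVec h x (t • y) = t • S.mulVec h x y := by
  funext k
  simp only [mulVec, Pi.smul_apply, smul_eq_mul, Finset.mul_sum]
  exact Finset.sum_congr rfl fun i _ => Finset.sum_congr rfl fun j _ => by ring

end Setting

end Fermat.Agent.MordellWeil
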