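import Fermat.Agent.EichlerShimura.BaseChange
import Fermat.Agent.MordellWeil.Setting
import Mathlib.LinearAlgebra.Dual.Lemmas

/-!
# Galois descent on function fields inside Laurent series

For `F = laurentBaseChange ℚ̄ F₀`: Galois-stable finite dimensional spaces of functions have
bases of fixed functions, and fixed divisor classes contain fixed effective divisors up to a
multiple of the cusp.
-/

set_option autoImplicit false

noncomputable section

open AlgebraicCurve ModularCurve Module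
open Fermat.Agent.Curve Fermat.Agent.EichlerShimura

namespace Fermat.Agent.MordellWeil

local notation "ℚ̄" => AlgebraicClosure ℚ
local notation "Γℚ" => (AlgebraicClosure ℚ ≃ₐ[ℚ] AlgebraicClosure ℚ)

variable {F₀ : IntermediateField ℚ (LaurentSeries ℚ)}

/-- The `n`-th coefficient on a space of functions. -/
def coeffFun (V : Submodule ℚ̄ (laurentBaseChange ℚ̄ F₀)) (n : ℤ) : V →ₗ[ℚ̄] ℚ̄ where
  toFun f := ((f : laurentBaseChange ℚ̄ F₀) : LaurentSeries ℚ̄).coeff n
  map_add' _ _ := rfl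
  map_smul' c f := by
    simp only [RingHom.id_apply, SetLike.val_smul, smul_eq_mul, Algebra.smul_def]
    exact (congrArg (fun z : LaurentSeries ℚ̄ => z.coeff n) (constant_mul_eq c _))

theorem eq_of_forall_coeffFun {V : Submodule ℚ̄ (laurentBaseChange ℚ̄ F₀)} {f g : V}
    (h : ∀ n, coeffFun V n f = coeffFun V n g) : f = g :=
  Subtype.ext (Subtype.ext (HahnSeries.ext (funext h)))

/-- A Galois stable space of functions has a basis of Galois fixed functions. -/
theorem exists_fixed_basis (V : Submodule ℚ̄ (laurentBaseChange ℚ̄ F₀)) [Module.Finite ℚ̄ V]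
    (hV : ∀ (σ : Γℚ), ∀ f ∈ V, arithmeticGalois F₀ σ • f ∈ V) :
    ∃ b : Basis (Fin (finrank ℚ̄ V)) ℚ̄ V, ∀ i (σ : Γℚ),
      arithmeticGalois F₀ σ • ((b i : V) : laurentBaseChange ℚ̄ F₀) = b i := by
  classical
  have htop : Submodule.span ℚ̄ (Set.range (coeffFun V)) = ⊤ := by
    refine Submodule.span_eq_top_of_ne_zero fun f hf => ?_
    by_contra! h
    exact hf (eq_of_forall_coeffFun fun n => by rw [h _ ⟨n, rfl⟩, map_zero])
  obtain ⟨t, ht, hspan, hli⟩ := exists_linearIndependent ℚ̄ (Set.range (coeffFun V))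
  rw [htop] at hspan
  let B : Basis t ℚ̄ (Dual ℚ̄ V) := Basis.mk hli (by rw [Subtype.range_coe, hspan])
  have : Fintype t := FiniteDimensional.fintypeBasisIndex B
  let b : Basis t ℚ̄ V := B.dualBasis.map (Module.evalEquiv ℚ̄ V).symm
  have hb : ∀ s u : t, (B u : Dual ℚ̄ V) (b s) = if u = s then 1 else 0 := fun s u => by
    simp only [b, Basis.map_apply, apply_evalEquiv_symm_apply, Basis.dualBasis_apply_self]
  have hfix : ∀ (s : t) (σ : Γℚ),
      arithmeticGalois F₀ σ • ((b s : V) : laurentBaseChange ℚ̄ F₀) = b s := by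
    intro s σ
    let e : V := ⟨_, hV σ _ (b s).2⟩
    suffices h : e = b s from congrArg Subtype.val h
    refine sub_eq_zero.mp ((forall_dual_apply_eq_zero_iff ℚ̄ _).mp fun φ => ?_)
    revert φ
    suffices h : ∀ u, (B u : Dual ℚ̄ V) (e - b s) = 0 by
      intro φ
      rw [← B.sum_repr φ, LinearMap.coe_sum, Finset.sum_apply]
      exact Finset.sum_eq_zero fun u _ => by rw [LinearMap.smul_apply, h u, smul_zero]
    intro u
    obtain ⟨n, hn⟩ := ht u.2
    have hBu : B u = coeffFun V n := by rw [Basis.mk_apply, hn]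
    have h1 : coeffFun V n e = σ (coeffFun V n (b s)) := by
      show (((arithmeticGalois F₀ σ • ((b s : V) : laurentBaseChange ℚ̄ F₀)) :
        laurentBaseChange ℚ̄ F₀) : LaurentSeries ℚ̄).coeff n = _
      rw [coe_arithmeticGalois_smul, coeffMap_coeff]
      rfl
    have h2 := hb s u
    rw [hBu] at h2 ⊢
    rw [map_sub, h1, h2]
    split <;> simp
  have hcard : Fintype.card t = finrank ℚ̄ V := (finrank_eq_card_basis b).symm
  exact ⟨b.reindex (Fintype.equivFinOfCardEq hcard), fun i σ => by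
    rw [Basis.reindex_apply]; exact hfix _ σ⟩

/-- The Riemann–Roch space of a fixed divisor is Galois stable. -/
theorem smul_mem_riemannRochSpace {D : Divisor ℚ̄ (laurentBaseChange ℚ̄ F₀)} {σ : Γℚ}
    (hD : arithmeticGalois F₀ σ • D = D) {f : laurentBaseChange ℚ̄ F₀}
    (hf : f ∈ riemannRochSpace D) : arithmeticGalois F₀ σ • f ∈ riemannRochSpace D := by
  rw [mem_riemannRochSpace_iff] at hf ⊢
  intro v
  rcases hf ((arithmeticGalois F₀ σ)⁻¹ • v) with rfl | h
  · left
    rw [SemilinearAut.smul_def, map_zero]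
  right
  have h1 := SemilinearAut.ord_smul (arithmeticGalois F₀ σ) ((arithmeticGalois F₀ σ)⁻¹ • v) f
  rw [smul_inv_smul] at h1
  rwa [h1, ← hD, SemilinearAut.divisor_smul_apply]

section Cusp

variable [Fact (jq ∈ F₀)] [IsFunctionField1 ℚ̄ (laurentBaseChange ℚ̄ F₀)]

/-- `L(n ∞)` has a basis of functions with rational `q`-expansion, up to the Galois action. -/
theorem exists_fixed_basis_cusp (n : ℤ) :
    ∃ b : Basis (Fin (ell (Finsupp.single (cuspPlace ℚ̄ F₀) n))) ℚ̄
        (riemannRochSpace (Finsupp.single (cuspPlace ℚ̄ F₀) n)),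
      ∀ i (σ : Γℚ), arithmeticGalois F₀ σ • ((b i : riemannRochSpace
        (Finsupp.single (cuspPlace ℚ̄ F₀) n)) : laurentBaseChange ℚ̄ F₀) = b i :=
  exists_fixed_basis _ fun σ _ hf => smul_mem_riemannRochSpace
    (by rw [SemilinearAut.smul_single, smul_cuspPlace]) hf

set_option maxHeartbeats 1600000 in
/-- A fixed class contains a fixed effective divisor minus a multiple `m ≤ g` of the cusp. -/
theorem exists_fixed_effective {D : Divisor ℚ̄ (laurentBaseChange ℚ̄ F₀)}
    (hdeg : Divisor.degree D = 0)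
    (hD : ∀ σ : Γℚ, arithmeticGalois F₀ σ • D - D ∈ Divisor.principal) :
    ∃ (m : ℕ) (E : Divisor ℚ̄ (laurentBaseChange ℚ̄ F₀)),
      m ≤ genusFF ℚ̄ (laurentBaseChange ℚ̄ F₀) ∧ (∀ v, 0 ≤ E v) ∧ Divisor.degree E = m ∧
      (∀ σ : Γℚ, arithmeticGalois F₀ σ • E = E) ∧
      E - Finsupp.single (cuspPlace ℚ̄ F₀) (m : ℤ) - D ∈ Divisor.principal := by
  set P := cuspPlace ℚ̄ F₀ with hP
  set g := genusFF ℚ̄ (laurentBaseChange ℚ̄ F₀) with hg
  set D' := D + Finsupp.single P (g : ℤ) with hD'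
  have hP1 : (P.deg : ℤ) = 1 := by exact_mod_cast (deg_cuspPlace F₀).1
  have hdeg' : Divisor.degree D' = g := by
    rw [hD', map_add, hdeg, Divisor.degree_single, hP1, zero_add, mul_one]
  have hell : (1 : ℤ) ≤ ell D' := by
    have := riemann_inequality D'
    rw [hdeg', ← hg] at this
    omega
  obtain ⟨f₀, hf₀, hne⟩ : ∃ f ∈ riemannRochSpace D', f ≠ 0 := by
    refine Submodule.exists_mem_ne_zero_of_ne_bot fun h => ?_
    rw [ell, h, finrank_bot] at hell
    omega
  obtain ⟨M, E, hE, hfix, hprinc⟩ := exists_invariant_effective (deg_cuspPlace F₀).2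
    (f₀ := f₀) (D := D') ⟨hne, fun v => by
      have := (mem_riemannRochSpace_iff.mp hf₀ v).resolve_left hne
      omega⟩ (Set.range (arithmeticGalois F₀))
    (by rintro _ ⟨σ, rfl⟩; exact smul_cuspPlace F₀ σ)
    (by
      rintro _ ⟨σ, rfl⟩
      rw [hD', smul_add, SemilinearAut.smul_single, hP, smul_cuspPlace, add_sub_add_right_eq_sub]
      exact hD σ)
  have hdegE : Divisor.degree E = (g : ℤ) - M := by
    obtain ⟨f, hf, hord⟩ := hprinc
    obtain ⟨Z, hZ, hZdeg⟩ := HasPrincipalDivisors.exists_divisor (K := ℚ̄) f hf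
    have h : E - (D' - Finsupp.single P (M : ℤ)) = Z :=
      Finsupp.ext fun v => (hord v).trans (hZ v).symm
    rw [← h, map_sub, map_sub, hdeg', Divisor.degree_single, hP1] at hZdeg
    linarith
  have hnn : (0 : ℤ) ≤ (g : ℤ) - M := hdegE ▸ degree_nonneg_of_nonneg hE
  refine ⟨g - M, E, Nat.sub_le g M, hE, by rw [hdegE]; omega,
    fun σ => hfix _ ⟨σ, rfl⟩, ?_⟩
  convert hprinc using 1
  rw [hD', Nat.cast_sub (by omega), Finsupp.single_sub]
  abel

variable (F₀) in
/-- The setting attached to a function field inside Laurent series. -/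
def laurentSetting : Setting (laurentBaseChange ℚ̄ F₀) where
  infty := cuspPlace ℚ̄ F₀
  galois := arithmeticGalois F₀
  baseAut_galois := baseAut_arithmeticGalois F₀
  galois_infty := smul_cuspPlace F₀
  basis n := (exists_fixed_basis_cusp n).choose
  basis_fixed n := (exists_fixed_basis_cusp n).choose_spec

/-- A Galois fixed point of `Pic⁰` is the class of `E - m ∞` with `E` fixed and effective. -/
theorem exists_fixed_effective_of_fixed {x : Pic0 ℚ̄ (laurentBaseChange ℚ̄ F₀)}
    (hx : ∀ σ : Γℚ, σ • x = x) :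
    ∃ (m : ℕ) (E : Divisor ℚ̄ (laurentBaseChange ℚ̄ F₀))
      (h : E - Finsupp.single (cuspPlace ℚ̄ F₀) (m : ℤ) ∈ Divisor.degZero),
      m ≤ genusFF ℚ̄ (laurentBaseChange ℚ̄ F₀) ∧ (∀ v, 0 ≤ E v) ∧ Divisor.degree E = m ∧
      (∀ σ : Γℚ, arithmeticGalois F₀ σ • E = E) ∧
      x = Pic0.mk ⟨E - Finsupp.single (cuspPlace ℚ̄ F₀) (m : ℤ), h⟩ := by
  obtain ⟨⟨D, hD0⟩, rfl⟩ := Pic0.mk_surjective x
  obtain ⟨m, E, hm, hE, hdeg, hfix, hprinc⟩ := exists_fixed_effective (F₀ := F₀) hD0 fun σ => by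
    have h := hx σ
    rw [galois_smul_pic0_def, SemilinearAut.pic0_smul_mk, Pic0.mk, Pic0.mk,
      QuotientAddGroup.eq_iff_sub_mem, AddSubgroup.mem_addSubgroupOf] at h
    exact h
  have h0 : E - Finsupp.single (cuspPlace ℚ̄ F₀) (m : ℤ) ∈ Divisor.degZero := by
    rw [Divisor.mem_degZero, map_sub, hdeg, Divisor.degree_single, (deg_cuspPlace F₀).1]
    simp
  refine ⟨m, E, h0, hm, hE, hdeg, hfix, ?_⟩
  rw [Pic0.mk, Pic0.mk, QuotientAddGroup.eq_iff_sub_mem, AddSubgroup.mem_addSubgroupOf]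
  have h1 := (Divisor.principal (K := ℚ̄) (F := laurentBaseChange ℚ̄ F₀)).neg_mem hprinc
  rwa [neg_sub] at h1

end Cusp

/-- `j` lies in the function field of `X₀(N)`. -/
instance fact_jq_mem_full (N : ℕ) [NeZero N] : Fact (jq ∈ modularFunctionFieldFull N) :=
  ⟨by simpa [qExpand_one_apply] using jqd_mem_full N (one_dvd N)⟩

end Fermat.Agent.MordellWeil
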