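import Fermat.Agent.MordellWeil.JZeroWeak
import Fermat.Agent.MordellWeil.DivisibleDescent
import Fermat.Agent.Torsion.Analytic.Abel
import Fermat.Agent.Reduction.Inputs
import Fermat.Agent.EC.Red.ResidueQbar

/-!
# Weak Mordell–Weil for `J₀(N)` over `ℚ`

Instantiation of `JZeroWeak`: divisibility and finite torsion from the complex torus, good
reduction away from `6 N` from the Gauss reduction of `q`-expansions.
-/

set_option autoImplicit false
set_option synthInstance.maxHeartbeats 400000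

noncomputable section

open AlgebraicCurve ModularCurve

namespace Fermat.Agent.MordellWeil

open Fermat.Agent.Reduction

local instance : Algebra.IsAlgebraic ℚ (AlgebraicClosure ℚ) := AlgebraicClosure.isAlgebraic ℚ

/-- Good reduction of `J₀(N)` on points of order two, away from `6 N`. -/
theorem goodReductionTwo (N : ℕ) [NeZero N] {ℓ : ℕ} (hℓ : ℓ.Prime) (h6 : ¬ ℓ ∣ 6 * N) :
    GoodReductionTwo N ℓ := by
  intro A hA
  have : Fact ℓ.Prime := ⟨hℓ⟩
  have hℓN : ¬ ℓ ∣ N := fun h => h6 (h.mul_left 6)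
  have hℓ2 : ¬ ℓ ∣ 2 := fun h => h6 ((h.mul_right 3).mul_right N)
  have hcond : (ℓ = 2 → 3 ∣ N) ∧ (ℓ = 3 → 2 ∣ N) :=
    ⟨fun h => absurd (h ▸ dvd_refl ℓ) hℓ2,
      fun h => absurd ((show ℓ ∣ 6 from h ▸ (by norm_num)).mul_right N) h6⟩
  have : IsAlgClosed (IsLocalRing.ResidueField A) := EC.isAlgClosed_residueField A
  have hgenus := genusFF_le_modL N hℓN A hA hcond
  obtain ⟨r, hdeg, hr⟩ := (gaussDataX0 N hℓN A hA).exists_placeCompat hgenus
  have hrP := isPlaceReductionModL_of_placeCompat N hℓN A hA hdeg hr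
  have hgen := principalGeneratedByIntegral N hℓN A hA
  refine ⟨⟨r, hrP, hgen⟩, fun z hz hred => ?_⟩
  obtain ⟨D, rfl⟩ := Pic0.mk_surjective z
  rw [show reductionModL A N = reductionAlong A (IsLocalRing.residue A) N from rfl,
    reductionAlong_mk_of_isPlaceReduction one_le_deg weakRiemann hrP hgen D] at hred
  exact ((gaussDataX0 N hℓN A hA).smoothReduction hgenus hr hdeg).mk_eq_zero_of_nsmul
    (EC.natCast_residue_ne_zero A hℓ hA hℓ2) D hz ((QuotientAddGroup.eq_zero_iff _).mp hred)

/-- `J₀(N)(ℚ̄)` is two-divisible and has finitely many points of order two. -/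
theorem two_divisible_and_finite_torsion (N : ℕ) [NeZero N] :
    (∀ x : JZero N, ∃ y : JZero N, 2 • y = x) ∧ {x : JZero N | 2 • x = 0}.Finite := by
  let ι : AlgebraicClosure ℚ →ₐ[ℚ] ℂ := IsAlgClosed.lift
  let F' := laurentBaseChange ℂ (modularFunctionFieldFull N)
  have : Curve.IsFunctionField1 ℂ F' :=
    EichlerShimura.isFunctionField1_laurentBaseChange (modularFunctionFieldFull N) ι
  refine divisible_and_finite_laurentBaseChange (n := 2) (modularFunctionFieldFull N) ι
    (Torsion.Analytic.exists_nsmul_eq_complex F' 2 two_ne_zero) ?_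
  have hcard := Torsion.Analytic.natCard_torsion_complex F' 2 two_ne_zero
  have : Finite (Pic0.torsion ℂ F' 2) :=
    Nat.finite_of_card_ne_zero (by rw [hcard]; exact pow_ne_zero _ two_ne_zero)
  refine (Set.toFinite (Set.range fun t : Pic0.torsion ℂ F' 2 => (t : Pic0 ℂ F'))).subset
    fun x hx => ?_
  exact ⟨⟨x, Pic0.mem_torsion.2 ((natCast_zsmul x 2).trans hx)⟩, rfl⟩

/-- **Weak Mordell–Weil**: `J₀(N)(ℚ) / 2 J₀(N)(ℚ)` is finite. -/
theorem finiteIndex_two_fixedPoints (N : ℕ) [NeZero N] :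
    (nsmulAddMonoidHom (α := ↥(FixedPoints.addSubgroup
      ((AlgebraicClosure ℚ) ≃ₐ[ℚ] (AlgebraicClosure ℚ)) (JZero N))) 2).range.FiniteIndex :=
  finiteIndex_two_fixedPoints_of N (two_divisible_and_finite_torsion N).1
    (two_divisible_and_finite_torsion N).2 (m := 6 * N)
    (Nat.mul_ne_zero (by norm_num) (NeZero.ne N))
    fun _ hℓ h6 => goodReductionTwo N hℓ h6

end Fermat.Agent.MordellWeil
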