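import Fermat.Agent.MordellWeil.CoreHeight

/-!
The theorem of the cube for the Plücker heights `D ↦ h(L(L ∞ - D))`: the third difference is bounded
on Galois fixed effective divisors of bounded degree.
-/

set_option autoImplicit false
set_option linter.unusedSectionVars false

noncomputable section

open AlgebraicCurve Fermat.Agent.Curve Height

namespace Fermat.Agent.MordellWeil

local notation "ℚ̄" => AlgebraicClosure ℚ

variable {F : Type} [Field F] [Algebra ℚ̄ F] [IsFunctionField1 ℚ̄ F]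

namespace Setting

variable (S : Setting F)

theorem space_mono {n : ℕ} {D D' : Divisor ℚ̄ F} (h : D ≤ D') : S.space n D' ≤ S.space n D :=
  fun x hx => by
    rw [mem_space_iff] at hx ⊢
    exact riemannRochSpace_mono (sub_le_sub_left h _) hx

theorem exists_isQuot_space {n d e : ℕ} {D E : Divisor ℚ̄ F} (hD : 0 ≤ D) (hE : 0 ≤ E)
    (hd : Divisor.degree D = (d : ℤ)) (he : Divisor.degree E = (e : ℤ))
    (h : d + e + S.bound ≤ n) :
    ∃ π : (S.Coord n → ℚ̄) →ₗ[ℚ̄] (Fin e → ℚ̄), IsQuot (S.space n (D + E)) (S.space n D) π := by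
  refine exists_isQuot (S.space_mono (le_add_of_nonneg_right hE)) ?_
  rw [S.finrank_space_eq hD hd (by omega),
    S.finrank_space_eq (d := d + e) (add_nonneg hD hE) (by rw [map_add, hd, he]; push_cast; ring) h]
  have hg : S.genus < S.bound := by simp [Setting.genus, Setting.bound]
  simp only [Setting.spaceDim]
  omega

theorem space_zero (n : ℕ) : S.space n 0 = ⊤ :=
  eq_top_iff.mpr fun x _ => S.mem_space_zero x

theorem finrank_coord {n : ℕ} (h : S.bound ≤ n) :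
    Module.finrank ℚ̄ (S.Coord n → ℚ̄) + S.genus = n + 1 := by
  rw [Module.finrank_fintype_fun_eq_card, Fintype.card_fin]
  have := S.ell_eq_of_bound_le (D := S.pole n) (by rw [S.degree_pole]; omega)
  rw [S.degree_pole] at this
  omega

end Setting

theorem exists_rat_smul {σ : Type} {u v : σ → ℚ} {k : ℚ̄} (hu : u ≠ 0)
    (h : castVec u = k • castVec v) : ∃ q : ℚ, q ≠ 0 ∧ u = q • v := by
  obtain ⟨i, hi⟩ := Function.ne_iff.mp hu
  have hv : v i ≠ 0 := fun hv => hi (by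
    have := congrFun h i
    simp only [Pi.smul_apply, smul_eq_mul, castVec, hv, map_zero, mul_zero] at this
    simpa using this)
  refine ⟨u i / v i, div_ne_zero hi hv, castVec_injective ?_⟩
  have hk : k = algebraMap ℚ ℚ̄ (u i / v i) := by
    have := congrFun h i
    simp only [Pi.smul_apply, smul_eq_mul, castVec] at this
    rw [map_div₀, this, mul_div_cancel_right₀]
    simpa using hv
  rw [h, hk]
  funext j
  simp [castVec]

theorem logHeight_pow_fun {σ : Type} [Finite σ] (v : σ → ℚ) (k : ℕ) :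
    logHeight (fun j => v j ^ k) = k * logHeight v :=
  logHeight_pow v k

namespace Levels

variable {S : Setting F} (P : Levels S)

/-- Index type of the quotient determinant vector. -/
abbrev QIx : Type := Fin (P.NW + 1) × Fin (P.NU + 1) × (Fin P.e → S.Coord P.s)

/-- The quotient determinants on the families. -/
def qdVec (π : (S.Coord P.T → ℚ̄) →ₗ[ℚ̄] (Fin P.e → ℚ̄)) (pW : (Fin P.MW → S.Coord P.a) → ℚ)
    (pU : (Fin P.MU → S.Coord P.b) → ℚ) : P.QIx → ℚ̄ :=
  fun t => S.qdet P.sum_eq.le π (fam (castVec pW) ((t.1 : ℕ) : ℚ̄))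
    (fam (castVec pU) ((t.2.1 : ℕ) : ℚ̄)) t.2.2

/-- The quotient determinant vector is rational up to a scalar, and its height. -/
theorem exists_qd_height : ∃ K : ℝ, ∀ A B E : Divisor ℚ̄ F, 0 ≤ A → 0 ≤ B → 0 ≤ E →
    S.IsRat A → S.IsRat B → S.IsRat E →
    Divisor.degree A = (P.dA : ℤ) → Divisor.degree B = (P.dB : ℤ) →
    Divisor.degree E = (P.e : ℤ) →
    ∀ (pW : (Fin P.MW → S.Coord P.a) → ℚ) (pU : (Fin P.MU → S.Coord P.b) → ℚ),
      IsRep pW (S.space P.a A) → IsRep pU (S.space P.b B) →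
      ∀ π, IsQuot (S.space P.T (A + B + E)) (S.space P.T (A + B)) π →
        ∃ (qd : P.QIx → ℚ) (l : ℚ̄), l ≠ 0 ∧ qd ≠ 0 ∧ castVec qd = l • P.qdVec π pW pU ∧
          |logHeight qd + S.height P.T (A + B) - ((P.e : ℝ) * logHeight pW +
            (P.e : ℝ) * logHeight pU + S.height P.T (A + B + E))| ≤ K := by
  have hsum := P.sum_eq
  have ha := P.ha
  have hb := P.hb
  have hs := P.hs
  have hg : S.genus < S.bound := by simp [Setting.genus, Setting.bound]
  obtain ⟨K, hK⟩ := P.exists_core_height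
  refine ⟨K, fun A B E hA hB hE hrA hrB hrE hdA hdB hdE pW pU hpW hpU π hπ => ?_⟩
  obtain ⟨pR, hpR, hhR⟩ := S.exists_isRep_space (n := P.T) (d := P.dA + P.dB + P.e)
    (add_nonneg (add_nonneg hA hB) hE) (Setting.IsRat.add S (Setting.IsRat.add S hrA hrB) hrE)
    (by rw [map_add, map_add, hdA, hdB, hdE]; push_cast; ring) (by omega)
  obtain ⟨q, hq, hhq⟩ := S.exists_isRep_space (n := P.T) (d := P.dA + P.dB)
    (add_nonneg hA hB) (Setting.IsRat.add S hrA hrB)
    (by rw [map_add, hdA, hdB]; push_cast; ring) (by omega)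
  have hεcard : P.MR + P.e = S.spaceDim P.T (P.dA + P.dB) := by
    simp only [Levels.MR, Setting.spaceDim]; omega
  let ε : Fin P.MR ⊕ Fin P.e ≃ Fin (S.spaceDim P.T (P.dA + P.dB)) :=
    finSumFinEquiv.trans (finCongr hεcard)
  obtain ⟨l, hl, hmin⟩ := minors_slot_sum_eq (by simp only [Setting.spaceDim]; omega)
    hpR.1 hq.1 (π := π) (by rw [hpR.2, hq.2]; exact hπ) ε
  have hfW : ∀ c, fam (castVec pW) c ∈ S.space P.a A := fun c => hpW.2 ▸ fam_mem _ _
  have hgU : ∀ c, fam (castVec pU) c ∈ S.space P.b B := fun c => hpU.2 ▸ fam_mem _ _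
  have hv : ∀ (t : P.QIx) i, S.tri P.sum_eq.le (fam (castVec pW) ((t.1 : ℕ) : ℚ̄))
      (fam (castVec pU) ((t.2.1 : ℕ) : ℚ̄)) (S.unitVec (t.2.2 i)) ∈ plSpan (castVec q) := by
    intro t i
    rw [hq.2]
    have := S.mulVec_mem_space (c := P.T) (n := P.a + P.b) P.sum_eq.le
      (S.mulVec_mem_space le_rfl (hfW ((t.1 : ℕ) : ℚ̄)) (hgU ((t.2.1 : ℕ) : ℚ̄)))
      (S.mem_space_zero (S.unitVec (t.2.2 i)))
    rwa [add_zero] at this
  have hcast : ∀ i : P.CoreIx, algebraMap ℚ ℚ̄ (P.core pW pU pR i)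
      = l * algebraMap ℚ ℚ̄ (pR i.2.2.2.1) ^ (P.MR - 1) * P.qdVec π pW pU (i.1, i.2.1, i.2.2.1)
        * algebraMap ℚ ℚ̄ (q (i.2.2.2.2 ∘ ε.symm)) := by
    intro i
    have h1 := P.map_core (Algebra.ofId ℚ ℚ̄) pW pU pR i
    simp only [Algebra.ofId_apply] at h1
    rw [h1]
    exact hmin i.2.2.2.1 _ (hv (i.1, i.2.1, i.2.2.1)) i.2.2.2.2
  obtain ⟨J₀, hJ₀⟩ := Function.ne_iff.mp hpR.ne_zero
  obtain ⟨I, hI⟩ := Function.ne_iff.mp hq.ne_zero
  have hI' : q ((I ∘ ε) ∘ ε.symm) = q I := by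
    rw [Function.comp_assoc, Equiv.self_comp_symm, Function.comp_id]
  let qd : P.QIx → ℚ := fun t => P.core pW pU pR (t.1, t.2.1, t.2.2, J₀, I ∘ ε)
  let lam : ℚ̄ := l * algebraMap ℚ ℚ̄ (pR J₀) ^ (P.MR - 1) * algebraMap ℚ ℚ̄ (q I)
  have hlam : lam ≠ 0 := mul_ne_zero (mul_ne_zero hl (pow_ne_zero _ (by simpa using hJ₀)))
    (by simpa using hI)
  have hqd : castVec qd = lam • P.qdVec π pW pU := by
    funext t
    show algebraMap ℚ ℚ̄ (P.core pW pU pR (t.1, t.2.1, t.2.2, J₀, I ∘ ε)) = _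
    rw [hcast, hI']
    simp only [Pi.smul_apply, smul_eq_mul, lam, Prod.mk.eta]
    ring
  -- non-vanishing
  have hmapA : (plSpan (castVec pW)).map (S.elem P.a) = riemannRochSpace (S.pole P.a - A) := by
    rw [hpW.2, S.map_elem_space _ hA]
  have hmapB : (plSpan (castVec pU)).map (S.elem P.b) = riemannRochSpace (S.pole P.b - B) := by
    rw [hpU.2, S.map_elem_space _ hB]
  have hcard : E.support.card ≤ P.e := by
    have := card_support_le_degree hE
    omega
  obtain ⟨c, hfc0, hfc⟩ := S.exists_fam_exact hA hdA P.ha hmapA E.support (N := P.NW)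
    (Nat.mul_le_mul_right _ (by omega))
  obtain ⟨c', hgc0, hgc⟩ := S.exists_fam_exact hB hdB P.hb hmapB E.support (N := P.NU)
    (Nat.mul_le_mul_right _ (by omega))
  obtain ⟨ω, hω⟩ := S.exists_qdet_ne_zero P.sum_eq
    ⟨by simp only [Setting.spaceDim]; omega, S.finrank_space_eq hE hdE P.hs⟩ hπ (hfW _) (hgU _)
    (fun h => hfc0 (by rw [h, map_zero])) (fun h => hgc0 (by rw [h, map_zero]))
    (fun v hv => hfc v (Finsupp.mem_support_iff.mpr hv))
    (fun v hv => hgc v (Finsupp.mem_support_iff.mpr hv)) (S.finrank_coord (by omega))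
  have hqd0 : qd ≠ 0 := fun h => by
    have := congrFun hqd (c, c', ω)
    simp only [h, Pi.smul_apply, smul_eq_mul, castVec, Pi.zero_apply, map_zero] at this
    exact mul_ne_zero hlam hω this.symm
  refine ⟨qd, lam, hlam, hqd0, hqd, ?_⟩
  -- the height of the core vector
  let e3 : P.CoreIx ≃ P.QIx × ((Fin P.MR → S.Coord P.T) × (Fin P.MR ⊕ Fin P.e → S.Coord P.T)) :=
    { toFun := fun i => ((i.1, i.2.1, i.2.2.1), (i.2.2.2.1, i.2.2.2.2))
      invFun := fun t => (t.1.1, t.1.2.1, t.1.2.2, t.2.1, t.2.2)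
      left_inv := fun _ => rfl
      right_inv := fun _ => rfl }
  let pk : (Fin P.MR → S.Coord P.T) → ℚ := fun J => pR J ^ (P.MR - 1)
  let qε : (Fin P.MR ⊕ Fin P.e → S.Coord P.T) → ℚ := fun J => q (J ∘ ε.symm)
  let tens : P.QIx × ((Fin P.MR → S.Coord P.T) × (Fin P.MR ⊕ Fin P.e → S.Coord P.T)) → ℚ :=
    fun t => qd t.1 * (pk t.2.1 * qε t.2.2)
  have hcore : (pR J₀ ^ (P.MR - 1) * q I) • P.core pW pU pR = tens ∘ e3 := by
    funext i
    refine (algebraMap ℚ ℚ̄).injective ?_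
    have h2 : algebraMap ℚ ℚ̄ (qd (i.1, i.2.1, i.2.2.1))
        = lam * P.qdVec π pW pU (i.1, i.2.1, i.2.2.1) := congrFun hqd _
    simp only [Pi.smul_apply, smul_eq_mul, Function.comp_apply, tens, e3, Equiv.coe_fn_mk, pk, qε,
      map_mul, map_pow, hcast, h2, lam]
    ring
  have hpk : pk ≠ 0 := fun h => pow_ne_zero _ hJ₀ (congrFun h J₀)
  have hqε : qε ≠ 0 := fun h => hI (by
    have := congrFun h (I ∘ ε)
    simp only [qε, hI', Pi.zero_apply] at this
    exact this)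
  have hcoreh : logHeight (P.core pW pU pR)
      = logHeight qd + (((P.MR - 1 : ℕ) : ℝ) * logHeight pR + logHeight q) := by
    rw [← logHeight_smul_eq_logHeight _ (mul_ne_zero (pow_ne_zero _ hJ₀) hI), hcore,
      logHeight_comp_equiv]
    show logHeight (fun t : P.QIx × _ => qd t.1 * (fun s : _ × _ => pk s.1 * qε s.2) t.2) = _
    rw [logHeight_fun_mul_eq (y := fun s : (Fin P.MR → S.Coord P.T) ×
        (Fin P.MR ⊕ Fin P.e → S.Coord P.T) => pk s.1 * qε s.2) hqd0,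
      logHeight_fun_mul_eq hpk hqε]
    · have h1 : logHeight qε = logHeight q :=
        logHeight_comp_equiv (Equiv.arrowCongr ε (Equiv.refl (S.Coord P.T))) q
      rw [h1, show logHeight pk = _ from logHeight_pow_fun pR (P.MR - 1)]
    · obtain ⟨J, hJ⟩ := Function.ne_iff.mp hpk
      obtain ⟨J', hJ'⟩ := Function.ne_iff.mp hqε
      exact Function.ne_iff.mpr ⟨(J, J'), mul_ne_zero hJ hJ'⟩
  have h := hK A B E hA hB hE hrA hrB hrE hdA hdB hdE pW pU pR hpW hpU hpR
  rw [hcoreh] at h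
  have hM : ((P.MR - 1 : ℕ) : ℝ) = (P.MR : ℝ) - 1 := by
    rw [Nat.cast_sub (by simp only [Levels.MR, Setting.spaceDim]; omega)]; simp
  rw [hM] at h
  rw [hhR, hhq]
  convert h using 2
  ring

end Levels

namespace Setting

variable (S : Setting F)

/-- The numerical parameters used for the cube at level `L`. -/
def cubeLevels (L dA dB e : ℕ) (h : 2 * (dA + dB + 1 + S.bound) + e + S.bound + 1 ≤ L) :
    Levels S where
  a := (L - (e + S.bound)) / 2
  b := L - (e + S.bound) - (L - (e + S.bound)) / 2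
  s := e + S.bound
  T := L
  dA := dA
  dB := dB
  e := e
  sum_eq := by omega
  ha := by omega
  hb := by omega
  hs := le_rfl
  hT := by omega

/-- The cube at level `L` for given degrees. -/
theorem exists_cube_of_degree (L dA dB e : ℕ)
    (h : 2 * (dA + dB + 1 + S.bound) + e + S.bound + 1 ≤ L) :
    ∃ K : ℝ, ∀ A B E : Divisor ℚ̄ F, 0 ≤ A → 0 ≤ B → 0 ≤ E →
      S.IsRat A → S.IsRat B → S.IsRat E →
      Divisor.degree A = (dA : ℤ) → Divisor.degree B = (dB : ℤ) → Divisor.degree E = (e : ℤ) →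
      |S.height L (A + B + E) + S.height L A + S.height L B + S.height L E
        - S.height L (A + B) - S.height L (A + E) - S.height L (B + E) - S.height L 0| ≤ K := by
  let P11 := S.cubeLevels L dA dB e h
  let P00 := S.cubeLevels L 0 0 e (by omega)
  let P10 := S.cubeLevels L dA 0 e (by omega)
  let P01 := S.cubeLevels L 0 dB e (by omega)
  obtain ⟨K11, h11⟩ := P11.exists_qd_height
  obtain ⟨K00, h00⟩ := P00.exists_qd_height
  obtain ⟨K10, h10⟩ := P10.exists_qd_height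
  obtain ⟨K01, h01⟩ := P01.exists_qd_height
  refine ⟨K11 + K00 + K10 + K01, fun A B E hA hB hE hrA hrB hrE hdA hdB hdE => ?_⟩
  have hg : S.genus < S.bound := by simp [Setting.genus, Setting.bound]
  have hd0 : Divisor.degree (0 : Divisor ℚ̄ F) = ((0 : ℕ) : ℤ) := by simp
  have hab : P11.a + P11.b + P11.s = L := P11.sum_eq
  have haA : dA + 1 + S.bound ≤ P11.a := P11.ha
  have hbB : dB + 1 + S.bound ≤ P11.b := P11.hb
  have hse : e + S.bound ≤ P11.s := P11.hs
  obtain ⟨pA, hpA, -⟩ := S.exists_isRep_space (n := P11.a) hA hrA hdA (by omega)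
  obtain ⟨pB, hpB, -⟩ := S.exists_isRep_space (n := P11.b) hB hrB hdB (by omega)
  obtain ⟨pA0, hpA0, -⟩ :=
    S.exists_isRep_space (n := P11.a) (le_refl (0 : Divisor ℚ̄ F)) S.isRat_zero hd0 (by omega)
  obtain ⟨pB0, hpB0, -⟩ :=
    S.exists_isRep_space (n := P11.b) (le_refl (0 : Divisor ℚ̄ F)) S.isRat_zero hd0 (by omega)
  -- quotients
  obtain ⟨πs, hπs⟩ := S.exists_isQuot_space (n := P11.s) (d := 0) (le_refl 0) hE hd0 hdE (by omega)
  rw [zero_add, S.space_zero] at hπs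
  obtain ⟨σs, hσs⟩ := hπs.exists_section
  obtain ⟨πA, hπA⟩ :=
    S.exists_isQuot_space (n := P11.a + P11.s) hA hE hdA hdE (by omega)
  obtain ⟨σA, hσA⟩ := hπA.exists_section
  obtain ⟨πA0, hπA0⟩ :=
    S.exists_isQuot_space (n := P11.a + P11.s) (d := 0) (le_refl 0) hE hd0 hdE (by omega)
  obtain ⟨σA0, hσA0⟩ := hπA0.exists_section
  obtain ⟨πB, hπB⟩ :=
    S.exists_isQuot_space (n := P11.b + P11.s) hB hE hdB hdE (by omega)
  obtain ⟨σB, hσB⟩ := hπB.exists_section
  obtain ⟨πB0, hπB0⟩ :=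
    S.exists_isQuot_space (n := P11.b + P11.s) (d := 0) (le_refl 0) hE hd0 hdE (by omega)
  obtain ⟨σB0, hσB0⟩ := hπB0.exists_section
  obtain ⟨π11, hπ11⟩ := S.exists_isQuot_space (n := L) (d := dA + dB) (add_nonneg hA hB) hE
    (by rw [map_add, hdA, hdB]; push_cast; ring) hdE (by omega)
  obtain ⟨π00, hπ00⟩ := S.exists_isQuot_space (n := L) (d := 0)
    (add_nonneg (le_refl (0 : Divisor ℚ̄ F)) (le_refl 0)) hE (by simp) hdE (by omega)
  obtain ⟨π10, hπ10⟩ := S.exists_isQuot_space (n := L) (d := dA)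
    (add_nonneg hA (le_refl (0 : Divisor ℚ̄ F))) hE (by simp [hdA]) hdE (by omega)
  obtain ⟨π01, hπ01⟩ := S.exists_isQuot_space (n := L) (d := dB)
    (add_nonneg (le_refl (0 : Divisor ℚ̄ F)) hB) hE (by simp [hdB]) hdE (by omega)
  -- exact members
  have hcard : E.support.card ≤ e := by
    have := card_support_le_degree hE
    omega
  have exact : ∀ {n d M : ℕ} {D : Divisor ℚ̄ F} {p : (Fin M → S.Coord n) → ℚ}, 0 ≤ D →
      Divisor.degree D = (d : ℤ) → d + 1 + S.bound ≤ n → IsRep p (S.space n D) →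
      ∃ f ∈ S.space n D, f ≠ 0 ∧ ∀ v, E v ≠ 0 → v.ord (S.elem n f) + S.pole n v = D v := by
    intro n d M D p hD hd hn hp
    obtain ⟨c, hc0, hc⟩ := S.exists_fam_exact hD hd hn
      (show (plSpan (castVec p)).map (S.elem n) = _ by rw [hp.2, S.map_elem_space _ hD]) E.support
      (N := (e + 1) * slotCount (S.Coord n) M) (Nat.mul_le_mul_right _ (by omega))
    exact ⟨_, hp.2 ▸ fam_mem _ _, fun h => hc0 (by rw [h, map_zero]),
      fun v hv => hc v (Finsupp.mem_support_iff.mpr hv)⟩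
  obtain ⟨fA, hfA, hfA0, hfAe⟩ := exact hA hdA haA hpA
  obtain ⟨gB, hgB, hgB0, hgBe⟩ := exact hB hdB hbB hpB
  obtain ⟨f0, hf0, hf00, hf0e⟩ :=
    exact (le_refl (0 : Divisor ℚ̄ F)) hd0 (n := P11.a) (by omega) hpA0
  obtain ⟨g0, hg0, hg00, hg0e⟩ :=
    exact (le_refl (0 : Divisor ℚ̄ F)) hd0 (n := P11.b) (by omega) hpB0
  have hdimE : P11.s + 1 = S.spaceDim P11.s e + e + S.genus ∧
      Module.finrank ℚ̄ (S.space P11.s E) = S.spaceDim P11.s e :=
    ⟨by simp only [Setting.spaceDim]; omega, S.finrank_space_eq hE hdE hse⟩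
  have hcoord := S.finrank_coord (n := P11.s) (by omega)
  have hσs' : ∀ y, πs (σs y) = y := fun y => (hσs y).2
  obtain ⟨l11, hl11, e11⟩ := S.exists_qdet_factor P11.sum_eq hdimE hcoord hπs hσs' hπA hσA hπB hσB
    hπ11 hfA hgB hfA0 hgB0 hfAe hgBe
  obtain ⟨l00, hl00, e00⟩ := S.exists_qdet_factor P11.sum_eq hdimE hcoord hπs hσs' hπA0 hσA0 hπB0
    hσB0 hπ00 hf0 hg0 hf00 hg00 hf0e hg0e
  obtain ⟨l10, hl10, e10⟩ := S.exists_qdet_factor P11.sum_eq hdimE hcoord hπs hσs' hπA hσA hπB0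
    hσB0 hπ10 hfA hg0 hfA0 hg00 hfAe hg0e
  obtain ⟨l01, hl01, e01⟩ := S.exists_qdet_factor P11.sum_eq hdimE hcoord hπs hσs' hπA0 hσA0 hπB
    hσB hπ01 hf0 hgB hf00 hgB0 hf0e hgBe
  obtain ⟨q11, k11, hk11, hq11, hv11, hh11⟩ :=
    h11 A B E hA hB hE hrA hrB hrE hdA hdB hdE pA pB hpA hpB π11 hπ11
  obtain ⟨q00, k00, hk00, hq00, hv00, hh00⟩ :=
    h00 0 0 E (le_refl 0) (le_refl 0) hE S.isRat_zero S.isRat_zero hrE hd0 hd0 hdE pA0 pB0 hpA0
      hpB0 π00 hπ00
  obtain ⟨q10, k10, hk10, hq10, hv10, hh10⟩ :=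
    h10 A 0 E hA (le_refl 0) hE hrA S.isRat_zero hrE hdA hd0 hdE pA pB0 hpA hpB0 π10 hπ10
  obtain ⟨q01, k01, hk01, hq01, hv01, hh01⟩ :=
    h01 0 B E (le_refl 0) hB hE S.isRat_zero hrB hrE hd0 hdB hdE pA0 pB hpA0 hpB π01 hπ01
  -- the exchange
  let swap : P11.QIx × P00.QIx ≃ P10.QIx × P01.QIx :=
    { toFun := fun t => ((t.1.1, t.2.2.1, t.1.2.2), (t.2.1, t.1.2.1, t.2.2.2))
      invFun := fun t => ((t.1.1, t.2.2.1, t.1.2.2), (t.2.1, t.1.2.1, t.2.2.2))
      left_inv := fun _ => rfl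
      right_inv := fun _ => rfl }
  let u : P11.QIx × P00.QIx → ℚ := fun t => q11 t.1 * q00 t.2
  let v : P10.QIx × P01.QIx → ℚ := fun t => q10 t.1 * q01 t.2
  have hu : u ≠ 0 := by
    obtain ⟨i, hi⟩ := Function.ne_iff.mp hq11
    obtain ⟨j, hj⟩ := Function.ne_iff.mp hq00
    exact Function.ne_iff.mpr ⟨(i, j), mul_ne_zero hi hj⟩
  have hrel : castVec u
      = ((k11 * k00 * l11 * l00) / (k10 * k01 * l10 * l01)) • castVec (v ∘ swap) := by
    funext t
    obtain ⟨⟨c, c', ω⟩, ⟨d, d', ω'⟩⟩ := t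
    have x11 : algebraMap ℚ ℚ̄ (q11 (c, c', ω)) = k11 * _ := congrFun hv11 (c, c', ω)
    have x00 : algebraMap ℚ ℚ̄ (q00 (d, d', ω')) = k00 * _ := congrFun hv00 (d, d', ω')
    have x10 : algebraMap ℚ ℚ̄ (q10 (c, d', ω)) = k10 * _ := congrFun hv10 (c, d', ω)
    have x01 : algebraMap ℚ ℚ̄ (q01 (d, c', ω')) = k01 * _ := congrFun hv01 (d, c', ω')
    show algebraMap ℚ ℚ̄ (q11 (c, c', ω) * q00 (d, d', ω'))
      = _ * algebraMap ℚ ℚ̄ (q10 (c, d', ω) * q01 (d, c', ω'))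
    rw [map_mul, map_mul, x11, x00, x10, x01]
    have mA : ∀ z, fam (castVec pA) z ∈ S.space P11.a A := fun z => hpA.2 ▸ fam_mem _ _
    have mB : ∀ z, fam (castVec pB) z ∈ S.space P11.b B := fun z => hpB.2 ▸ fam_mem _ _
    have mA0 : ∀ z, fam (castVec pA0) z ∈ S.space P11.a 0 := fun z => hpA0.2 ▸ fam_mem _ _
    have mB0 : ∀ z, fam (castVec pB0) z ∈ S.space P11.b 0 := fun z => hpB0.2 ▸ fam_mem _ _
    have y11 : P11.qdVec π11 pA pB (c, c', ω) = _ := e11 _ (mA _) _ (mB _) ω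
    have y00 : P00.qdVec π00 pA0 pB0 (d, d', ω') = _ := e00 _ (mA0 _) _ (mB0 _) ω'
    have y10 : P10.qdVec π10 pA pB0 (c, d', ω) = _ := e10 _ (mA _) _ (mB0 _) ω
    have y01 : P01.qdVec π01 pA0 pB (d, c', ω') = _ := e01 _ (mA0 _) _ (mB _) ω'
    rw [y11, y00, y10, y01]
    field_simp
  obtain ⟨r, hr, hur⟩ := exists_rat_smul hu hrel
  have hh : logHeight q11 + logHeight q00 = logHeight q10 + logHeight q01 := by
    rw [← logHeight_fun_mul_eq hq11 hq00, ← logHeight_fun_mul_eq hq10 hq01]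
    show logHeight u = logHeight v
    rw [hur, logHeight_smul_eq_logHeight _ hr, logHeight_comp_equiv]
  simp only [zero_add, add_zero] at hh00 hh10 hh01
  have t11 : |logHeight q11 + S.height L (A + B) - ((e : ℝ) * logHeight pA +
      (e : ℝ) * logHeight pB + S.height L (A + B + E))| ≤ K11 := hh11
  have t00 : |logHeight q00 + S.height L 0 - ((e : ℝ) * logHeight pA0 +
      (e : ℝ) * logHeight pB0 + S.height L E)| ≤ K00 := hh00
  have t10 : |logHeight q10 + S.height L A - ((e : ℝ) * logHeight pA +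
      (e : ℝ) * logHeight pB0 + S.height L (A + E))| ≤ K10 := hh10
  have t01 : |logHeight q01 + S.height L B - ((e : ℝ) * logHeight pA0 +
      (e : ℝ) * logHeight pB + S.height L (B + E))| ≤ K01 := hh01
  rw [abs_le] at t11 t00 t10 t01 ⊢
  constructor <;> linarith

/-- **The cube**: for divisors of bounded degree. -/
theorem exists_cube (L bd : ℕ) (h : 5 * bd + 3 * S.bound + 3 ≤ L) :
    ∃ K : ℝ, ∀ A B E : Divisor ℚ̄ F, 0 ≤ A → 0 ≤ B → 0 ≤ E →
      S.IsRat A → S.IsRat B → S.IsRat E →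
      Divisor.degree A ≤ (bd : ℤ) → Divisor.degree B ≤ (bd : ℤ) → Divisor.degree E ≤ (bd : ℤ) →
      |S.height L (A + B + E) + S.height L A + S.height L B + S.height L E
        - S.height L (A + B) - S.height L (A + E) - S.height L (B + E) - S.height L 0| ≤ K := by
  choose K hK using fun t : Fin (bd + 1) × Fin (bd + 1) × Fin (bd + 1) =>
    S.exists_cube_of_degree L t.1 t.2.1 t.2.2 (by
      have := t.1.isLt; have := t.2.1.isLt; have := t.2.2.isLt; omega)
  refine ⟨∑ t, |K t|, fun A B E hA hB hE hrA hrB hrE hdA hdB hdE => ?_⟩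
  have nA := Curve.degree_nonneg hA
  have nB := Curve.degree_nonneg hB
  have nE := Curve.degree_nonneg hE
  let t : Fin (bd + 1) × Fin (bd + 1) × Fin (bd + 1) :=
    (⟨(Divisor.degree A).toNat, by omega⟩, ⟨(Divisor.degree B).toNat, by omega⟩,
      ⟨(Divisor.degree E).toNat, by omega⟩)
  refine (hK t A B E hA hB hE hrA hrB hrE (by simp [t]; omega) (by simp [t]; omega)
    (by simp [t]; omega)).trans ?_
  exact (le_abs_self _).trans
    (Finset.single_le_sum (fun i _ => abs_nonneg (K i)) (Finset.mem_univ t))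

end Setting

end Fermat.Agent.MordellWeil
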