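import Fermat.Agent.MordellWeil.Defs
import Fermat.Agent.MordellWeil.Descent
import Fermat.Agent.Modular.Genus
import Mathlib.FieldTheory.IsAlgClosed.Basic

/-!
# The height setting of `X₀(N)`
-/

set_option autoImplicit false

noncomputable section

open AlgebraicCurve ModularCurve
open Fermat.Agent.Curve Fermat.Agent.EichlerShimura

namespace Fermat.Agent.MordellWeil

local notation "ℚ̄" => AlgebraicClosure ℚ

variable (N : ℕ) [NeZero N]

/-- `ℚ̄(X₀(N))` is a function field of one variable over `ℚ̄`. -/
instance isFunctionField1_modularFunctionFieldBar :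
    IsFunctionField1 ℚ̄ (modularFunctionFieldBar N) :=
  have : Algebra.IsAlgebraic ℚ ℚ̄ := AlgebraicClosure.isAlgebraic ℚ
  Fermat.Agent.Modular.isFunctionField1_FL N (IsAlgClosed.lift (R := ℚ) (S := ℚ̄) (M := ℂ)).toRingHom

/-- The setting of the height descent on `J₀(N)`. -/
def modularSetting : Setting (modularFunctionFieldBar N) :=
  laurentSetting (modularFunctionFieldFull N)

theorem modularSetting_infty :
    (modularSetting N).infty = cuspPlace ℚ̄ (modularFunctionFieldFull N) := rfl

theorem modularSetting_galois :
    (modularSetting N).galois = arithmeticGalois (modularFunctionFieldFull N) := rfl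

/-- A rational point of `J₀(N)` is the class of `E - g ∞` with `E` rational effective of degree
`g`. -/
theorem exists_rat_rep {x : JZero N}
    (hx : ∀ σ : ℚ̄ ≃ₐ[ℚ] ℚ̄, σ • x = x) :
    ∃ (E : Divisor ℚ̄ (modularFunctionFieldBar N))
      (h : E - (modularSetting N).pole (modularSetting N).genus ∈ Divisor.degZero),
      0 ≤ E ∧ (modularSetting N).IsRat E ∧
      Divisor.degree E = ((modularSetting N).genus : ℤ) ∧
      Pic0.mk ⟨E - (modularSetting N).pole (modularSetting N).genus, h⟩ = x := by
  obtain ⟨m, E, h0, hm, hE, hdeg, hfix, rfl⟩ :=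
    exists_fixed_effective_of_fixed (F₀ := modularFunctionFieldFull N) hx
  set S := modularSetting N
  have e : E + S.pole (S.genus - m) - S.pole S.genus
      = E - Finsupp.single (cuspPlace ℚ̄ (modularFunctionFieldFull N)) (m : ℤ) := by
    have hsplit : S.pole S.genus = S.pole m + S.pole (S.genus - m) := by
      rw [Setting.pole, Setting.pole, Setting.pole, ← Finsupp.single_add, ← Nat.cast_add,
        Nat.add_sub_cancel' hm]
    rw [hsplit, add_sub_add_right_eq_sub]
    rfl
  have hd : Divisor.degree (E + S.pole (S.genus - m)) = (S.genus : ℤ) := by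
    rw [map_add, S.degree_pole, hdeg]
    have : m ≤ S.genus := hm
    omega
  refine ⟨E + S.pole (S.genus - m), ?_, add_nonneg (fun v => hE v) (fun v => ?_),
    Setting.IsRat.add S hfix (S.isRat_pole _), hd, ?_⟩
  · rw [e]; exact h0
  · classical
    simp only [Setting.pole, Finsupp.single_apply, Finsupp.coe_zero, Pi.zero_apply]
    split <;> simp
  · exact congrArg Pic0.mk (Subtype.ext e)

end Fermat.Agent.MordellWeil
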