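import Fermat.Agent.MordellWeil.Bilinear
import Fermat.Agent.MordellWeil.Modular
import Mathlib.GroupTheory.Descent

/-!
Finite generation from weak Mordell–Weil and the height facts: the cube, and finiteness of classes
of bounded height.
-/

set_option autoImplicit false
set_option linter.unusedSectionVars false

noncomputable section

open AlgebraicCurve Fermat.Agent.Curve Height

namespace Fermat.Agent.MordellWeil

local notation "ℚ̄" => AlgebraicClosure ℚ

/-- A symmetric form which is additive in the first variable up to a bounded amount has an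
approximately quadratic diagonal. -/
theorem abs_parallelogram_le {G : Type} [AddCommGroup G] (b : G → G → ℝ) {K : ℝ}
    (hs : ∀ x y, b x y = b y x)
    (h3 : ∀ x y z, x + y + z = 0 → ∀ w, |b x w + b y w + b z w| ≤ K) :
    (∀ x, |b x (-x) + b x x| ≤ 2 * K) ∧
      ∀ x y, |b (x + y) (x + y) + b (x - y) (x - y) - 2 * (b x x + b y y)| ≤ 40 * K := by
  have h0 : ∀ w, |b 0 w + b 0 w + b 0 w| ≤ K := h3 0 0 0 (by abel)
  have hneg : ∀ x w, |b (-x) w + b x w| ≤ 2 * K := fun x w => by
    have h1 := abs_le.mp (h3 x (-x) 0 (by abel) w)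
    have h2 := abs_le.mp (h0 w)
    exact abs_le.mpr ⟨by linarith, by linarith⟩
  have hadd : ∀ x y w, |b (x + y) w - (b x w + b y w)| ≤ 5 * K := fun x y w => by
    have h1 := abs_le.mp (h3 (x + y) (-x) (-y) (by abel) w)
    have h2 := abs_le.mp (hneg x w)
    have h4 := abs_le.mp (hneg y w)
    exact abs_le.mpr ⟨by linarith, by linarith⟩
  have hquad : ∀ x y, |b (x + y) (x + y) - (b x x + 2 * b x y + b y y)| ≤ 15 * K := fun x y => by
    have h1 := abs_le.mp (hadd x y (x + y))
    have h2 := abs_le.mp (hadd x y x)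
    have h4 := abs_le.mp (hadd x y y)
    rw [hs (x + y) x, hs y x] at h2
    rw [hs (x + y) y] at h4
    exact abs_le.mpr ⟨by linarith, by linarith⟩
  refine ⟨fun x => ?_, fun x y => ?_⟩
  · rw [hs x (-x)]
    exact hneg x x
  · have h1 := abs_le.mp (hquad x y)
    have h2 := abs_le.mp (hquad x (-y))
    have h4 := abs_le.mp (hneg y (-y))
    have h5 := abs_le.mp (hneg y y)
    have h6 := abs_le.mp (hneg y x)
    rw [← sub_eq_add_neg] at h2
    rw [hs y (-y)] at h4
    rw [hs (-y) x, hs y x] at h6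
    exact abs_le.mpr ⟨by linarith, by linarith⟩

/-- Finite generation from weak Mordell–Weil and a height, approximately quadratic and with
finite sublevel sets but not required to be nonnegative. -/
theorem fg_of_finiteIndex_of_quadratic {G : Type} [AddCommGroup G] (q : G → ℝ) {C : ℝ}
    (hweak : (nsmulAddMonoidHom (α := G) 2).range.FiniteIndex)
    (hq : ∀ x y, |q (x + y) + q (x - y) - 2 * (q x + q y)| ≤ C)
    (hfin : ∀ B : ℝ, {x | q x ≤ B}.Finite) : AddGroup.FG G := by
  obtain ⟨c, hc⟩ : ∃ c : ℝ, ∀ x, -c ≤ q x := by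
    rcases ({x | q x ≤ 0}).eq_empty_or_nonempty with h | h
    · exact ⟨0, fun x => by
        have : ¬ q x ≤ 0 := fun hx => (Set.eq_empty_iff_forall_notMem.mp h) x hx
        linarith⟩
    · obtain ⟨a, ha, hmin⟩ := Set.exists_min_image _ q (hfin 0) h
      refine ⟨-q a, fun x => ?_⟩
      rw [neg_neg]
      rcases le_or_gt (q x) 0 with hx | hx
      · exact hmin x hx
      · exact le_trans ha hx.le
  have : Northcott (fun x => q x + c) := ⟨fun B => (hfin (B - c)).subset fun x hx => by
    simp only [Set.mem_ofPred_eq] at hx ⊢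
    linarith⟩
  exact AddCommGroup.fg_of_descent' (h := fun x => q x + c) (C := C + |2 * c|) hweak
    (fun x => by linarith [hc x]) fun x y => by
      have h1 := abs_le.mp (hq x y)
      have := le_abs_self (2 * c)
      have := neg_abs_le (2 * c)
      exact abs_le.mpr ⟨by linarith, by linarith⟩

variable {F : Type} [Field F] [Algebra ℚ̄ F] [IsFunctionField1 ℚ̄ F]

namespace Setting

variable (S : Setting F)

/-- Finiteness of classes of bounded height at level `L`. -/
def NorthcottHolds (L : ℕ) : Prop :=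
  ∀ B : ℝ, {x : Pic0 ℚ̄ F | ∃ (E E' : Divisor ℚ̄ F) (w : S.Coord (2 * S.genus) → ℚ)
    (h : E - S.pole S.genus ∈ Divisor.degZero),
    0 ≤ E ∧ 0 ≤ E' ∧ S.IsRat E ∧ S.IsRat E' ∧
    Divisor.degree E = (S.genus : ℤ) ∧ Divisor.degree E' = (S.genus : ℤ) ∧
    castVec w ≠ 0 ∧ S.zeros (2 * S.genus) (castVec w) = E + E' ∧
    S.height L E + S.height L E' - (S.spaceDim L S.genus : ℝ) * logHeight w ≤ B ∧
    Pic0.mk ⟨E - S.pole S.genus, h⟩ = x}.Finite

/-- Classes with a chosen representative `E - g ∞`. -/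
def HasRatReps {G : Type} [AddCommGroup G] (ι : G →+ Pic0 ℚ̄ F) : Prop :=
  ∀ x : G, ∃ (E : Divisor ℚ̄ F) (h : E - S.pole S.genus ∈ Divisor.degZero),
    0 ≤ E ∧ S.IsRat E ∧ Divisor.degree E = (S.genus : ℤ) ∧
      Pic0.mk ⟨E - S.pole S.genus, h⟩ = ι x

/-- **Finite generation from the height facts.** -/
theorem fg_of_height_facts {G : Type} [AddCommGroup G] (ι : G →+ Pic0 ℚ̄ F)
    (hι : Function.Injective ι) {L bd : ℕ} (hbd : 2 * S.genus ≤ bd)
    (hL : 4 * S.genus + 1 + S.bound ≤ L) (hcube : S.CubeHolds L bd) (hnc : S.NorthcottHolds L)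
    (hrep : S.HasRatReps ι) (hweak : (nsmulAddMonoidHom (α := G) 2).range.FiniteIndex) :
    AddGroup.FG G := by
  choose E hE h0 hr hd hmk using hrep
  have hpt : ∀ x, S.IsPointed S.genus (E x) := fun x => ⟨h0 x, hr x, hd x⟩
  have hprinc : ∀ x y z, x + y + z = 0 →
      (E x - S.pole S.genus) + (E y - S.pole S.genus) + (E z - S.pole S.genus)
        ∈ Divisor.principal := by
    intro x y z hxyz
    have h : Pic0.mk (⟨E x - S.pole S.genus, hE x⟩ + ⟨E y - S.pole S.genus, hE y⟩
        + ⟨E z - S.pole S.genus, hE z⟩) = 0 := by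
      rw [Pic0.mk_add, Pic0.mk_add, hmk, hmk, hmk, ← map_add, ← map_add, hxyz, map_zero]
    have h' := (QuotientAddGroup.eq_zero_iff _).mp h
    rw [AddSubgroup.mem_addSubgroupOf] at h'
    exact h'
  obtain ⟨K, hK⟩ := hcube.exists_triple hbd hL
  obtain ⟨K', hK'⟩ := hcube.exists_pair hbd hL
  obtain ⟨hdiag, hpar⟩ := abs_parallelogram_le
    (fun x y => S.descentForm L (E x) (E y)) (fun x y => S.descentForm_comm L (E x) (E y))
    (fun x y z h w => hK (E x) (E y) (E z) (E w) (hpt x) (hpt y) (hpt z) (hpt w) (hprinc x y z h))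
  refine fg_of_finiteIndex_of_quadratic
    (fun x => S.descentForm L (E x) (E x)) hweak hpar fun B => ?_
  refine Set.Finite.of_finite_image ((hnc (B + 2 * K + K')).subset ?_) hι.injOn
  rintro _ ⟨x, hx, rfl⟩
  have hp : E x + E (-x) - S.pole (2 * S.genus) ∈ Divisor.principal := by
    have h : Pic0.mk (⟨E x - S.pole S.genus, hE x⟩ + ⟨E (-x) - S.pole S.genus, hE (-x)⟩) = 0 := by
      rw [Pic0.mk_add, hmk, hmk, ← map_add, add_neg_cancel, map_zero]
    have h' := (QuotientAddGroup.eq_zero_iff _).mp h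
    rw [AddSubgroup.mem_addSubgroupOf] at h'
    have e : E x + E (-x) - S.pole (2 * S.genus)
        = (E x - S.pole S.genus) + (E (-x) - S.pole S.genus) := by
      rw [two_mul, S.pole_add, add_sub_add_comm]
    rw [e]
    exact h'
  obtain ⟨w, hw, hZ⟩ := S.exists_rat_zeros (D := E x + E (-x)) (n := 2 * S.genus)
    (by rw [two_mul]; exact (hpt x).add S (hpt (-x))) hp
  have h1 := abs_le.mp (hK' (E x) (E (-x)) w (hpt x) (hpt (-x)) hw hZ)
  have h2 := abs_le.mp (hdiag x)
  have h3 : S.descentForm L (E x) (E x) ≤ B := hx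
  exact ⟨E x, E (-x), w, hE x, h0 x, h0 (-x), hr x, hr (-x), hd x, hd (-x), hw, hZ,
    by linarith, hmk x⟩

end Setting

open ModularCurve

/-- Finite generation of `J₀(N)(ℚ)` from the height facts and weak Mordell–Weil. -/
theorem fg_fixedPoints_of_height_facts (N : ℕ) [NeZero N] {L bd : ℕ}
    (hbd : 2 * (modularSetting N).genus ≤ bd)
    (hL : 4 * (modularSetting N).genus + 1 + (modularSetting N).bound ≤ L)
    (hcube : (modularSetting N).CubeHolds L bd) (hnc : (modularSetting N).NorthcottHolds L)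
    (hweak : (nsmulAddMonoidHom (α := ↥(FixedPoints.addSubgroup
      ((AlgebraicClosure ℚ) ≃ₐ[ℚ] (AlgebraicClosure ℚ)) (JZero N))) 2).range.FiniteIndex) :
    AddGroup.FG ↥(FixedPoints.addSubgroup
      ((AlgebraicClosure ℚ) ≃ₐ[ℚ] (AlgebraicClosure ℚ)) (JZero N)) :=
  (modularSetting N).fg_of_height_facts
    (FixedPoints.addSubgroup ((AlgebraicClosure ℚ) ≃ₐ[ℚ] (AlgebraicClosure ℚ)) (JZero N)).subtype
    Subtype.val_injective hbd hL hcube hnc (fun x => exists_rat_rep N x.2) hweak

end Fermat.Agent.MordellWeil
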