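import Fermat.Agent.MordellWeil.Defs
import Mathlib.LinearAlgebra.Matrix.SchurComplement
import Mathlib.LinearAlgebra.Matrix.Charpoly.Basic
import Mathlib.LinearAlgebra.Matrix.ToLinearEquiv
import Mathlib.LinearAlgebra.Dual.Lemmas
import Mathlib.Data.Finsupp.Interval
import Mathlib.RingTheory.Localization.FractionRing

/-!
# The determinant forms of divisor pairs have finite fibres

To families `s i ∈ L(D)`, `t k ∈ L(D')` one attaches the form `y ↦ det (y (s i * t k))` on linear
functionals. If the families are independent and a second pair, with the same `D + D'`, has a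
proportional form, then its first divisor is linearly equivalent to one of finitely many.
-/

set_option autoImplicit false

noncomputable section

open Matrix Polynomial AlgebraicCurve Fermat.Agent.Curve

namespace Fermat.Agent.MordellWeil

section RankOneDet

variable {n : Type*} [Fintype n] [DecidableEq n] {K : Type*} [Field K]

theorem det_add_vecMulVec_of_det_ne_zero {A : Matrix n n K} (hA : A.det ≠ 0) (u v : n → K) :
    (A + vecMulVec u v).det = A.det + v ⬝ᵥ (A.adjugate *ᵥ u) := by
  rw [vecMulVec_eq Unit, det_add_replicateCol_mul_replicateRow (isUnit_iff_ne_zero.mpr hA),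
    det_unique (n := Unit), Matrix.add_apply, Matrix.one_apply_eq, Matrix.mul_assoc,
    ← replicateCol_mulVec, replicateRow_mul_replicateCol_apply, Matrix.inv_def,
    Ring.inverse_eq_inv', Matrix.smul_mulVec, dotProduct_smul, smul_eq_mul, mul_add, mul_one,
    ← mul_assoc, mul_inv_cancel₀ hA, one_mul]

theorem map_det_add_vecMulVec {R S : Type*} [CommRing R] [CommRing S] (f : R →+* S)
    (P : Matrix n n R) (u v : n → R) :
    f ((P + vecMulVec u v).det) = (P.map f + vecMulVec (f ∘ u) (f ∘ v)).det := by
  rw [RingHom.map_det]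
  congr 1
  ext i j
  simp [vecMulVec_apply]

theorem map_det_add_dotProduct {R S : Type*} [CommRing R] [CommRing S] (f : R →+* S)
    (P : Matrix n n R) (u v : n → R) :
    f (P.det + v ⬝ᵥ (P.adjugate *ᵥ u)) =
      (P.map f).det + (f ∘ v) ⬝ᵥ ((P.map f).adjugate *ᵥ (f ∘ u)) := by
  rw [map_add, RingHom.map_det, RingHom.map_dotProduct]
  congr 2
  funext i
  rw [Function.comp_apply, RingHom.map_mulVec, ← RingHom.mapMatrix_apply, RingHom.map_adjugate]
  rfl

/-- The determinant of a rank one perturbation. -/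
theorem det_add_vecMulVec (A : Matrix n n K) (u v : n → K) :
    (A + vecMulVec u v).det = A.det + v ⬝ᵥ (A.adjugate *ᵥ u) := by
  let P : Matrix n n K[X] := charmatrix (-A)
  have hP : P.det ≠ 0 := (charpoly_monic (-A)).ne_zero
  let φ := algebraMap K[X] (FractionRing K[X])
  have hφ : Function.Injective φ := IsFractionRing.injective K[X] (FractionRing K[X])
  have h0 : (P + vecMulVec (C ∘ u) (C ∘ v)).det =
      P.det + (C ∘ v) ⬝ᵥ (P.adjugate *ᵥ (C ∘ u)) := by
    apply hφ
    rw [map_det_add_vecMulVec, map_det_add_dotProduct]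
    exact det_add_vecMulVec_of_det_ne_zero
      (by rw [← RingHom.mapMatrix_apply, ← RingHom.map_det]; exact (map_ne_zero_iff φ hφ).mpr hP)
      _ _
  have hA : P.map (evalRingHom 0) = A := by
    ext i j
    by_cases h : i = j
    · subst h; simp [P]
    · simp [P, h]
  have hC : ∀ x : n → K, evalRingHom 0 ∘ (C ∘ x) = x := fun x => funext fun i => by simp
  have h1 := congrArg (evalRingHom 0) h0
  rwa [map_det_add_vecMulVec, map_det_add_dotProduct, hA, hC, hC] at h1

/-- The adjugate of a singular matrix has rank at most one. -/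
theorem exists_adjugate_eq_mul {A : Matrix n n K} (hA : A.det = 0) :
    ∃ a b : n → K, ∀ i j, A.adjugate i j = a i * b j := by
  obtain ⟨z, hz0, hz⟩ := exists_mulVec_eq_zero_iff.mpr hA
  obtain ⟨i₀, hi₀⟩ := Function.ne_iff.mp hz0
  refine ⟨z, fun j => A.adjugate i₀ j / z i₀, fun i j => ?_⟩
  set c : n → K := fun i => A.adjugate i j
  have hc : A *ᵥ c = 0 := by
    funext k
    have := congrFun (congrFun (mul_adjugate A) k) j
    simpa [hA, mulVec, dotProduct, c, Matrix.mul_apply] using this
  set x : n → K := c - (c i₀ / z i₀) • z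
  have hx : A *ᵥ x = 0 := by simp [x, mulVec_sub, mulVec_smul, hc, hz]
  have hxi : x i₀ = 0 := by
    have : z i₀ ≠ 0 := hi₀
    simp [x, this]
  by_cases hx0 : x = 0
  · have := congrFun hx0 i
    simp only [x, Pi.sub_apply, Pi.smul_apply, smul_eq_mul, Pi.zero_apply, sub_eq_zero] at this
    show c i = _
    rw [this]
    ring
  -- two independent kernel vectors kill the adjugate
  have hzero : ∀ k l, A.adjugate k l = 0 := by
    intro k l
    obtain ⟨w, hw0, hw, hwk⟩ : ∃ w ≠ 0, A *ᵥ w = 0 ∧ w k = 0 := by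
      by_cases hxk : x k = 0
      · exact ⟨x, hx0, hx, hxk⟩
      · refine ⟨z - (z k / x k) • x, fun h => hi₀ ?_, by simp [mulVec_sub, mulVec_smul, hx, hz], ?_⟩
        · simpa [hxi] using congrFun h i₀
        · simp [hxk]
    rw [adjugate_apply, ← exists_mulVec_eq_zero_iff]
    refine ⟨w, hw0, funext fun r => ?_⟩
    rcases eq_or_ne r l with rfl | hrl
    · simp [mulVec, dotProduct, Pi.single_apply, hwk]
    · have := congrFun hw r
      simpa [mulVec, dotProduct, updateRow_ne hrl] using this
  simp [hzero]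

end RankOneDet

section FunctionField

variable {K F : Type*} [Field K] [Field F] [Algebra K F] [IsFunctionField1 K F] [IsAlgClosed K]

theorem exists_placeEval (v : Place K F) :
    ∃ e : F →ₗ[K] K, e 1 = 1 ∧
      (∀ f g, f ∈ v.toValuationSubring → g ∈ v.toValuationSubring → e (f * g) = e f * e g) ∧
      ∀ f, f ∈ v.toValuationSubring → e f = 0 → f = 0 ∨ 0 < v.ord f := by
  have := finite_residueField v
  have : Algebra.IsIntegral K v.ResidueField := Algebra.IsIntegral.of_finite K v.ResidueField
  let E : K ≃ₐ[K] v.ResidueField := AlgEquiv.ofBijective (Algebra.ofId K v.ResidueField)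
    (IsAlgClosed.algebraMap_bijective_of_isIntegral (k := K) (K := v.ResidueField))
  let φ : v.toValuationSubring →ₐ[K] K :=
    E.symm.toAlgHom.comp (IsScalarTower.toAlgHom K v.toValuationSubring v.ResidueField)
  let p : Submodule K F :=
    LinearMap.range (IsScalarTower.toAlgHom K v.toValuationSubring F).toLinearMap
  let j : v.toValuationSubring ≃ₗ[K] p := LinearEquiv.ofInjective _ Subtype.val_injective
  obtain ⟨e, he⟩ := LinearMap.exists_extend (φ.toLinearMap ∘ₗ j.symm.toLinearMap)
  have he' : ∀ a : v.toValuationSubring, e (a : F) = φ a := fun a => by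
    have := LinearMap.congr_fun he (j a)
    simpa using! this
  refine ⟨e, ?_, fun f g hf hg => ?_, fun f hf h => ?_⟩
  · exact (he' 1).trans (map_one φ)
  · exact (he' (⟨f, hf⟩ * ⟨g, hg⟩)).trans (by rw [map_mul, ← he', ← he'])
  · rw [show f = ((⟨f, hf⟩ : v.toValuationSubring) : F) from rfl, he'] at h
    have h1 : IsLocalRing.residue v.toValuationSubring ⟨f, hf⟩ = 0 :=
      (map_eq_zero_iff E.symm E.symm.injective).mp h
    rw [Fermat.Agent.Curve.residue_eq_zero_iff, ordGE_iff] at h1
    exact h1.imp id fun h => by simpa [Int.lt_iff_add_one_le] using h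

/-- Evaluation at a place, extended linearly to all functions. -/
def placeEval (v : Place K F) : F →ₗ[K] K := (exists_placeEval v).choose

theorem placeEval_one (v : Place K F) : placeEval v (1 : F) = 1 :=
  (exists_placeEval v).choose_spec.1

theorem placeEval_mul (v : Place K F) {f g : F} (hf : f ∈ v.toValuationSubring)
    (hg : g ∈ v.toValuationSubring) : placeEval v (f * g) = placeEval v f * placeEval v g :=
  (exists_placeEval v).choose_spec.2.1 f g hf hg

theorem placeEval_ne_zero (v : Place K F) {f : F} (hf : f ≠ 0) (h : v.ord f = 0) :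
    placeEval v f ≠ 0 := fun he => by
  rcases (exists_placeEval v).choose_spec.2.2 f (mem_of_ord_nonneg v h.ge) he with h' | h'
  · exact hf h'
  · omega

theorem infinite_place : Infinite (Place K F) := by
  obtain ⟨x, hx, -⟩ := IsFunctionField1.exists_transcendental' (K := K) (F := F)
  have h : ∀ c : K, ∃ v : Place K F, 0 < v.ord (x - algebraMap K F c) := fun c =>
    exists_place_ord_pos (fun halg => hx (by simpa using halg.add (isAlgebraic_algebraMap c)))
  choose v hv using h
  refine Infinite.of_injective v fun c d hcd => ?_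
  by_contra hne
  have h1 := hv c
  have h2 := hv d
  rw [hcd] at h1
  have h3 : (x - algebraMap K F d) + -(x - algebraMap K F c) = algebraMap K F (c - d) := by
    rw [map_sub]; ring
  have hne' : algebraMap K F (c - d) ≠ 0 := by simpa [sub_eq_zero] using hne
  have h4 := min_ord_le_ord_add (v d) (f := x - algebraMap K F d)
    (g := -(x - algebraMap K F c)) (h3 ▸ hne')
  rw [h3, ord_neg, ord_algebraMap] at h4
  rcases min_le_iff.mp h4 with h | h <;> omega

theorem exists_notMem_finite {B : Set (Place K F)} (hB : B.Finite) : ∃ v, v ∉ B :=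
  have := infinite_place (K := K) (F := F)
  hB.exists_notMem

/-- The places where some member of the family is not a unit. -/
def badPlaces {ι : Type*} (s : ι → F) : Set (Place K F) := ⋃ i, {v | v.ord (s i) ≠ 0}

omit [IsAlgClosed K] in
theorem finite_badPlaces {ι : Type*} [Finite ι] (s : ι → F) :
    (badPlaces (K := K) s).Finite :=
  Set.finite_iUnion fun i => finite_ord_ne_zero (s i)

omit [IsFunctionField1 K F] [IsAlgClosed K] in
theorem mem_of_notMem_badPlaces {ι : Type*} {s : ι → F} {v : Place K F} (hv : v ∉ badPlaces s)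
    (i : ι) : s i ∈ v.toValuationSubring :=
  mem_of_ord_nonneg v (not_ne_iff.mp fun h => hv (Set.mem_iUnion.mpr ⟨i, h⟩)).ge

theorem eq_zero_of_placeEval {f : F} {B : Set (Place K F)} (hB : B.Finite)
    (h : ∀ v, v ∉ B → placeEval v f = 0) : f = 0 := by
  by_contra hf
  obtain ⟨v, hv⟩ := exists_notMem_finite (hB.union (finite_ord_ne_zero (K := K) f))
  simp only [Set.mem_union, Set.mem_ofPred_eq, not_or, not_ne_iff] at hv
  exact placeEval_ne_zero v hf hv.2 (h v hv.1)

/-- The matrix `(y (s i * t k))`. -/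
def pairMatrix {M : ℕ} (s t : Fin M → F) (y : F →ₗ[K] K) : Matrix (Fin M) (Fin M) K :=
  Matrix.of fun i k => y (s i * t k)

/-- The determinant form of two families of functions. -/
def pairDet {M : ℕ} (s t : Fin M → F) (y : F →ₗ[K] K) : K := (pairMatrix s t y).det

theorem pairMatrix_placeEval {M : ℕ} {s t : Fin M → F} {v : Place K F}
    (hs : v ∉ badPlaces s) (ht : v ∉ badPlaces t) :
    pairMatrix s t (placeEval v) = vecMulVec (placeEval v ∘ s) (placeEval v ∘ t) := by
  ext i k
  exact placeEval_mul v (mem_of_notMem_badPlaces hs i) (mem_of_notMem_badPlaces ht k)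

/-- The function cut out by the adjugate at `y`. -/
def adjugateFn {M : ℕ} (s t : Fin M → F) (y : F →ₗ[K] K) : F :=
  ∑ k, ∑ i, (pairMatrix s t y).adjugate k i • (s i * t k)

theorem pairDet_add_placeEval {M : ℕ} {s t : Fin M → F} (y : F →ₗ[K] K) {v : Place K F}
    (hs : v ∉ badPlaces s) (ht : v ∉ badPlaces t) :
    pairDet s t (y + placeEval v) = pairDet s t y + placeEval v (adjugateFn s t y) := by
  have h : pairMatrix s t (y + placeEval v) = pairMatrix s t y + pairMatrix s t (placeEval v) :=
    rfl
  rw [pairDet, h, pairMatrix_placeEval hs ht, det_add_vecMulVec, pairDet, adjugateFn]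
  congr 1
  simp only [map_sum, map_smul, smul_eq_mul, dotProduct, mulVec, Finset.mul_sum,
    Function.comp_apply]
  refine Finset.sum_congr rfl fun k _ => Finset.sum_congr rfl fun i _ => ?_
  rw [placeEval_mul v (mem_of_notMem_badPlaces hs i) (mem_of_notMem_badPlaces ht k)]
  ring

omit [IsFunctionField1 K F] [IsAlgClosed K] in
theorem sum_smul_ne_zero {M : ℕ} {s : Fin M → F} (hs : LinearIndependent K s)
    {φ : (Fin M → K) →ₗ[K] K} (hφ : φ ≠ 0) : ∑ i, φ (Pi.single i 1) • s i ≠ 0 := by
  intro h
  refine hφ (LinearMap.ext fun x => ?_)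
  rw [LinearMap.pi_apply_eq_sum_univ φ x]
  refine Finset.sum_eq_zero fun i _ => ?_
  have := Fintype.linearIndependent_iff.mp hs _ h i
  rw [show (fun j => if i = j then (1 : K) else 0) = Pi.single i 1 from
    funext fun j => by simp [Pi.single_apply, eq_comm], this, smul_zero]

theorem apply_placeEval_ne_zero {M : ℕ} {s : Fin M → F} (φ : (Fin M → K) →ₗ[K] K) {v : Place K F}
    (h0 : ∑ i, φ (Pi.single i 1) • s i ≠ 0) (h : v.ord (∑ i, φ (Pi.single i 1) • s i) = 0) :
    φ (fun i => placeEval v (s i)) ≠ 0 := by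
  have := placeEval_ne_zero v h0 h
  rw [map_sum] at this
  rw [← Finset.univ_sum_single (fun i => placeEval v (s i)), map_sum]
  convert this using 1
  refine Finset.sum_congr rfl fun i _ => ?_
  rw [map_smul, smul_eq_mul, show (Pi.single i (placeEval v (s i)) : Fin M → K)
    = placeEval v (s i) • (Pi.single i 1 : Fin M → K) by
      rw [← Pi.single_smul', smul_eq_mul, mul_one], map_smul, smul_eq_mul, mul_comm]

omit [IsAlgClosed K] in
theorem exists_dual_ne_zero_of_lt {M r : ℕ} (hr : r < M) (u : Fin r → Fin M → K) :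
    ∃ φ : (Fin M → K) →ₗ[K] K, φ ≠ 0 ∧ ∀ x ∈ Submodule.span K (Set.range u), φ x = 0 := by
  have hlt : Submodule.span K (Set.range u) < ⊤ := by
    refine lt_top_iff_ne_top.mpr fun h => ?_
    have := finrank_range_le_card (R := K) u
    rw [Set.finrank, h, finrank_top, Module.finrank_fintype_fun_eq_card, Fintype.card_fin,
      Fintype.card_fin] at this
    omega
  obtain ⟨φ, hφ, hmap⟩ := Submodule.exists_dual_map_eq_bot_of_lt_top hlt inferInstance
  refine ⟨φ, hφ, fun x hx => ?_⟩
  have : φ x ∈ (Submodule.span K (Set.range u)).map φ := Submodule.mem_map_of_mem hx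
  rwa [hmap, Submodule.mem_bot] at this

/-- Places at which both families have independent value vectors. -/
theorem exists_points {M : ℕ} {s t : Fin M → F} (hs : LinearIndependent K s)
    (ht : LinearIndependent K t) : ∀ r, r ≤ M → ∃ Q : Fin r → Place K F,
      (∀ j, Q j ∉ badPlaces s ∧ Q j ∉ badPlaces t) ∧
      LinearIndependent K (fun j i => placeEval (Q j) (s i)) ∧
      LinearIndependent K (fun j i => placeEval (Q j) (t i))
  | 0, _ => ⟨Fin.elim0, fun j => j.elim0, linearIndependent_empty_type, linearIndependent_empty_type⟩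
  | r + 1, hr => by
    obtain ⟨Q, hQ, hu, hv⟩ := exists_points hs ht r (by omega)
    obtain ⟨φ, hφ0, hφ⟩ := exists_dual_ne_zero_of_lt (by omega) fun j i => placeEval (Q j) (s i)
    obtain ⟨ψ, hψ0, hψ⟩ := exists_dual_ne_zero_of_lt (by omega) fun j i => placeEval (Q j) (t i)
    set f := ∑ i, φ (Pi.single i 1) • s i with hf
    set g := ∑ i, ψ (Pi.single i 1) • t i with hg
    obtain ⟨P, hP⟩ := exists_notMem_finite ((finite_badPlaces (K := K) s).union
      ((finite_badPlaces t).union ((finite_ord_ne_zero f).union (finite_ord_ne_zero g))))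
    simp only [Set.mem_union, Set.mem_ofPred_eq, not_or, not_ne_iff] at hP
    obtain ⟨hPs, hPt, hPf, hPg⟩ := hP
    refine ⟨Fin.snoc Q P, Fin.forall_fin_succ'.mpr ⟨fun j => ?_, ?_⟩, ?_, ?_⟩
    · rw [Fin.snoc_castSucc]; exact hQ j
    · rw [Fin.snoc_last]; exact ⟨hPs, hPt⟩
    · have : (fun j i => placeEval ((Fin.snoc Q P : Fin (r + 1) → Place K F) j) (s i)) =
          Fin.snoc (fun j i => placeEval (Q j) (s i)) (fun i => placeEval P (s i)) :=
        funext (Fin.lastCases (by simp) (by simp))
      rw [this]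
      exact linearIndependent_finSnoc.mpr ⟨hu, fun h =>
        apply_placeEval_ne_zero φ (sum_smul_ne_zero hs hφ0) hPf (hφ _ h)⟩
    · have : (fun j i => placeEval ((Fin.snoc Q P : Fin (r + 1) → Place K F) j) (t i)) =
          Fin.snoc (fun j i => placeEval (Q j) (t i)) (fun i => placeEval P (t i)) :=
        funext (Fin.lastCases (by simp) (by simp))
      rw [this]
      exact linearIndependent_finSnoc.mpr ⟨hv, fun h =>
        apply_placeEval_ne_zero ψ (sum_smul_ne_zero ht hψ0) hPg (hψ _ h)⟩

theorem pairDet_sum_smul_placeEval {M : ℕ} {s t : Fin M → F} {Q : Fin M → Place K F}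
    (hQ : ∀ j, Q j ∉ badPlaces s ∧ Q j ∉ badPlaces t) (d : Fin M → K) :
    pairDet s t (∑ j, d j • placeEval (Q j)) =
      (Matrix.of fun j i => placeEval (Q j) (s i)).det * (∏ j, d j) *
        (Matrix.of fun j i => placeEval (Q j) (t i)).det := by
  set U : Matrix (Fin M) (Fin M) K := Matrix.of fun j i => placeEval (Q j) (s i) with hU
  set V : Matrix (Fin M) (Fin M) K := Matrix.of fun j i => placeEval (Q j) (t i) with hV
  have h : pairMatrix s t (∑ j, d j • placeEval (Q j)) = Uᵀ * diagonal d * V := by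
    ext i k
    simp only [pairMatrix, Matrix.of_apply, LinearMap.coe_sum, Finset.sum_apply,
      LinearMap.smul_apply, smul_eq_mul, Matrix.mul_apply (M := Uᵀ * diagonal d) (N := V),
      mul_diagonal, transpose_apply]
    refine Finset.sum_congr rfl fun j _ => ?_
    rw [placeEval_mul _ (mem_of_notMem_badPlaces (hQ j).1 i)
      (mem_of_notMem_badPlaces (hQ j).2 k)]
    simp only [hU, hV, Matrix.of_apply]
    ring
  rw [pairDet, h, det_mul, det_mul, det_transpose, det_diagonal]

/-- There is a functional at which the form vanishes but the adjugate function does not. -/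
theorem exists_pairDet_eq_zero_adjugateFn_ne_zero {M : ℕ} (hM : 0 < M) {s t : Fin M → F}
    (hs : LinearIndependent K s) (ht : LinearIndependent K t) :
    ∃ y : F →ₗ[K] K, pairDet s t y = 0 ∧ adjugateFn s t y ≠ 0 := by
  obtain ⟨Q, hQ, hu, hv⟩ := exists_points hs ht M le_rfl
  set U : Matrix (Fin M) (Fin M) K := Matrix.of fun j i => placeEval (Q j) (s i)
  set V : Matrix (Fin M) (Fin M) K := Matrix.of fun j i => placeEval (Q j) (t i)
  have hU : U.det ≠ 0 := ((isUnit_iff_isUnit_det U).mp
    (linearIndependent_rows_iff_isUnit.mp hu)).ne_zero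
  have hV : V.det ≠ 0 := ((isUnit_iff_isUnit_det V).mp
    (linearIndependent_rows_iff_isUnit.mp hv)).ne_zero
  set l : Fin M := ⟨M - 1, by omega⟩
  set d : Fin M → K := Function.update 1 l 0
  have hy0 : pairDet s t (∑ j, d j • placeEval (Q j)) = 0 := by
    rw [pairDet_sum_smul_placeEval hQ, Finset.prod_eq_zero (Finset.mem_univ l) (by simp [d])]
    ring
  refine ⟨_, hy0, fun h => ?_⟩
  have h1 := pairDet_add_placeEval (∑ j, d j • placeEval (Q j)) (hQ l).1 (hQ l).2
  rw [hy0, h, map_zero, add_zero,
    show (∑ j, d j • placeEval (Q j)) + placeEval (Q l) = ∑ j, (1 : Fin M → K) j • placeEval (Q j)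
      by
        rw [← Finset.sum_erase_add _ _ (Finset.mem_univ l),
          ← Finset.sum_erase_add _ (fun j => (1 : Fin M → K) j • placeEval (Q j))
            (Finset.mem_univ l)]
        simp only [d, Function.update_self, zero_smul, add_zero, Pi.one_apply, one_smul]
        congr 1
        refine Finset.sum_congr rfl fun j hj => ?_
        rw [Function.update_of_ne (Finset.ne_of_mem_erase hj), Pi.one_apply, one_smul],
    pairDet_sum_smul_placeEval hQ] at h1
  simp [hU, hV, U, V] at h1

omit [IsFunctionField1 K F] [IsAlgClosed K] in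
/-- The adjugate function at a zero of the form is a product. -/
theorem exists_adjugateFn_eq_mul {M : ℕ} {s t : Fin M → F} {y : F →ₗ[K] K}
    (h : pairDet s t y = 0) :
    ∃ f ∈ Submodule.span K (Set.range s), ∃ g ∈ Submodule.span K (Set.range t),
      adjugateFn s t y = f * g := by
  obtain ⟨a, b, hab⟩ := exists_adjugate_eq_mul h
  refine ⟨∑ i, b i • s i, Submodule.sum_mem _ fun i _ =>
      Submodule.smul_mem _ _ (Submodule.subset_span ⟨i, rfl⟩),
    ∑ k, a k • t k, Submodule.sum_mem _ fun i _ =>
      Submodule.smul_mem _ _ (Submodule.subset_span ⟨i, rfl⟩), ?_⟩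
  simp only [adjugateFn, hab, Finset.sum_mul_sum, smul_mul_smul_comm]
  rw [Finset.sum_comm]
  exact Finset.sum_congr rfl fun i _ => Finset.sum_congr rfl fun k _ => by rw [mul_comm (a k)]

/-- Finitely many classes of first divisors share a proportional determinant form. -/
theorem exists_finset_of_pairDet_proportional {M : ℕ} (hM : 0 < M) {s t : Fin M → F}
    (hs : LinearIndependent K s) (ht : LinearIndependent K t) (C : Divisor K F) :
    ∃ T : Finset (Divisor K F), ∀ (D D' : Divisor K F) (s' t' : Fin M → F),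
      D + D' = C → (∀ i, s' i ∈ riemannRochSpace D) → (∀ i, t' i ∈ riemannRochSpace D') →
      (∃ k : K, k ≠ 0 ∧ ∀ y : F →ₗ[K] K, pairDet s' t' y = k * pairDet s t y) →
      ∃ R ∈ T, D - R ∈ Divisor.principal (K := K) (F := F) := by
  classical
  obtain ⟨y₀, hy0, hG⟩ := exists_pairDet_eq_zero_adjugateFn_ne_zero hM hs ht
  set G := adjugateFn s t y₀
  refine ⟨Finset.Icc 0 (divisorOf G + C), fun D D' s' t' hC hs' ht' ⟨k, hk, hprop⟩ => ?_⟩
  have hy0' : pairDet s' t' y₀ = 0 := by rw [hprop, hy0, mul_zero]
  have hG' : adjugateFn s' t' y₀ = k • G := by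
    refine sub_eq_zero.mp (eq_zero_of_placeEval
      (((finite_badPlaces (K := K) s).union (finite_badPlaces t)).union
        ((finite_badPlaces s').union (finite_badPlaces t'))) fun v hv => ?_)
    simp only [Set.mem_union, not_or] at hv
    obtain ⟨⟨h1, h2⟩, h3, h4⟩ := hv
    have e := hprop (y₀ + placeEval v)
    rw [pairDet_add_placeEval y₀ h3 h4, pairDet_add_placeEval y₀ h1 h2, hy0, hy0', zero_add,
      zero_add] at e
    rw [map_sub, map_smul, smul_eq_mul, e, sub_self]
  obtain ⟨f, hf, g, hg, hfg⟩ := exists_adjugateFn_eq_mul hy0'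
  have hne : f * g ≠ 0 := by rw [← hfg, hG']; exact smul_ne_zero hk hG
  obtain ⟨hf0, hg0⟩ := mul_ne_zero_iff.mp hne
  have hfD : f ∈ riemannRochSpace D :=
    Submodule.span_le.mpr (by rintro _ ⟨i, rfl⟩; exact hs' i) hf
  have hgD : g ∈ riemannRochSpace D' :=
    Submodule.span_le.mpr (by rintro _ ⟨i, rfl⟩; exact ht' i) hg
  refine ⟨divisorOf f + D, Finset.mem_Icc.mpr ⟨fun v => ?_, fun v => ?_⟩, ?_⟩
  · have := (mem_riemannRochSpace_iff.mp hfD v).resolve_left hf0
    simp only [Finsupp.coe_zero, Pi.zero_apply, Finsupp.add_apply, divisorOf_apply]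
    omega
  · have h1 := (mem_riemannRochSpace_iff.mp hgD v).resolve_left hg0
    have h2 : v.ord G = v.ord f + v.ord g := by
      rw [← v.ord_mul hf0 hg0, ← hfg, hG', Algebra.smul_def,
        v.ord_mul (by simpa using hk) hG, ord_algebraMap, zero_add]
    simp only [← hC, Finsupp.add_apply, divisorOf_apply]
    omega
  · rw [show D - (divisorOf f + D) = -divisorOf f by abel]
    exact neg_mem ⟨f, hf0, fun v => rfl⟩

end FunctionField

namespace Setting

local notation "ℚ̄" => AlgebraicClosure ℚ

variable {F : Type} [Field F] [Algebra ℚ̄ F] [IsFunctionField1 ℚ̄ F] (S : Setting F)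

/-- The form `y ↦ det (y (s i * t k / w))` determines the class of `E` up to finitely many
possibilities, among all `(E, E', w)` with `E + E' = zeros m w`. -/
theorem finite_classes_of_proportional {M : ℕ} (hM : 0 < M) (n m d : ℕ) {s t : Fin M → F}
    (hs : LinearIndependent ℚ̄ s) (ht : LinearIndependent ℚ̄ t) {w : S.Coord m → ℚ̄} (hw : w ≠ 0) :
    {x : Pic0 ℚ̄ F | ∃ (E E' : Divisor ℚ̄ F) (w' : S.Coord m → ℚ̄) (s' t' : Fin M → F)
      (h : E - S.pole d ∈ Divisor.degZero),
      w' ≠ 0 ∧ E + E' = S.zeros m w' ∧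
      (∀ i, s' i ∈ riemannRochSpace (S.pole n - E)) ∧
      (∀ i, t' i ∈ riemannRochSpace (S.pole n - E')) ∧
      (∃ k : ℚ̄, k ≠ 0 ∧ ∀ y : F →ₗ[ℚ̄] ℚ̄,
        pairDet s' (fun i => t' i / S.elem m w') y =
          k * pairDet s (fun i => t i / S.elem m w) y) ∧
      Pic0.mk ⟨E - S.pole d, h⟩ = x}.Finite := by
  have ht' : LinearIndependent ℚ̄ (fun i => t i / S.elem m w) := by
    have h := ht.map' (LinearMap.mulRight ℚ̄ (S.elem m w)⁻¹) (LinearMap.ker_eq_bot.mpr fun a b h =>
      mul_right_cancel₀ (inv_ne_zero (S.elem_ne_zero hw)) h)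
    simp only [Function.comp_def, LinearMap.mulRight_apply, ← div_eq_mul_inv] at h
    exact h
  obtain ⟨T, hT⟩ := exists_finset_of_pairDet_proportional hM hs ht'
    (S.pole n + S.pole n - S.pole m)
  have key : ∀ R : Divisor ℚ̄ F, Set.Subsingleton {x : Pic0 ℚ̄ F | ∃ (E : Divisor ℚ̄ F)
      (h : E - S.pole d ∈ Divisor.degZero),
      S.pole n - E - R ∈ Divisor.principal ∧ Pic0.mk ⟨E - S.pole d, h⟩ = x} := by
    rintro R _ ⟨E₁, h₁, hp₁, rfl⟩ _ ⟨E₂, h₂, hp₂, rfl⟩
    rw [Pic0.mk, Pic0.mk, QuotientAddGroup.eq_iff_sub_mem, AddSubgroup.mem_addSubgroupOf]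
    have h3 := sub_mem hp₂ hp₁
    convert h3 using 1
    simp only [AddSubgroupClass.coe_sub]
    abel
  refine ((T.finite_toSet.biUnion fun R _ => (key R).finite)).subset ?_
  rintro x ⟨E, E', w', s', t', h, hw', hsum, hs', ht'', hprop, rfl⟩
  obtain ⟨R, hR, hprin⟩ := hT (S.pole n - E) (S.pole n - E' + divisorOf (S.elem m w')) s'
    (fun i => t' i / S.elem m w') (by
      have e : divisorOf (S.elem m w') = E + E' - S.pole m :=
        eq_sub_of_add_eq hsum.symm
      rw [e]
      abel) hs' (fun i => by
      rw [mem_riemannRochSpace_iff]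
      intro v
      rcases mem_riemannRochSpace_iff.mp (ht'' i) v with h0 | h0
      · exact Or.inl (by rw [h0, zero_div])
      · by_cases h00 : t' i = 0
        · exact Or.inl (by rw [h00, zero_div])
        refine Or.inr ?_
        rw [Fermat.Agent.Curve.ord_div v h00 (S.elem_ne_zero hw'), Finsupp.add_apply,
          divisorOf_apply]
        omega) hprop
  exact Set.mem_biUnion hR ⟨E, h, hprin, rfl⟩

end Setting

end Fermat.Agent.MordellWeil
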