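import Fermat.Agent.MordellWeil.Shift
import Fermat.Agent.MordellWeil.FibreFinite
import Mathlib.Combinatorics.Nullstellensatz
import Mathlib.RingTheory.MvPolynomial.Homogeneous
import Mathlib.LinearAlgebra.Basis.VectorSpace

/-!
Northcott for the height of a pair: for rational `E + E' = Z(w)` the determinant form
`y ↦ det (y (s i * t k / w))` is rational, its height is bounded by
`h(E) + h(E') - M h(w)`, and it determines the class of `E` up to finitely many possibilities.
-/

set_option autoImplicit false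
set_option linter.unusedSectionVars false

noncomputable section

open AlgebraicCurve Fermat.Agent.Curve Height MvPolynomial

namespace Fermat.Agent.MordellWeil

local notation "ℚ̄" => AlgebraicClosure ℚ

/-- Rational tuples of bounded height with some coordinate `1` are finitely many. -/
theorem finite_setOf_logHeight_le_one_mem (ι : Type) [Fintype ι] (B : ℝ) :
    {x : ι → ℚ | logHeight x ≤ B ∧ ∃ i, x i = 1}.Finite := by
  refine (Set.Finite.pi (fun _ : ι => NumberField.finite_setOfPred_logHeight₁_le ℚ B)).subset ?_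
  rintro x ⟨hx, i, hi⟩ j -
  show logHeight₁ (x j) ≤ B
  have h1 : logHeight₁ (x j) = logHeight (x ∘ ![j, i]) := by
    rw [← div_one (x j), ← hi, logHeight₁_div_eq_logHeight]
    congr 1
    funext l
    fin_cases l <;> rfl
  rw [h1]
  exact (logHeight_comp_le _ x).trans hx

section Forms

variable {σ : Type} [Fintype σ] [DecidableEq σ] {M : ℕ}

/-- Exponents of the monomials of degree `M`. -/
abbrev Exps (σ : Type) [Fintype σ] (M : ℕ) : Type :=
  {T : σ → Fin (M + 1) // ∑ j, (T j : ℕ) = M}

/-- An exponent as a finitely supported function. -/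
def expFun (T : Exps σ M) : σ →₀ ℕ := Finsupp.equivFunOnFinite.symm fun j => (T.1 j : ℕ)

theorem expFun_injective : Function.Injective (expFun (σ := σ) (M := M)) := fun T T' h =>
  Subtype.ext (funext fun j => Fin.ext (congrFun (congrArg (fun d : σ →₀ ℕ => ⇑d) h) j))

/-- The value of the form with coefficients `φ`. -/
def formVal {A : Type} [CommRing A] (φ : Exps σ M → A) (Y : σ → A) : A :=
  ∑ T, φ T * ∏ j, Y j ^ (T.1 j : ℕ)

theorem map_formVal {A B : Type} [CommRing A] [CommRing B] (f : A →+* B) (φ : Exps σ M → A)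
    (Y : σ → A) : f (formVal φ Y) = formVal (fun T => f (φ T)) (fun j => f (Y j)) := by
  simp [formVal]

theorem formVal_smul {A : Type} [CommRing A] (t u : A) (φ : Exps σ M → A) (Y : σ → A) :
    formVal (t • φ) (u • Y) = t * u ^ M * formVal φ Y := by
  rw [formVal, formVal, Finset.mul_sum]
  refine Finset.sum_congr rfl fun T _ => ?_
  simp only [Pi.smul_apply, smul_eq_mul, mul_pow, Finset.prod_mul_distrib,
    Finset.prod_pow_eq_pow_sum, T.2]
  ring

/-- The polynomial with coefficients `φ`. -/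
def formPoly {A : Type} [CommRing A] (φ : Exps σ M → A) : MvPolynomial σ A :=
  ∑ T, monomial (expFun T) (φ T)

theorem eval_formPoly {A : Type} [CommRing A] (φ : Exps σ M → A) (Y : σ → A) :
    eval Y (formPoly φ) = formVal φ Y := by
  rw [formPoly, map_sum, formVal]
  refine Finset.sum_congr rfl fun T _ => ?_
  rw [eval_monomial, Finsupp.prod_fintype _ _ (by simp)]
  rfl

theorem coeff_formPoly {A : Type} [CommRing A] (φ : Exps σ M → A) (T : Exps σ M) :
    coeff (expFun T) (formPoly φ) = φ T := by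
  simp only [formPoly, coeff_sum, coeff_monomial, expFun_injective.eq_iff]
  simp

/-- A homogeneous polynomial is given by its coefficient vector. -/
theorem formPoly_coeff {A : Type} [CommRing A] {P : MvPolynomial σ A} (hP : P.IsHomogeneous M) :
    formPoly (fun T : Exps σ M => coeff (expFun T) P) = P := by
  refine MvPolynomial.ext _ _ fun d => ?_
  by_cases hd : ∑ j, d j = M
  · let T : Exps σ M := ⟨fun j => ⟨d j, Nat.lt_succ_of_le
      (hd ▸ Finset.single_le_sum (fun i _ => Nat.zero_le (d i)) (Finset.mem_univ j))⟩, hd⟩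
    have hT : expFun T = d := Finsupp.ext fun j => rfl
    rw [← hT, coeff_formPoly]
  · have h1 : ∀ T : Exps σ M, expFun T ≠ d := fun T h => hd (by rw [← h]; exact T.2)
    simp only [formPoly, coeff_sum, coeff_monomial, h1, if_false, Finset.sum_const_zero]
    refine (hP.coeff_eq_zero fun h => hd ?_).symm
    rw [← h, Finsupp.degree_eq_sum]

/-- A nonzero form of degree `M` pulled back by a surjective linear map is nonzero on a grid. -/
theorem exists_formVal_grid_ne_zero {K : Type} [Field K] [CharZero K] {ρ : Type} [Fintype ρ]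
    (a : σ → ρ → K) (hsurj : ∀ Y : σ → K, ∃ Z : ρ → K, ∀ j, ∑ l, a j l * Z l = Y j)
    {φ : Exps σ M → K} (hφ : φ ≠ 0) :
    ∃ Z : ρ → Fin (M + 1), formVal φ (fun j => ∑ l, a j l * ((Z l : ℕ) : K)) ≠ 0 := by
  classical
  by_contra hall
  push Not at hall
  set Q : MvPolynomial ρ K := formVal (fun T => C (φ T)) (fun j => ∑ l, C (a j l) * X l)
  have hQe : ∀ Z : ρ → K, eval Z Q = formVal φ (fun j => ∑ l, a j l * Z l) := fun Z => by
    simp [Q, map_formVal]
  have hdeg : Q.totalDegree ≤ M := by
    refine totalDegree_finsetSum_le fun T _ => ?_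
    refine (totalDegree_mul _ _).trans ?_
    rw [totalDegree_C, zero_add]
    refine (totalDegree_finsetProd _ _).trans ((Finset.sum_le_sum fun j _ =>
      (totalDegree_pow _ _).trans ?_).trans T.2.le)
    have : (∑ l, C (a j l) * X l : MvPolynomial ρ K).totalDegree ≤ 1 :=
      totalDegree_finsetSum_le fun l _ => by
        refine (totalDegree_mul _ _).trans ?_
        rw [totalDegree_C, totalDegree_X]
    exact (Nat.mul_le_mul_left _ this).trans (Nat.mul_one _).le
  have hQ : Q = 0 := by
    refine eq_zero_of_eval_zero_at_prod_finset Q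
      (fun _ => Finset.univ.image fun i : Fin (M + 1) => ((i : ℕ) : K)) (fun l => ?_) fun Z hZ => ?_
    · rw [Finset.card_image_of_injective _ fun i j h => Fin.ext (Nat.cast_injective h),
        Finset.card_univ, Fintype.card_fin]
      exact Nat.lt_succ_of_le ((degreeOf_le_totalDegree Q l).trans hdeg)
    · have hZ' : ∀ l, ∃ i : Fin (M + 1), ((i : ℕ) : K) = Z l := fun l => by
        obtain ⟨i, _, hi⟩ := Finset.mem_image.mp (hZ l)
        exact ⟨i, hi⟩
      choose i hi using hZ'
      rw [hQe, ← hall i]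
      simp only [hi]
  refine hφ (funext fun T => ?_)
  have hP : formPoly φ = 0 := MvPolynomial.funext fun Y => by
    obtain ⟨Z, hZ⟩ := hsurj Y
    rw [map_zero, eval_formPoly, ← funext hZ, ← hQe, hQ, map_zero]
  rw [← coeff_formPoly φ T, hP, coeff_zero]
  rfl

end Forms

/-- The determinant of a bilinear form on the slot vectors of two minors vectors. -/
theorem det_bilin_slot {m ι κ : Type} [Fintype m] [DecidableEq m] {A : Type} [CommRing A]
    (β : (ι → A) →ₗ[A] (κ → A) →ₗ[A] A) (c c' : A) (B : m → ι → A) (B' : m → κ → A)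
    (J : m → ι) (K : m → κ) :
    (Matrix.of fun i k => β (slot (c • minors B) J i) (slot (c' • minors B') K k)).det
      = (c * c') ^ Fintype.card m * minors B J ^ (Fintype.card m - 1)
          * minors B' K ^ (Fintype.card m - 1) * (Matrix.of fun r s => β (B r) (B' s)).det := by
  have key : (Matrix.of fun i k => β (slot (c • minors B) J i) (slot (c' • minors B') K k))
      = (c * c') • ((Matrix.of fun r s => B r (J s)).adjugate * (Matrix.of fun r s => β (B r) (B' s))
          * (Matrix.of fun r s => B' r (K s)).adjugate.transpose) := by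
    ext i k
    simp only [Matrix.of_apply, slot_smul, slot_minors, map_smul, map_sum, LinearMap.smul_apply,
      LinearMap.coe_sum, Finset.sum_apply, smul_eq_mul, Matrix.smul_apply, Matrix.mul_apply,
      Matrix.transpose_apply, Finset.mul_sum, Finset.sum_mul]
    exact Finset.sum_congr rfl fun r _ => Finset.sum_congr rfl fun s _ => by ring
  rw [key, Matrix.det_smul, Matrix.det_mul, Matrix.det_mul, Matrix.det_transpose,
    Matrix.det_adjugate, Matrix.det_adjugate]
  simp only [minors]
  ring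

/-- The slots at a nonvanishing index of a Plücker vector are independent. -/
theorem IsPlucker.linearIndependent_slot {m ι : Type} [Fintype m] [DecidableEq m] {K : Type}
    [Field K] {p : (m → ι) → K} (hp : IsPlucker p) {J : m → ι} (hJ : p J ≠ 0) :
    LinearIndependent K (slot p J) := by
  refine linearIndependent_of_minors_ne_zero _ (Function.ne_iff.mpr ⟨J, fun h => ?_⟩)
  have := congrFun hp.2 (J, J)
  simp only [decomp, h, Pi.zero_apply, mul_zero, sub_zero] at this
  exact mul_ne_zero (pow_ne_zero _ hJ) hJ this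

section

variable {K F : Type*} [Field K] [Field F] [Algebra K F] [IsFunctionField1 K F] [IsAlgClosed K]

/-- The determinant form of independent families does not vanish identically. -/
theorem exists_pairDet_ne_zero {M : ℕ} {s t : Fin M → F} (hs : LinearIndependent K s)
    (ht : LinearIndependent K t) : ∃ y : F →ₗ[K] K, pairDet s t y ≠ 0 := by
  obtain ⟨Q, hQ, hu, hv⟩ := exists_points hs ht M le_rfl
  refine ⟨∑ j, (1 : Fin M → K) j • placeEval (Q j), ?_⟩
  rw [pairDet_sum_smul_placeEval hQ]
  simp only [Pi.one_apply, Finset.prod_const_one, mul_one]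
  exact mul_ne_zero
    ((Matrix.isUnit_iff_isUnit_det _).mp (Matrix.linearIndependent_rows_iff_isUnit.mp hu)).ne_zero
    ((Matrix.isUnit_iff_isUnit_det _).mp (Matrix.linearIndependent_rows_iff_isUnit.mp hv)).ne_zero

end

variable {F : Type} [Field F] [Algebra ℚ̄ F] [IsFunctionField1 ℚ̄ F]

namespace Setting

variable (S : Setting F)

/-- The pairing of a product with a point. -/
def dotMul {A : Type} [CommRing A] [Algebra ℚ A] {a b c : ℕ} (h : a + b ≤ c) (Z : S.Coord c → A) :
    (S.Coord a → A) →ₗ[A] (S.Coord b → A) →ₗ[A] A :=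
  LinearMap.mk₂ A (fun x y => ∑ l, S.mulVec h x y l * Z l)
    (fun x x' y => by
      simp only [mulVec, Pi.add_apply, add_mul, mul_add, Finset.sum_add_distrib, Finset.sum_mul])
    (fun t x y => by
      simp only [mulVec_smul_left, Pi.smul_apply, smul_eq_mul, Finset.mul_sum, mul_assoc])
    (fun x y y' => by
      simp only [mulVec, Pi.add_apply, add_mul, mul_add, Finset.sum_add_distrib, Finset.sum_mul])
    (fun t x y => by
      simp only [mulVec_smul_right, Pi.smul_apply, smul_eq_mul, Finset.mul_sum, mul_assoc])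

theorem map_dotMul {A B : Type} [CommRing A] [Algebra ℚ A] [CommRing B] [Algebra ℚ B]
    (φ : A →ₐ[ℚ] B) {a b c : ℕ} (h : a + b ≤ c) (Z : S.Coord c → A) (x : S.Coord a → A)
    (y : S.Coord b → A) :
    φ (S.dotMul h Z x y) = S.dotMul h (φ ∘ Z) (φ ∘ x) (φ ∘ y) := by
  simp [dotMul, map_mulVec]

/-- A point of the grid. -/
def gridPt {A : Type} [CommRing A] {c M : ℕ} (Z : S.Coord c → Fin (M + 1)) : S.Coord c → A :=
  fun l => ((Z l : ℕ) : A)

theorem map_gridPt {A B : Type} [CommRing A] [CommRing B] (f : A →+* B) {c M : ℕ}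
    (Z : S.Coord c → Fin (M + 1)) : f ∘ S.gridPt (A := A) Z = S.gridPt (A := B) Z :=
  funext fun l => by simp [gridPt]

/-- The index types of the pullback map. -/
abbrev lowIdx (n m M : ℕ) : Bool → Type
  | true => Exps (S.Coord m) M
  | false => S.Coord n

instance fintypeLowIdx (n m M : ℕ) : ∀ b, Fintype (S.lowIdx n m M b)
  | true => inferInstanceAs (Fintype (Exps (S.Coord m) M))
  | false => inferInstanceAs (Fintype (S.Coord n))

/-- A form in `m` variables pulled back along multiplication by `w`, on a grid. -/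
def lowMap {n m c M : ℕ} (h : n + m ≤ c) :
    PolyMap (S.lowIdx n m M) (S.Coord c → Fin (M + 1)) where
  eval {A} _ _ x Z := formVal (x true : Exps (S.Coord m) M → A)
    (fun j => S.dotMul h (S.gridPt Z) (x false : S.Coord n → A) (S.unitVec j))
  map {A B} _ _ _ _ φ x Z := by
    refine (map_formVal (φ : A →+* B) _ _).trans ?_
    congr 1
    funext j
    refine (S.map_dotMul φ h _ _ _).trans ?_
    rw [show φ ∘ S.gridPt (A := A) Z = S.gridPt (A := B) Z from S.map_gridPt (φ : A →+* B) Z]
    congr 1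
    funext i
    exact S.map_unitVec (φ : A →+* B) j i

theorem lowMap_isHom {n m c M : ℕ} (h : n + m ≤ c) :
    (S.lowMap (M := M) h).IsHom fun b => cond b 1 M := by
  intro A _ _ t x Z
  show formVal (t true • (x true : Exps (S.Coord m) M → A))
    (fun j => S.dotMul h (S.gridPt Z) (t false • (x false : S.Coord n → A)) (S.unitVec j)) = _
  rw [show (fun j => S.dotMul h (S.gridPt Z) (t false • (x false : S.Coord n → A)) (S.unitVec j))
      = t false • fun j => S.dotMul h (S.gridPt Z) (x false : S.Coord n → A) (S.unitVec j) from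
    funext fun j => by simp, formVal_smul, Fintype.prod_bool]
  simp only [cond_true, cond_false, pow_one]
  rfl

/-- Determinants of products of slot vectors, on a grid. -/
def upMap {L c M : ℕ} (h : L + L ≤ c) :
    PolyMap (fun _ : Bool => Fin M → S.Coord L)
      ((Fin M → S.Coord L) × (Fin M → S.Coord L) × (S.Coord c → Fin (M + 1))) where
  eval {A} _ _ x J := (Matrix.of fun i k =>
    S.dotMul h (S.gridPt J.2.2) (slot (x true) J.1 i) (slot (x false) J.2.1 k)).det
  map {A B} _ _ _ _ φ x J := by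
    rw [AlgHom.map_det]
    congr 1
    ext i k
    simp only [AlgHom.mapMatrix_apply, Matrix.map_apply, Matrix.of_apply]
    refine (S.map_dotMul φ h _ _ _).trans ?_
    rw [show φ ∘ S.gridPt (A := A) J.2.2 = S.gridPt (A := B) J.2.2 from
      S.map_gridPt (φ : A →+* B) J.2.2]
    rfl

theorem upMap_isHom {L c M : ℕ} (h : L + L ≤ c) : (S.upMap (M := M) h).IsHom fun _ => M := by
  intro A _ _ t x J
  show (Matrix.of fun i k => S.dotMul h (S.gridPt J.2.2) (slot (t true • x true) J.1 i)
    (slot (t false • x false) J.2.1 k)).det = _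
  rw [show (Matrix.of fun i k => S.dotMul h (S.gridPt J.2.2) (slot (t true • x true) J.1 i)
      (slot (t false • x false) J.2.1 k))
      = (t true * t false) • Matrix.of fun i k => S.dotMul h (S.gridPt J.2.2)
          (slot (x true) J.1 i) (slot (x false) J.2.1 k) by
    ext i k
    simp [slot_smul, mul_assoc, mul_comm, mul_left_comm], Matrix.det_smul, Fintype.card_fin,
    Fintype.prod_bool, mul_pow]
  rfl

/-- The pullback of a nonzero form along a nonzero `w` is nonzero on the grid. -/
theorem lowMap_ne_zero {n m c M : ℕ} (h : n + m ≤ c) (x : ∀ b, S.lowIdx n m M b → ℚ̄)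
    (hx : ∀ b, x b ≠ 0) : (S.lowMap h).eval x ≠ 0 := by
  let φ : Exps (S.Coord m) M → ℚ̄ := x true
  let w : S.Coord n → ℚ̄ := x false
  have hw : w ≠ 0 := hx false
  obtain ⟨G, hG⟩ := (S.mulL h w).exists_leftInverse_of_injective
    (LinearMap.ker_eq_bot.mpr (S.mulL_injective h hw))
  obtain ⟨Z, hZ⟩ := exists_formVal_grid_ne_zero (fun j l => S.mulVec h w (S.unitVec j) l)
    (fun Y => by
      let η : (S.Coord c → ℚ̄) →ₗ[ℚ̄] ℚ̄ := (∑ i, Y i • LinearMap.proj i) ∘ₗ G
      refine ⟨fun l => η (Pi.single l 1), fun j => ?_⟩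
      have h1 : η (S.mulL h w (S.unitVec j)) = Y j := by
        have h2 := LinearMap.congr_fun hG (S.unitVec j)
        simp only [LinearMap.comp_apply, LinearMap.id_apply] at h2
        simp only [η, LinearMap.comp_apply, h2]
        simp [Setting.unitVec, Pi.single_apply]
      rw [← h1, LinearMap.pi_apply_eq_sum_univ η]
      refine Finset.sum_congr rfl fun l _ => ?_
      rw [smul_eq_mul]
      congr 1
      show η (Pi.single l 1) = _
      congr 1
      funext l'
      simp [Pi.single_apply, eq_comm])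
    (φ := φ) (hx true)
  exact Function.ne_iff.mpr ⟨Z, hZ⟩

/-- The classes of first divisors of pairs whose form is proportional to a given one. -/
theorem finite_classes_of_form {n m L d M : ℕ} (hM : 0 < M) (ν : Exps (S.Coord m) M → ℚ̄) :
    {x : Pic0 ℚ̄ F | ∃ (E E' : Divisor ℚ̄ F) (w : S.Coord n → ℚ̄) (s t : Fin M → F)
      (h : E - S.pole d ∈ Divisor.degZero),
      w ≠ 0 ∧ E + E' = S.zeros n w ∧ LinearIndependent ℚ̄ s ∧ LinearIndependent ℚ̄ t ∧
      (∀ i, s i ∈ riemannRochSpace (S.pole L - E)) ∧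
      (∀ i, t i ∈ riemannRochSpace (S.pole L - E')) ∧
      (∃ k : ℚ̄, k ≠ 0 ∧ ∀ y : F →ₗ[ℚ̄] ℚ̄, pairDet s (fun i => t i / S.elem n w) y =
        k * formVal ν (fun j => y (S.basis m j : F))) ∧
      Pic0.mk ⟨E - S.pole d, h⟩ = x}.Finite := by
  rcases Set.eq_empty_or_nonempty {x : Pic0 ℚ̄ F | ∃ (E E' : Divisor ℚ̄ F) (w : S.Coord n → ℚ̄)
      (s t : Fin M → F) (h : E - S.pole d ∈ Divisor.degZero),
      w ≠ 0 ∧ E + E' = S.zeros n w ∧ LinearIndependent ℚ̄ s ∧ LinearIndependent ℚ̄ t ∧
      (∀ i, s i ∈ riemannRochSpace (S.pole L - E)) ∧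
      (∀ i, t i ∈ riemannRochSpace (S.pole L - E')) ∧
      (∃ k : ℚ̄, k ≠ 0 ∧ ∀ y : F →ₗ[ℚ̄] ℚ̄, pairDet s (fun i => t i / S.elem n w) y =
        k * formVal ν (fun j => y (S.basis m j : F))) ∧
      Pic0.mk ⟨E - S.pole d, h⟩ = x} with h0 | ⟨-, E₀, E₀', w₀, s₀, t₀, -, hw₀, -, hs₀, ht₀, -, -,
      ⟨k₀, hk₀, hform₀⟩, -⟩
  · rw [h0]; exact Set.finite_empty
  refine (S.finite_classes_of_proportional hM L n d hs₀ ht₀ hw₀).subset ?_
  rintro x ⟨E, E', w, s, t, h, hw, hsum, -, -, hs, ht, ⟨k, hk, hform⟩, rfl⟩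
  exact ⟨E, E', w, s, t, h, hw, hsum, hs, ht, ⟨k / k₀, div_ne_zero hk hk₀, fun y => by
    rw [hform, hform₀, ← mul_assoc, div_mul_cancel₀ _ hk₀]⟩, rfl⟩

/-- A rational vector in `w · L(m ∞)` has a rational quotient. -/
theorem exists_rat_quotient {n m c : ℕ} (h : n + m ≤ c) {w : S.Coord n → ℚ}
    (hw : castVec w ≠ 0) {R : S.Coord c → ℚ}
    (hR : ∃ f ∈ riemannRochSpace (S.pole m), S.elem c (castVec R) = S.elem n (castVec w) * f) :
    ∃ r : S.Coord m → ℚ, S.mulVec h w r = R := by
  obtain ⟨f, hf, hRf⟩ := hR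
  obtain ⟨z, rfl⟩ := (S.range_elem m).symm ▸ hf
  have hz : S.mulVec h (castVec w) z = castVec R :=
    S.elem_injective c (by rw [elem_mulVec, hRf])
  have hfix : ∀ j, ∀ σ : ℚ̄ ≃ₐ[ℚ] ℚ̄, σ (z j) = z j := by
    intro j σ
    refine congrFun (S.mulL_injective h hw (a₁ := fun i => σ (z i)) (funext fun l => ?_)) j
    show S.mulVec h (castVec w) (fun i => σ (z i)) l = S.mulVec h (castVec w) z l
    have := S.map_mulVec (σ : ℚ̄ →ₐ[ℚ] ℚ̄) h (castVec w) z l
    rw [hz] at this ⊢
    refine Eq.trans ?_ (σ.commutes (R l))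
    refine Eq.trans ?_ this.symm
    congr 1
    funext i
    exact (σ.commutes (w i)).symm
  choose r hr using fun j => exists_algebraMap_rat_of_fixed (hfix j)
  refine ⟨r, castVec_injective (Eq.trans ?_ hz)⟩
  funext l
  refine (S.map_mulVec (Algebra.ofId ℚ ℚ̄) h w r l).trans ?_
  exact congrFun (congrArg (S.mulVec h (castVec w)) (funext hr)) l

/-- Linear expansion of the pairing in the second variable. -/
theorem dotMul_eq_sum {A : Type} [CommRing A] [Algebra ℚ A] {n m c : ℕ} (h : n + m ≤ c)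
    (Z : S.Coord c → A) (w : S.Coord n → A) (r : S.Coord m → A) :
    S.dotMul h Z w r = ∑ j, r j * S.dotMul h Z w (S.unitVec j) := by
  rw [LinearMap.pi_apply_eq_sum_univ (S.dotMul h Z w) r]
  refine Finset.sum_congr rfl fun j _ => ?_
  rw [smul_eq_mul]
  congr 2
  funext l
  simp [Setting.unitVec, Pi.single_apply, eq_comm]

/-- **Northcott for the height of a pair.** -/
theorem finite_of_pairHeight_le {L e : ℕ} (hL : e + 1 + S.bound ≤ L) (B : ℝ) :
    {x : Pic0 ℚ̄ F | ∃ (E E' : Divisor ℚ̄ F) (w : S.Coord (2 * e) → ℚ)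
      (h : E - S.pole e ∈ Divisor.degZero), 0 ≤ E ∧ 0 ≤ E' ∧ S.IsRat E ∧ S.IsRat E' ∧
      Divisor.degree E = (e : ℤ) ∧ Divisor.degree E' = (e : ℤ) ∧ castVec w ≠ 0 ∧
      S.zeros (2 * e) (castVec w) = E + E' ∧
      S.height L E + S.height L E' - (S.spaceDim L e : ℝ) * logHeight w ≤ B ∧
      Pic0.mk ⟨E - S.pole e, h⟩ = x}.Finite := by
  classical
  have hb : S.genus < S.bound := by simp [Setting.genus, Setting.bound]
  set M := S.spaceDim L e with hMdef
  have hM : 0 < M := by rw [hMdef, Setting.spaceDim]; omega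
  set m := 2 * L - 2 * e
  have hsum : 2 * e + m = L + L := by omega
  have hLL : L + L ≤ L + L := le_rfl
  obtain ⟨C₁, hC₁⟩ := exists_le_logHeight_eval (S.lowMap (M := M) hsum.le) (S.lowMap_isHom hsum.le)
    (τ' := Empty) ⟨fun _ o => o.elim, fun _ _ o => o.elim⟩
    (fun _ _ _ => funext fun o => o.elim) (fun x hx _ => S.lowMap_ne_zero hsum.le x hx)
  obtain ⟨C₂, hC₂⟩ := exists_logHeight_eval_le (S.upMap (M := M) hLL) (S.upMap_isHom hLL)
  refine ((finite_setOf_logHeight_le_one_mem (Exps (S.Coord m) M) (B + C₁ + C₂)).biUnion fun ν _ =>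
    S.finite_classes_of_form (n := 2 * e) (L := L) (d := e) hM (castVec ν)).subset ?_
  rintro x ⟨E, E', w, h, hE, hE', hr, hr', hdeg, hdeg', hw, hzeros, hB, rfl⟩
  obtain ⟨p, hp, hhp⟩ := S.exists_isRep_space hE hr hdeg (show e + S.bound ≤ L by omega)
  obtain ⟨p', hp', hhp'⟩ := S.exists_isRep_space hE' hr' hdeg' (show e + S.bound ≤ L by omega)
  obtain ⟨J₀, hJ₀⟩ := Function.ne_iff.mp hp.ne_zero
  obtain ⟨K₀, hK₀⟩ := Function.ne_iff.mp hp'.ne_zero
  rw [Pi.zero_apply] at hJ₀ hK₀
  -- the bases
  let s : Fin M → F := fun i => S.elem L (castVec (slot p J₀ i))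
  let t : Fin M → F := fun k => S.elem L (castVec (slot p' K₀ k))
  have hsE : ∀ i, s i ∈ riemannRochSpace (S.pole L - E) := fun i =>
    (S.mem_space_iff L E _).mp (hp.2 ▸ Submodule.subset_span ⟨(J₀, i), rfl⟩)
  have htE : ∀ k, t k ∈ riemannRochSpace (S.pole L - E') := fun k =>
    (S.mem_space_iff L E' _).mp (hp'.2 ▸ Submodule.subset_span ⟨(K₀, k), rfl⟩)
  have hs : LinearIndependent ℚ̄ s :=
    (hp.1.linearIndependent_slot (show castVec p J₀ ≠ 0 by simpa [castVec] using hJ₀)).map'
      (S.elem L) (LinearMap.ker_eq_bot.mpr (S.elem_injective L))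
  have ht : LinearIndependent ℚ̄ t :=
    (hp'.1.linearIndependent_slot (show castVec p' K₀ ≠ 0 by simpa [castVec] using hK₀)).map'
      (S.elem L) (LinearMap.ker_eq_bot.mpr (S.elem_injective L))
  -- the rational quotients
  have hquot : ∀ i k, ∃ r : S.Coord m → ℚ,
      S.mulVec hsum.le w r = S.mulVec hLL (slot p J₀ i) (slot p' K₀ k) := by
    intro i k
    refine S.exists_rat_quotient hsum.le hw ?_
    obtain ⟨f, hf, hfe⟩ := S.mul_mem_of_le (n := 2 * e) (m := m) (a := L) (c := L) hsum hw
      hzeros.le (hsE i) (htE k)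
    refine ⟨f, hf, Eq.trans ?_ hfe⟩
    rw [← S.elem_mulVec hLL]
    congr 1
    funext l
    exact S.map_mulVec (Algebra.ofId ℚ ℚ̄) hLL _ _ l
  choose r hr using hquot
  let P : MvPolynomial (S.Coord m) ℚ := (Matrix.of fun i k => ∑ j, C (r i k j) * X j).det
  have hP : P.IsHomogeneous M := by
    show MvPolynomial.IsHomogeneous (Matrix.det _) M
    rw [Matrix.det_apply]
    refine IsHomogeneous.sum _ _ _ fun σ _ => ?_
    have h1 : (∏ i, (Matrix.of fun i k => ∑ j, C (r i k j) * X j) (σ i) i :
        MvPolynomial (S.Coord m) ℚ).IsHomogeneous M := by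
      have := IsHomogeneous.prod (R := ℚ) (σ := S.Coord m) Finset.univ
        (fun i : Fin M => (Matrix.of fun i k => ∑ j, C (r i k j) * X j) (σ i) i) (fun _ => 1)
        fun i _ => by
          simp only [Matrix.of_apply]
          exact IsHomogeneous.sum _ _ _ fun j _ => isHomogeneous_C_mul_X _ _
      simpa using this
    rcases Int.units_eq_one_or (Equiv.Perm.sign σ) with hσ | hσ
    · rw [hσ, one_smul]; exact h1
    · rw [hσ]; simpa using h1.neg
  let φ : Exps (S.Coord m) M → ℚ := fun T => coeff (expFun T) P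
  have hφval : ∀ {A : Type} [CommRing A] [Algebra ℚ A] (Y : S.Coord m → A),
      formVal (fun T => algebraMap ℚ A (φ T)) Y =
        (Matrix.of fun i k => ∑ j, algebraMap ℚ A (r i k j) * Y j).det := by
    intro A _ _ Y
    have h1 : aeval Y P = formVal (fun T => algebraMap ℚ A (φ T)) Y := by
      conv_lhs => rw [← formPoly_coeff hP]
      simp only [formPoly, map_sum, formVal]
      refine Finset.sum_congr rfl fun T _ => ?_
      rw [aeval_monomial, Finsupp.prod_fintype _ _ (by simp)]
      rfl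
    rw [← h1, AlgHom.map_det]
    congr 1
    ext i k
    simp
  -- the form is the determinant form
  have hform : ∀ y : F →ₗ[ℚ̄] ℚ̄, pairDet s (fun i => t i / S.elem (2 * e) (castVec w)) y =
      formVal (castVec φ) (fun j => y (S.basis m j : F)) := by
    intro y
    rw [show formVal (castVec φ) (fun j => y (S.basis m j : F)) = _ from hφval _, pairDet]
    congr 1
    ext i k
    have h1 : s i * (t k / S.elem (2 * e) (castVec w)) = S.elem m (castVec (r i k)) := by
      rw [mul_div_assoc', div_eq_iff (S.elem_ne_zero hw), ← S.elem_mulVec hLL, mul_comm,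
        ← S.elem_mulVec hsum.le]
      congr 1
      funext l
      refine (S.map_mulVec (Algebra.ofId ℚ ℚ̄) hLL (slot p J₀ i) (slot p' K₀ k) l).symm.trans ?_
      rw [← hr i k]
      exact S.map_mulVec (Algebra.ofId ℚ ℚ̄) hsum.le _ _ l
    show y _ = _
    rw [h1, elem_eq_sum, map_sum]
    simp [castVec]
  have hφ0 : φ ≠ 0 := by
    intro h0
    have ht' : LinearIndependent ℚ̄ (fun i => t i / S.elem (2 * e) (castVec w)) := by
      have h := ht.map' (LinearMap.mulRight ℚ̄ (S.elem (2 * e) (castVec w))⁻¹)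
        (LinearMap.ker_eq_bot.mpr fun a b h =>
          mul_right_cancel₀ (inv_ne_zero (S.elem_ne_zero hw)) h)
      simp only [Function.comp_def, LinearMap.mulRight_apply, ← div_eq_mul_inv] at h
      exact h
    obtain ⟨y, hy⟩ := exists_pairDet_ne_zero hs ht'
    rw [hform, h0] at hy
    exact hy (by simp [formVal, castVec])
  -- heights
  have hw' : w ≠ 0 := fun h0 => hw (by funext i; simp [h0, castVec])
  let xl : ∀ b, S.lowIdx (2 * e) m M b → ℚ := fun b => match b with
    | true => φ
    | false => w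
  have hlow := hC₁ xl (fun b => match b with | true => hφ0 | false => hw') (funext fun o => o.elim)
  set ψ : (S.Coord (L + L) → Fin (M + 1)) → ℚ := (S.lowMap hsum.le).eval xl
  have hψ0 : ψ ≠ 0 := by
    intro h0
    refine S.lowMap_ne_zero hsum.le (fun b i => algebraMap ℚ ℚ̄ (xl b i)) ?_ (funext fun Z => ?_)
    · intro b h1
      cases b
      · exact hw h1
      · exact hφ0 (castVec_injective (h1.trans (by funext T; simp [castVec])))
    · refine ((S.lowMap hsum.le).map (Algebra.ofId ℚ ℚ̄) xl Z).symm.trans ?_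
      rw [show (S.lowMap hsum.le).eval xl Z = 0 from congrFun h0 Z, map_zero]
      rfl
  have hψ : ∀ Z, ψ Z = (Matrix.of fun i k =>
      S.dotMul hLL (S.gridPt Z) (slot p J₀ i) (slot p' K₀ k)).det := by
    intro Z
    show formVal φ (fun j => S.dotMul hsum.le (S.gridPt Z) w (S.unitVec j)) = _
    have := hφval (A := ℚ) (fun j => S.dotMul hsum.le (S.gridPt Z) w (S.unitVec j))
    simp only [Algebra.algebraMap_self, RingHom.id_apply] at this
    rw [this]
    congr 1
    ext i k
    simp only [Matrix.of_apply]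
    rw [← S.dotMul_eq_sum]
    show ∑ l, S.mulVec hsum.le w (r i k) l * _ = ∑ l, S.mulVec hLL _ _ l * _
    rw [hr i k]
  let xu : Bool → (Fin M → S.Coord L) → ℚ := fun b => match b with
    | true => p
    | false => p'
  have hup := hC₂ xu (fun b => match b with | true => hp.ne_zero | false => hp'.ne_zero)
  obtain ⟨Bp, cp, hBp, hcp, hpB⟩ := hp.1.exists_eq
  obtain ⟨Bq, cq, hBq, hcq, hqB⟩ := hp'.1.exists_eq
  have hval : ∀ J K Z, algebraMap ℚ ℚ̄ ((S.upMap hLL).eval xu (J, K, Z)) =
      (cp * cq) * algebraMap ℚ ℚ̄ (p J) ^ (M - 1) * algebraMap ℚ ℚ̄ (p' K) ^ (M - 1) *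
        (Matrix.of fun i k => S.dotMul hLL (S.gridPt (A := ℚ̄) Z) (Bp i) (Bq k)).det := by
    intro J K Z
    refine ((S.upMap hLL).map (Algebra.ofId ℚ ℚ̄) xu (J, K, Z)).trans ?_
    show (Matrix.of fun i k => S.dotMul hLL (S.gridPt (A := ℚ̄) Z) (slot (castVec p) J i)
      (slot (castVec p') K k)).det = _
    rw [hpB, hqB, det_bilin_slot, Fintype.card_fin]
    have h1 : algebraMap ℚ ℚ̄ (p J) = cp * minors Bp J := congrFun hpB J
    have h2 : algebraMap ℚ ℚ̄ (p' K) = cq * minors Bq K := congrFun hqB K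
    rw [h1, h2]
    conv_lhs => rw [show (cp * cq) ^ M = (cp * cq) * (cp * cq) ^ (M - 1) by
      rw [← pow_succ', Nat.sub_add_cancel hM]]
    ring
  set a : ℚ := p J₀ ^ (M - 1) * p' K₀ ^ (M - 1)
  have ha : a ≠ 0 := mul_ne_zero (pow_ne_zero _ hJ₀) (pow_ne_zero _ hK₀)
  have hid : a • (S.upMap hLL).eval xu = fun J => (p ^ (M - 1)) J.1 *
      (fun KZ : (Fin M → S.Coord L) × (S.Coord (L + L) → Fin (M + 1)) =>
        (p' ^ (M - 1)) KZ.1 * ψ KZ.2) J.2 := by
    funext J
    refine (algebraMap ℚ ℚ̄).injective ?_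
    have e : ψ J.2.2 = (S.upMap hLL).eval xu (J₀, K₀, J.2.2) := hψ _
    simp only [Pi.smul_apply, Pi.pow_apply, smul_eq_mul, map_mul, map_pow, e, a, hval]
    ring
  have hheight : logHeight ((S.upMap hLL).eval xu) =
      (M - 1 : ℕ) * logHeight p + ((M - 1 : ℕ) * logHeight p' + logHeight ψ) := by
    have hne : (fun KZ : (Fin M → S.Coord L) × (S.Coord (L + L) → Fin (M + 1)) =>
        (p' ^ (M - 1)) KZ.1 * ψ KZ.2) ≠ 0 := by
      obtain ⟨Z, hZ⟩ := Function.ne_iff.mp hψ0
      exact Function.ne_iff.mpr ⟨(K₀, Z), mul_ne_zero (pow_ne_zero _ hK₀) hZ⟩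
    rw [← logHeight_smul_eq_logHeight _ ha, hid,
      logHeight_fun_mul_eq (pow_ne_zero _ hp.ne_zero) hne,
      logHeight_fun_mul_eq (pow_ne_zero _ hp'.ne_zero) hψ0, logHeight_pow, logHeight_pow]
  rw [Fintype.sum_bool] at hlow hup
  simp only [cond_true, cond_false, Nat.cast_one, one_mul] at hlow
  rw [hheight, Nat.cast_sub hM, Nat.cast_one] at hup
  rw [hhp, hhp'] at hB
  have hbound : logHeight φ ≤ B + C₁ + C₂ := by
    have e1 : logHeight (xl true) = logHeight φ := rfl
    have e2 : logHeight (xl false) = logHeight w := rfl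
    have e3 : logHeight (xu true) = logHeight p := rfl
    have e4 : logHeight (xu false) = logHeight p' := rfl
    rw [e1, e2] at hlow
    rw [e3, e4] at hup
    linarith
  -- normalise
  obtain ⟨T₀, hT₀⟩ := Function.ne_iff.mp hφ0
  rw [Pi.zero_apply] at hT₀
  refine Set.mem_biUnion (x := (φ T₀)⁻¹ • φ)
    ⟨by rw [logHeight_smul_eq_logHeight _ (inv_ne_zero hT₀)]; exact hbound,
      T₀, inv_mul_cancel₀ hT₀⟩ ?_
  refine ⟨E, E', castVec w, s, t, h, hw, hzeros.symm, hs, ht, hsE, htE,
    ⟨algebraMap ℚ ℚ̄ (φ T₀), by simpa using hT₀, fun y => ?_⟩, rfl⟩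
  rw [hform, formVal, formVal, Finset.mul_sum]
  refine Finset.sum_congr rfl fun T _ => ?_
  rw [← mul_assoc, ← map_mul, Pi.smul_apply, smul_eq_mul, mul_inv_cancel_left₀ hT₀]

end Setting

end Fermat.Agent.MordellWeil
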