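import Fermat.Agent.Galois.Minkowski

/-!
Lifting of inertia relative to a closed subgroup that is only normalised by the element to be
lifted (variant of `Fermat.Agent.Galois.exists_mem_inertia_of_forall_sub_mem`).
-/

set_option autoImplicit false

noncomputable section

open scoped Pointwise NumberField

namespace Fermat.Agent.MordellWeil

open Fermat.Agent.Galois

/-- `Qb` abbreviates the fixed algebraic closure of `ℚ`. -/
local notation "Qb" => AlgebraicClosure ℚ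

local instance : Algebra.IsAlgebraic ℚ Qb := AlgebraicClosure.isAlgebraic ℚ

local instance : IsAlgClosure ℚ Qb := ⟨inferInstance, inferInstance⟩

local instance : IsGalois ℚ Qb := IsAlgClosure.isGalois ℚ Qb

local instance : TopologicalSpace (integralClosure ℤ Qb) := ⊥

local instance : DiscreteTopology (integralClosure ℤ Qb) := ⟨rfl⟩

local instance : ContinuousSMul (Qb ≃ₐ[ℚ] Qb) (integralClosure ℤ Qb) := by
  rw [continuousSMul_iff_stabilizer_isOpen]
  intro x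
  have h : MulAction.stabilizer (Qb ≃ₐ[ℚ] Qb) x = MulAction.stabilizer (Qb ≃ₐ[ℚ] Qb) (x : Qb) := by
    ext σ
    exact Subtype.ext_iff
  rw [h]
  exact stabilizer_isOpen_of_isIntegral _

/-- Lifting inertia: if `σ₀` acts trivially modulo a place on the algebraic integers fixed by the
closed subgroup `H` normalised by `σ₀`, then an inertia element at the place agrees with `σ₀` modulo `H`. -/
theorem exists_inertia_eq_mod (H : Subgroup (Qb ≃ₐ[ℚ] Qb))
    (hH : IsClosed (H : Set (Qb ≃ₐ[ℚ] Qb))) (A : ValuationSubring Qb) {ℓ : ℕ} (hℓ : ℓ.Prime)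
    (hA : A.LiesOverPrime ℓ) {σ₀ : Qb ≃ₐ[ℚ] Qb}
    (hconj : ∀ h ∈ H, σ₀ * h * σ₀⁻¹ ∈ H) (hconj' : ∀ h ∈ H, σ₀⁻¹ * h * σ₀ ∈ H)
    (hσ₀ : ∀ b : integralClosure ℤ Qb, (∀ h ∈ H, h • b = b) → σ₀ • b - b ∈ placeCenter A) :
    ∃ σ ∈ A.inertiaSubgroupIn ℚ, σ * σ₀⁻¹ ∈ H := by
  have : CompactSpace H := isCompact_iff_compactSpace.mp hH.isCompact
  let Q := placeCenter A
  let R := FixedPoints.subalgebra ℤ (integralClosure ℤ Qb) H
  have : SMulCommClass H R (integralClosure ℤ Qb) := ⟨fun h r b => by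
    show h • ((r : integralClosure ℤ Qb) * b) = (r : integralClosure ℤ Qb) * (h • b)
    rw [smul_mul', r.2 h]⟩
  have : Algebra.IsInvariant R (integralClosure ℤ Qb) H := ⟨fun b hb => ⟨⟨b, hb⟩, rfl⟩⟩
  have hR : ∀ (r : R) (h : Qb ≃ₐ[ℚ] Qb), h ∈ H →
      h • (r : integralClosure ℤ Qb) = r := fun r h hh => r.2 ⟨h, hh⟩
  have hR' : ∀ r : R, ∀ h ∈ H,
      h • (σ₀ • (r : integralClosure ℤ Qb)) = σ₀ • (r : integralClosure ℤ Qb) := by
    intro r h hh
    have hh' : σ₀⁻¹ * h * σ₀ ∈ H := hconj' h hh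
    conv_rhs => rw [← hR r _ hh']
    rw [← mul_smul σ₀, ← mul_assoc, ← mul_assoc, mul_inv_cancel, one_mul, mul_smul]
  -- move `σ₀` into the decomposition group
  have hunder : (σ₀ • Q).under R = Q.under R := by
    ext r
    have hr := hσ₀ r (hR r)
    have hr' : (r : integralClosure ℤ Qb) - σ₀⁻¹ • (r : integralClosure ℤ Qb) ∈ Q := by
      have hfix : ∀ h ∈ H, h • (σ₀⁻¹ • (r : integralClosure ℤ Qb)) =
          σ₀⁻¹ • (r : integralClosure ℤ Qb) := by
        intro h hh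
        have hh' : σ₀ * h * σ₀⁻¹ ∈ H := hconj h hh
        conv_rhs => rw [← hR r _ hh']
        rw [← mul_smul σ₀⁻¹, mul_assoc σ₀, inv_mul_cancel_left, mul_smul]
      simpa [← mul_smul] using hσ₀ _ hfix
    show (r : integralClosure ℤ Qb) ∈ σ₀ • Q ↔ (r : integralClosure ℤ Qb) ∈ Q
    rw [Ideal.mem_pointwise_smul_iff_inv_smul_mem]
    exact ⟨fun h => by simpa using add_mem hr' h, fun h => by simpa using sub_mem h hr'⟩
  obtain ⟨⟨h, hh⟩, hhQ⟩ :=
    Algebra.IsInvariant.exists_smul_of_under_eq_of_profinite (A := R) (G := H) (σ₀ • Q) Q hunder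
  let σ₁ := h * σ₀
  have hσ₁Q : σ₁ • Q = Q := by rw [mul_smul]; exact hhQ.symm
  have hσ₁R : ∀ r : R, σ₁ • (r : integralClosure ℤ Qb) - r ∈ Q := fun r => by
    rw [mul_smul, hR' r h hh]; exact hσ₀ r (hR r)
  -- its effect on the residue ring is realised inside `H`
  let P := Q.under R
  have hσ₁mem : ∀ b : integralClosure ℤ Qb, σ₁ • b ∈ Q ↔ b ∈ Q := fun b => by
    conv_lhs => rw [← hσ₁Q]
    exact Ideal.smul_mem_pointwise_smul_iff
  let f : (integralClosure ℤ Qb ⧸ Q) ≃+* (integralClosure ℤ Qb ⧸ Q) :=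
    Ideal.quotientEquiv Q Q (MulSemiringAction.toRingEquiv _ (integralClosure ℤ Qb) σ₁) (by
      conv_lhs => rw [← hσ₁Q]
      rfl)
  have hf : ∀ b, f (Ideal.Quotient.mk Q b) = Ideal.Quotient.mk Q (σ₁ • b) := fun _ => rfl
  let e : (integralClosure ℤ Qb ⧸ Q) ≃ₐ[R ⧸ P] (integralClosure ℤ Qb ⧸ Q) :=
    AlgEquiv.ofRingEquiv (f := f) fun x => by
      obtain ⟨r, rfl⟩ := Ideal.Quotient.mk_surjective x
      show f (Ideal.Quotient.mk Q (r : integralClosure ℤ Qb)) =
        Ideal.Quotient.mk Q (r : integralClosure ℤ Qb)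
      rw [hf, Ideal.Quotient.eq]
      exact hσ₁R r
  obtain ⟨⟨⟨h', hh'⟩, hstab'⟩, hh'e⟩ :=
    Ideal.Quotient.stabilizerHom_surjective_of_profinite (G := H) P Q e
  have hh'Q : h' • Q = Q := hstab'
  have key : ∀ b : integralClosure ℤ Qb, h' • b - σ₁ • b ∈ Q := fun b => by
    rw [← Ideal.Quotient.eq, ← hf]
    exact DFunLike.congr_fun hh'e (Ideal.Quotient.mk Q b)
  refine ⟨h'⁻¹ * σ₁, mem_inertiaSubgroupIn_of_forall_sub_mem A hℓ hA fun b => ?_, ?_⟩
  · have h1 : h'⁻¹ • (σ₁ • b - h' • b) ∈ h'⁻¹ • Q :=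
      Ideal.smul_mem_pointwise_smul _ _ _ (by simpa using neg_mem (key b))
    have h2 : h'⁻¹ • Q = Q := by
      conv_lhs => rw [← hh'Q]
      rw [inv_smul_smul]
    rw [h2, smul_sub, inv_smul_smul] at h1
    rwa [mul_smul]
  · show h'⁻¹ * (h * σ₀) * σ₀⁻¹ ∈ H
    rw [mul_assoc, mul_inv_cancel_right]
    exact mul_mem (inv_mem hh') hh

end Fermat.Agent.MordellWeil
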