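import Fermat.Agent.MordellWeil.SqClasses
import Fermat.Agent.MordellWeil.InertiaLift
import Fermat.Agent.ClassField.S14.Places

/-!
# Finitely many quadratic subgroups unramified outside a finite set

`K` a number field inside `ℚ̄`, `H` its Galois group.  There are only finitely many open subgroups of
index at most two of `H` containing the inertia at all places not dividing a fixed `m ≠ 0`.
-/

set_option autoImplicit false

noncomputable section

namespace Fermat.Agent.MordellWeil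

open UniqueFactorizationMonoid NumberField
open scoped NumberField

/-- `Qb` abbreviates the fixed algebraic closure of `ℚ`. -/
local notation "Qb" => AlgebraicClosure ℚ

/-- `Γ` abbreviates the absolute Galois group of `ℚ`. -/
local notation "Γ" => (AlgebraicClosure ℚ ≃ₐ[ℚ] AlgebraicClosure ℚ)

local instance : Algebra.IsAlgebraic ℚ Qb := AlgebraicClosure.isAlgebraic ℚ

local instance : IsAlgClosure ℚ Qb := ⟨inferInstance, inferInstance⟩

local instance : IsGalois ℚ Qb := IsAlgClosure.isGalois ℚ Qb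

local instance (K : IntermediateField ℚ Qb) [FiniteDimensional ℚ K] : NumberField K := { }

/-- Contains a prime number. -/
theorem exists_prime_natCast_mem {R : Type*} [CommRing R] (P : Ideal R) [P.IsPrime]
    {n : ℕ} (hn : n ≠ 0) (hnP : (n : R) ∈ P) : ∃ ℓ : ℕ, ℓ.Prime ∧ (ℓ : R) ∈ P := by
  induction n using Nat.strong_induction_on with
  | _ n ih =>
  rcases eq_or_ne n 1 with rfl | h1
  · exact absurd (P.eq_top_iff_one.2 (by simpa using hnP)) ‹P.IsPrime›.ne_top
  obtain ⟨q, hq, k, rfl⟩ : ∃ q : ℕ, q.Prime ∧ ∃ k, n = q * k :=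
    ⟨n.minFac, Nat.minFac_prime h1, n.minFac_dvd⟩
  rw [Nat.cast_mul] at hnP
  rcases (‹P.IsPrime›.mem_or_mem hnP) with h | h
  · exact ⟨q, hq, h⟩
  · have hk : k ≠ 0 := right_ne_zero_of_mul hn
    exact ih k (lt_mul_of_one_lt_left (Nat.pos_of_ne_zero hk) hq.one_lt) hk h

/-- An open subgroup of index at most two of `Gal(ℚ̄/K)` containing inertia away from `m`. -/
structure IsQuadraticUnramified (K : IntermediateField ℚ Qb) (m : ℕ) (N : Subgroup Γ) : Prop where
  le : N ≤ K.fixingSubgroup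
  isOpen : IsOpen (N : Set Γ)
  index_two : ∀ σ ∈ K.fixingSubgroup, ∀ τ ∈ K.fixingSubgroup, σ ∉ N → τ ∉ N → σ * τ ∈ N
  inertia_le : ∀ ℓ : ℕ, ℓ.Prime → ¬ ℓ ∣ m → ∀ A : ValuationSubring Qb, A.LiesOverPrime ℓ →
    ∀ σ ∈ A.inertiaSubgroupIn ℚ, σ ∈ K.fixingSubgroup → σ ∈ N

namespace IsQuadraticUnramified

variable {K : IntermediateField ℚ Qb} {m : ℕ} {N : Subgroup Γ}

theorem conj_mem (hN : IsQuadraticUnramified K m N) {σ h : Γ} (hσ : σ ∈ K.fixingSubgroup)
    (hh : h ∈ N) : σ * h * σ⁻¹ ∈ N := by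
  by_cases hσN : σ ∈ N
  · exact N.mul_mem (N.mul_mem hσN hh) (N.inv_mem hσN)
  · refine hN.index_two _ (Subgroup.mul_mem _ hσ (hN.le hh)) _ (Subgroup.inv_mem _ hσ)
      (fun hc => hσN ?_) fun hc => hσN ((N.inv_mem_iff).1 hc)
    simpa using N.mul_mem hc (N.inv_mem hh)

/-- A proper such subgroup is the stabiliser of the square root of an integer of `K` with even
exponents away from `m`. -/
theorem exists_sqrt [FiniteDimensional ℚ K] (hN : IsQuadraticUnramified K m N)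
    (hne : N ≠ K.fixingSubgroup) :
    ∃ (u : Qb) (a : 𝓞 K), a ≠ 0 ∧ u ^ 2 = ((a : K) : Qb) ∧
      (∀ P, Odd (Multiset.count P (normalizedFactors (Ideal.span {a}))) → (m : 𝓞 K) ∈ P) ∧
      ∀ h, h ∈ N ↔ h ∈ K.fixingSubgroup ∧ h u = u := by
  classical
  obtain ⟨σ₀, hσ₀, hσ₀N⟩ := SetLike.exists_of_lt (lt_of_le_of_ne hN.le hne)
  have hNc : IsClosed (N : Set Γ) := Subgroup.isClosed_of_isOpen N hN.isOpen
  have hfix : (IntermediateField.fixedField N).fixingSubgroup = N :=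
    InfiniteGalois.fixingSubgroup_fixedField ⟨N, hNc⟩
  obtain ⟨z, hz, hzσ⟩ : ∃ z ∈ IntermediateField.fixedField N, σ₀ z ≠ z := by
    by_contra hc
    push Not at hc
    refine hσ₀N ?_
    rw [← hfix]
    exact fun x => hc x x.2
  have hsq : σ₀ * σ₀ ∈ N := hN.index_two _ hσ₀ _ hσ₀ hσ₀N hσ₀N
  have hfixσ : ∀ x : Qb, (∀ h ∈ N, h x = x) → ∀ h ∈ N, h (σ₀ x) = σ₀ x := by
    intro x hx h hh
    have := hx _ (hN.conj_mem (Subgroup.inv_mem _ hσ₀) hh)
    rw [inv_inv, AlgEquiv.mul_apply, AlgEquiv.mul_apply] at this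
    calc h (σ₀ x) = σ₀ (σ₀⁻¹ (h (σ₀ x))) := (σ₀.apply_symm_apply _).symm
      _ = σ₀ x := by rw [this]
  -- anti-invariant parts
  have hanti : ∀ x : Qb, (∀ h ∈ N, h x = x) →
      (∀ h ∈ N, h (σ₀ x - x) = σ₀ x - x) ∧ σ₀ (σ₀ x - x) = -(σ₀ x - x) := by
    intro x hx
    refine ⟨fun h hh => by rw [map_sub, hfixσ x hx h hh, hx h hh], ?_⟩
    have h2 : σ₀ (σ₀ x) = x := hx _ hsq
    rw [map_sub, h2, neg_sub]
  have hzN : ∀ h ∈ N, h z = z := fun h hh => hz ⟨h, hh⟩
  obtain ⟨n, hn0, hnint⟩ : ∃ n : ℤ, n ≠ 0 ∧ IsIntegral ℤ (n • (σ₀ z - z)) :=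
    IsAlgebraic.exists_integral_multiple
      ((IsFractionRing.isAlgebraic_iff ℤ ℚ Qb).mpr (Algebra.IsAlgebraic.isAlgebraic _))
  set u : Qb := n • (σ₀ z - z) with hu
  have hu0 : u ≠ 0 := by
    rw [hu, zsmul_eq_mul]
    exact mul_ne_zero (by exact_mod_cast hn0) (sub_ne_zero.2 hzσ)
  have huN : ∀ h ∈ N, h u = u := fun h hh => by
    rw [hu, map_zsmul, (hanti z hzN).1 h hh]
  have huσ : σ₀ u = -u := by rw [hu, map_zsmul, (hanti z hzN).2, smul_neg]
  -- every `h ∈ H` outside `N` negates an anti-invariant element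
  have hout : ∀ x : Qb, (∀ h ∈ N, h x = x) → σ₀ x = -x →
      ∀ h ∈ K.fixingSubgroup, h ∉ N → h x = -x := by
    intro x hx hxσ h hh hhN
    have h' : σ₀⁻¹ * h ∈ N :=
      hN.index_two _ (Subgroup.inv_mem _ hσ₀) _ hh (fun hc => hσ₀N ((N.inv_mem_iff).1 hc)) hhN
    have := congrArg σ₀ (hx _ h')
    rw [AlgEquiv.mul_apply] at this
    exact ((σ₀.apply_symm_apply _).symm.trans this).trans hxσ
  have hinK : ∀ x : Qb, (∀ h ∈ K.fixingSubgroup, h x = x) → x ∈ K := fun x hx => by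
    rw [← InfiniteGalois.fixedField_fixingSubgroup K]
    exact fun h => hx h h.2
  have hdivK : ∀ x : Qb, (∀ h ∈ N, h x = x) → σ₀ x = -x → x / u ∈ K := by
    intro x hx hxσ
    refine hinK _ fun h hh => ?_
    by_cases hhN : h ∈ N
    · rw [map_div₀, hx h hhN, huN h hhN]
    · rw [map_div₀, hout x hx hxσ h hh hhN, hout u huN huσ h hh hhN, neg_div_neg_eq]
  have huK : u ^ 2 ∈ K := hinK _ fun h hh => by
    by_cases hhN : h ∈ N
    · rw [map_pow, huN h hhN]
    · rw [map_pow, hout u huN huσ h hh hhN, neg_sq]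
  have huint : IsIntegral ℤ (⟨u ^ 2, huK⟩ : K) :=
    (isIntegral_algHom_iff K.val.toRingHom.toIntAlgHom K.val.injective).mp (hnint.pow 2)
  let a : 𝓞 K := ⟨⟨u ^ 2, huK⟩, huint⟩
  have ha0 : a ≠ 0 := fun h => pow_ne_zero 2 hu0 (congrArg (fun x : 𝓞 K => ((x : K) : Qb)) h)
  refine ⟨u, a, ha0, rfl, fun P hodd => ?_, fun h => ⟨fun hh => ⟨hN.le hh, huN h hh⟩,
    fun ⟨hh, hhu⟩ => by_contra fun hhN => ?_⟩⟩
  swap
  · have h2 := hhu.symm.trans (hout u huN huσ h hh hhN)
    exact hu0 (CharZero.eq_neg_self_iff.mp h2)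
  -- evenness away from `m`
  by_contra hmP
  have hPmem : P ∈ normalizedFactors (Ideal.span {a}) :=
    Multiset.count_pos.1 hodd.pos
  have hPp : Prime P := prime_of_normalized_factor P hPmem
  have : P.IsPrime := Ideal.isPrime_of_prime hPp
  have : P.IsMaximal := Ideal.IsPrime.isMaximal ‹_› hPp.ne_zero
  obtain ⟨ℓ, hℓ, hℓP⟩ := exists_prime_natCast_mem P (n := Ideal.absNorm P)
    (fun h => hPp.ne_zero (Ideal.absNorm_eq_zero_iff.1 h)) (Ideal.absNorm_mem P)
  have hℓm : ¬ ℓ ∣ m := fun ⟨k, hk⟩ => hmP (by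
    rw [hk, Nat.cast_mul]; exact P.mul_mem_right _ hℓP)
  obtain ⟨A, hA, hAP, -⟩ := ClassField.S14.exists_place_over K P hℓ hℓP
  have key : ∀ b : integralClosure ℤ Qb, (∀ h ∈ N, h • b = b) →
      σ₀ • b - b ∈ Galois.placeCenter A := by
    intro b hb
    have hb' : ∀ h ∈ N, h (b : Qb) = b := fun h hh => congrArg Subtype.val (hb h hh)
    obtain ⟨hdN, hdσ⟩ := hanti (b : Qb) hb'
    rw [Galois.mem_placeCenter_iff]
    show σ₀ (b : Qb) - b ∈ A.nonunits
    set d : Qb := σ₀ (b : Qb) - b with hd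
    rcases eq_or_ne d 0 with hd0 | hd0
    · rw [hd0, A.mem_nonunits_iff, map_zero]; exact zero_lt_one
    have hdint : IsIntegral ℤ d := (b.2.map σ₀.toAlgHom.toRingHom.toIntAlgHom).sub b.2
    have hγ : d / u ∈ K := hdivK d hdN hdσ
    have hdK : d ^ 2 ∈ K := by
      have : d ^ 2 = u ^ 2 * (d / u) ^ 2 := by field_simp
      rw [this]; exact K.mul_mem huK (pow_mem hγ 2)
    have hdint' : IsIntegral ℤ (⟨d ^ 2, hdK⟩ : K) :=
      (isIntegral_algHom_iff K.val.toRingHom.toIntAlgHom K.val.injective).mp (hdint.pow 2)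
    let c : 𝓞 K := ⟨⟨d ^ 2, hdK⟩, hdint'⟩
    obtain ⟨r, s, hs, hrs⟩ := IsFractionRing.div_surjective (A := 𝓞 K) (⟨d / u, hγ⟩ : K)
    have hs0 : s ≠ 0 := nonZeroDivisors.ne_zero hs
    have hcs : c * s ^ 2 = a * r ^ 2 := by
      apply FaithfulSMul.algebraMap_injective (𝓞 K) K
      have hsK : algebraMap (𝓞 K) K s ≠ 0 :=
        (map_ne_zero_iff _ (FaithfulSMul.algebraMap_injective (𝓞 K) K)).2 hs0
      rw [div_eq_iff hsK] at hrs
      simp only [map_mul, map_pow, hrs]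
      apply Subtype.ext
      show d ^ 2 * ((s : K) : Qb) ^ 2 = u ^ 2 * (d / u * ((s : K) : Qb)) ^ 2
      field_simp
    have hc0 : c ≠ 0 := fun h => pow_ne_zero 2 hd0 (congrArg (fun x : 𝓞 K => ((x : K) : Qb)) h)
    have hr0 : r ≠ 0 := by
      rintro rfl
      simp [hc0, hs0] at hcs
    have hsp : ∀ {x : 𝓞 K}, x ≠ 0 → Ideal.span {x} ≠ (0 : Ideal (𝓞 K)) := fun hx => by
      simpa using hx
    have hcount := congrArg (fun x : 𝓞 K => (normalizedFactors (Ideal.span {x})).count P) hcs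
    simp only [← Ideal.span_singleton_mul_span_singleton, ← Ideal.span_singleton_pow] at hcount
    rw [normalizedFactors_mul (hsp hc0) (pow_ne_zero 2 (hsp hs0)),
      normalizedFactors_mul (hsp ha0) (pow_ne_zero 2 (hsp hr0))] at hcount
    simp only [normalizedFactors_pow, Multiset.count_add, Multiset.count_nsmul] at hcount
    have hcP : c ∈ P := by
      have hpos : 0 < (normalizedFactors (Ideal.span {c})).count P := by
        rcases hodd with ⟨t, ht⟩; omega
      exact Ideal.dvd_span_singleton.1 (dvd_of_mem_normalizedFactors (Multiset.count_pos.1 hpos))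
    have hd2 : d ^ 2 ∈ A.nonunits := (hAP c).1 hcP
    rw [A.mem_nonunits_iff, map_pow] at hd2
    rw [A.mem_nonunits_iff]
    exact lt_of_not_ge fun hle => (not_le.2 hd2) (one_le_pow₀ hle)
  obtain ⟨τ, hτ, hτσ⟩ := exists_inertia_eq_mod N hNc A hℓ hA (σ₀ := σ₀)
    (fun h hh => hN.conj_mem hσ₀ hh)
    (fun h hh => by simpa using hN.conj_mem (Subgroup.inv_mem _ hσ₀) hh) key
  have hτH : τ ∈ K.fixingSubgroup := by
    simpa using Subgroup.mul_mem _ (hN.le hτσ) hσ₀
  have hτN := hN.inertia_le ℓ hℓ hℓm A hA τ hτ hτH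
  exact hσ₀N (by simpa using N.mul_mem (N.inv_mem hτσ) hτN)

end IsQuadraticUnramified

/-- Hermite for quadratic extensions of `K` unramified away from `m`. -/
theorem finite_isQuadraticUnramified (K : IntermediateField ℚ Qb) [FiniteDimensional ℚ K] {m : ℕ}
    (hm : m ≠ 0) : {N | IsQuadraticUnramified K m N}.Finite := by
  classical
  obtain ⟨R, hR, hrep⟩ := exists_finite_squareClasses (K := K)
    (T := {P | P ∈ normalizedFactors (Ideal.span {(m : 𝓞 K)})})
    (Multiset.finite_toSet _)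
  let sq : 𝓞 K → Qb := fun r => (IsAlgClosed.exists_eq_mul_self ((r : K) : Qb)).choose
  refine ((hR.image fun r => K.fixingSubgroup ⊓ MulAction.stabilizer Γ (sq r)).insert
    K.fixingSubgroup).subset fun N hN => ?_
  rcases eq_or_ne N K.fixingSubgroup with h | h
  · exact Set.mem_insert_iff.2 (Or.inl h)
  refine Set.mem_insert_iff.2 (Or.inr ?_)
  obtain ⟨u, a, ha, hu, hodd, hN'⟩ := hN.exists_sqrt h
  obtain ⟨r, hr, z, hz, haz⟩ := hrep a ha fun P hP => by
    have hPp : Prime P := prime_of_normalized_factor P (Multiset.count_pos.1 hP.pos)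
    exact (mem_normalizedFactors_iff (by simpa using hm : Ideal.span {(m : 𝓞 K)} ≠ 0)).2
      ⟨hPp, Ideal.dvd_span_singleton.2 (hodd P hP)⟩
  refine ⟨r, hr, ?_⟩
  have hsq : ((r : K) : Qb) = sq r * sq r :=
    (IsAlgClosed.exists_eq_mul_self ((r : K) : Qb)).choose_spec
  have hu' : u ^ 2 = (sq r * (z : Qb)) ^ 2 := by
    rw [hu, haz, IntermediateField.coe_mul, IntermediateField.coe_pow, hsq]; ring
  have hz' : (z : Qb) ≠ 0 := by simpa using hz
  ext g
  rw [hN', Subgroup.mem_inf]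
  refine and_congr_right fun hg => ?_
  have hgz : g (z : Qb) = z := hg z
  rcases sq_eq_sq_iff_eq_or_eq_neg.1 hu' with e | e <;>
    simp [e, hgz, hz', MulAction.mem_stabilizer_iff]

end Fermat.Agent.MordellWeil
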