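import Fermat.Agent.MordellWeil.Defs

/-!
Base divisors of subspaces of `L(a ∞)`, and the certificate: if a product of subspaces of the
expected dimensions lies in `w · L(m ∞)` with `deg w` the expected degree, then the subspaces are
complete spaces `L(a ∞ - A)`.
-/

set_option autoImplicit false

set_option linter.unusedSectionVars false

noncomputable section

open AlgebraicCurve Fermat.Agent.Curve

namespace Fermat.Agent.MordellWeil

local notation "ℚ̄" => AlgebraicClosure ℚ

variable {F : Type} [Field F] [Algebra ℚ̄ F] [IsFunctionField1 ℚ̄ F]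

theorem degree_mono {A B : Divisor ℚ̄ F} (h : A ≤ B) :
    Divisor.degree A ≤ Divisor.degree B := by
  have := Curve.degree_nonneg (D := B - A) (sub_nonneg.mpr h)
  rw [map_sub] at this
  linarith

theorem eq_of_le_of_degree_le {A B : Divisor ℚ̄ F} (h : A ≤ B)
    (hd : Divisor.degree B ≤ Divisor.degree A) : A = B := by
  by_contra hne
  obtain ⟨v, hv⟩ : ∃ v, A v ≠ B v := by
    by_contra hall
    exact hne (Finsupp.ext fun v => not_not.mp fun h' => hall ⟨v, h'⟩)
  have h1 : A + Finsupp.single v 1 ≤ B := fun u => by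
    have := h u
    rw [Finsupp.add_apply]
    rcases eq_or_ne u v with rfl | hu
    · rw [Finsupp.single_eq_same]; omega
    · rw [Finsupp.single_eq_of_ne hu, add_zero]; exact this
  have := degree_mono h1
  rw [map_add, Divisor.degree_single, deg_eq_one v] at this
  simp at this
  omega

/-- An effective divisor contains effective divisors of every smaller degree. -/
theorem exists_le_of_degree {B : Divisor ℚ̄ F} (hB : 0 ≤ B) :
    ∀ {j : ℕ}, (j : ℤ) ≤ Divisor.degree B → ∃ A, 0 ≤ A ∧ A ≤ B ∧ Divisor.degree A = j := by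
  intro j
  induction j with
  | zero => exact fun _ => ⟨0, le_rfl, hB, by simp⟩
  | succ j ih =>
    intro hj
    obtain ⟨A, hA, hAB, hdA⟩ := ih (by omega)
    obtain ⟨v, hv⟩ : ∃ v, A v < B v := by
      by_contra hall
      have hBA : B ≤ A := fun v => not_lt.mp fun h => hall ⟨v, h⟩
      have := degree_mono hBA
      omega
    refine ⟨A + Finsupp.single v 1, add_nonneg hA (Finsupp.single_nonneg.mpr zero_le_one),
      fun u => ?_, by rw [map_add, Divisor.degree_single, deg_eq_one v, hdA]; simp⟩
    rw [Finsupp.add_apply]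
    rcases eq_or_ne u v with rfl | hu
    · rw [Finsupp.single_eq_same]; omega
    · rw [Finsupp.single_eq_of_ne hu, add_zero]; exact hAB u

/-- Membership in `L(D - A)` for a nonzero function. -/
theorem mem_sub_iff {D A : Divisor ℚ̄ F} {f : F} (hf : f ≠ 0) :
    f ∈ riemannRochSpace (D - A) ↔ ∀ v, A v ≤ v.ord f + D v := by
  rw [mem_riemannRochSpace_iff]
  refine forall_congr' fun v => ?_
  simp only [hf, false_or, Finsupp.sub_apply]
  omega

namespace Setting

variable (S : Setting F)

/-- The base divisor of a nonzero subspace of `L(a ∞)`. -/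
theorem exists_base {a : ℕ} {W : Submodule ℚ̄ F} (hW : W ≤ riemannRochSpace (S.pole a))
    (hne : W ≠ ⊥) :
    ∃ A : Divisor ℚ̄ F, 0 ≤ A ∧ W ≤ riemannRochSpace (S.pole a - A) ∧
      ∀ v, ∃ f ∈ W, f ≠ 0 ∧ v.ord f + S.pole a v = A v := by
  have hfin : Module.Finite ℚ̄ W :=
    Module.Finite.of_injective (Submodule.inclusion hW) (Submodule.inclusion_injective hW)
  let b := Module.finBasis ℚ̄ W
  have hr : 0 < Module.finrank ℚ̄ W := by
    have := Submodule.one_le_finrank_iff.mpr hne
    omega
  have : Nonempty (Fin (Module.finrank ℚ̄ W)) := ⟨⟨0, hr⟩⟩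
  have hb0 : ∀ i, (b i : F) ≠ 0 := fun i h => b.ne_zero i (Subtype.ext h)
  let A : Divisor ℚ̄ F := Finset.univ.inf' Finset.univ_nonempty
    fun i => divisorOf (b i : F) + S.pole a
  have hAapp : ∀ v, A v = Finset.univ.inf' Finset.univ_nonempty
      fun i => v.ord (b i : F) + S.pole a v := fun v => by
    show (Finset.univ.inf' Finset.univ_nonempty fun i => (divisorOf (b i : F) + S.pole a : Divisor ℚ̄ F) : Divisor ℚ̄ F) v = _
    rw [Finset.apply_inf'_eq_inf'_comp Finset.univ_nonempty (fun D : Divisor ℚ̄ F => D v)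
      (fun D D' => Finsupp.inf_apply D D' v)]
    simp [Function.comp_def]
  have hAle : ∀ i v, A v ≤ v.ord (b i : F) + S.pole a v := fun i v =>
    (hAapp v).trans_le (Finset.inf'_le _ (Finset.mem_univ i))
  refine ⟨A, fun v => ?_, fun f hf => ?_, fun v => ?_⟩
  · rw [hAapp v, Finsupp.coe_zero, Pi.zero_apply]
    refine Finset.le_inf' _ _ fun i _ => ?_
    have := (mem_riemannRochSpace_iff.mp (hW (b i).2) v).resolve_left (hb0 i)
    omega
  · have hmem : ∀ i, (b i : F) ∈ riemannRochSpace (S.pole a - A) := fun i =>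
      (mem_sub_iff (hb0 i)).mpr fun v => hAle i v
    have := b.sum_repr ⟨f, hf⟩
    rw [show f = ((⟨f, hf⟩ : W) : F) from rfl, ← this, Submodule.coe_sum]
    exact Submodule.sum_mem _ fun i _ => Submodule.smul_mem _ _ (hmem i)
  · obtain ⟨i, _, hi⟩ := Finset.exists_mem_eq_inf' (Finset.univ_nonempty)
      (fun i => v.ord (b i : F) + S.pole a v)
    exact ⟨b i, (b i).2, hb0 i, (hi.symm.trans (hAapp v).symm)⟩

/-- `ell` in the stable range, for `L(a ∞ - A)`. -/
theorem ell_pole_sub {a d : ℕ} {A : Divisor ℚ̄ F} (hd : Divisor.degree A = (d : ℤ))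
    (h : d + S.bound ≤ a) : ell (S.pole a - A) = S.spaceDim a d := by
  have hb : S.genus < S.bound := by simp [Setting.genus, Setting.bound]
  have := S.ell_eq_of_bound_le (D := S.pole a - A) (by rw [map_sub, S.degree_pole, hd]; omega)
  rw [map_sub, S.degree_pole, hd] at this
  unfold Setting.spaceDim
  omega

/-- The base divisor of a subspace of expected dimension has at most the expected degree. -/
theorem degree_base_le {a d : ℕ} {W : Submodule ℚ̄ F} {A : Divisor ℚ̄ F} (hA : 0 ≤ A)
    (hW : W ≤ riemannRochSpace (S.pole a - A)) (hdim : Module.finrank ℚ̄ W = S.spaceDim a d)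
    (h : d + 1 + S.bound ≤ a) : Divisor.degree A ≤ d := by
  by_contra hlt
  obtain ⟨A', _, hA'A, hdA'⟩ := exists_le_of_degree hA (j := d + 1) (by push_cast; omega)
  have hle : W ≤ riemannRochSpace (S.pole a - A') :=
    hW.trans (riemannRochSpace_mono (sub_le_sub_left hA'A _))
  have h1 := Submodule.finrank_mono hle
  have h2 : Module.finrank ℚ̄ (riemannRochSpace (S.pole a - A')) = S.spaceDim a (d + 1) :=
    S.ell_pole_sub hdA' (by omega)
  have hb : S.genus < S.bound := by simp [Setting.genus, Setting.bound]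
  rw [hdim, h2] at h1
  unfold Setting.spaceDim at h1
  omega

/-- Expected dimension and degree determine the subspace. -/
theorem eq_of_base {a d : ℕ} {W : Submodule ℚ̄ F} {A : Divisor ℚ̄ F}
    (hW : W ≤ riemannRochSpace (S.pole a - A)) (hdim : Module.finrank ℚ̄ W = S.spaceDim a d)
    (hd : Divisor.degree A = (d : ℤ)) (h : d + S.bound ≤ a) :
    W = riemannRochSpace (S.pole a - A) :=
  Submodule.eq_of_le_of_finrank_eq hW (hdim.trans (S.ell_pole_sub hd h).symm)

theorem ne_bot_of_finrank {a d : ℕ} {W : Submodule ℚ̄ F}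
    (hdim : Module.finrank ℚ̄ W = S.spaceDim a d) (h : d + S.bound ≤ a) : W ≠ ⊥ := by
  rintro rfl
  have hb : S.genus < S.bound := by simp [Setting.genus, Setting.bound]
  rw [finrank_bot] at hdim
  unfold Setting.spaceDim at hdim
  omega

/-- Certificate with two factors. -/
theorem base_two {a c n m da dc : ℕ} {W X : Submodule ℚ̄ F}
    (hW : W ≤ riemannRochSpace (S.pole a)) (hX : X ≤ riemannRochSpace (S.pole c))
    (hWdim : Module.finrank ℚ̄ W = S.spaceDim a da) (hXdim : Module.finrank ℚ̄ X = S.spaceDim c dc)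
    (ha : da + 1 + S.bound ≤ a) (hc : dc + 1 + S.bound ≤ c) (hn : da + dc = n) (hm : n + m = a + c)
    {w : F} (hw : w ≠ 0)
    (hprod : ∀ f ∈ W, ∀ x ∈ X, ∃ h ∈ riemannRochSpace (S.pole m), f * x = w * h) :
    ∃ A C : Divisor ℚ̄ F, 0 ≤ A ∧ 0 ≤ C ∧ Divisor.degree A = (da : ℤ) ∧
      Divisor.degree C = (dc : ℤ) ∧ W = riemannRochSpace (S.pole a - A) ∧
      X = riemannRochSpace (S.pole c - C) ∧ A + C = divisorOf w + S.pole n := by
  obtain ⟨A, hA0, hAW, hAat⟩ := S.exists_base hW (S.ne_bot_of_finrank hWdim (by omega))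
  obtain ⟨C, hC0, hCX, hCat⟩ := S.exists_base hX (S.ne_bot_of_finrank hXdim (by omega))
  have hdA := S.degree_base_le hA0 hAW hWdim ha
  have hdC := S.degree_base_le hC0 hCX hXdim hc
  have hle : divisorOf w + S.pole n ≤ A + C := fun v => by
    obtain ⟨f, hf, hf0, hfv⟩ := hAat v
    obtain ⟨x, hx, hx0, hxv⟩ := hCat v
    obtain ⟨h, hh, heq⟩ := hprod f hf x hx
    have hh0 : h ≠ 0 := fun h0 => mul_ne_zero hf0 hx0 (by rw [heq, h0, mul_zero])
    have e := congrArg v.ord heq
    rw [v.ord_mul hf0 hx0, v.ord_mul hw hh0] at e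
    have hhv := (mem_riemannRochSpace_iff.mp hh v).resolve_left hh0
    have hp : S.pole n v + S.pole m v = S.pole a v + S.pole c v := by
      classical
      simp only [Setting.pole, Finsupp.single_apply]
      split_ifs <;> omega
    simp only [Finsupp.add_apply, divisorOf_apply]
    omega
  have heq : divisorOf w + S.pole n = A + C := eq_of_le_of_degree_le hle (by
    rw [map_add, map_add, degree_divisorOf, S.degree_pole]; omega)
  have hsum := congrArg Divisor.degree heq
  rw [map_add, map_add, degree_divisorOf, S.degree_pole] at hsum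
  exact ⟨A, C, hA0, hC0, by omega, by omega, S.eq_of_base hAW hWdim (by omega) (by omega),
    S.eq_of_base hCX hXdim (by omega) (by omega), heq.symm⟩

/-- Certificate with three factors. -/
theorem base_three {a b c n m da db dc : ℕ} {W U X : Submodule ℚ̄ F}
    (hW : W ≤ riemannRochSpace (S.pole a)) (hU : U ≤ riemannRochSpace (S.pole b))
    (hX : X ≤ riemannRochSpace (S.pole c))
    (hWdim : Module.finrank ℚ̄ W = S.spaceDim a da) (hUdim : Module.finrank ℚ̄ U = S.spaceDim b db)
    (hXdim : Module.finrank ℚ̄ X = S.spaceDim c dc)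
    (ha : da + 1 + S.bound ≤ a) (hb : db + 1 + S.bound ≤ b) (hc : dc + 1 + S.bound ≤ c)
    (hn : da + db + dc = n) (hm : n + m = a + b + c) {w : F} (hw : w ≠ 0)
    (hprod : ∀ f ∈ W, ∀ g ∈ U, ∀ x ∈ X, ∃ h ∈ riemannRochSpace (S.pole m), f * g * x = w * h) :
    ∃ A B C : Divisor ℚ̄ F, 0 ≤ A ∧ 0 ≤ B ∧ 0 ≤ C ∧ Divisor.degree A = (da : ℤ) ∧
      Divisor.degree B = (db : ℤ) ∧ Divisor.degree C = (dc : ℤ) ∧
      W = riemannRochSpace (S.pole a - A) ∧ U = riemannRochSpace (S.pole b - B) ∧
      X = riemannRochSpace (S.pole c - C) ∧ A + B + C = divisorOf w + S.pole n := by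
  obtain ⟨A, hA0, hAW, hAat⟩ := S.exists_base hW (S.ne_bot_of_finrank hWdim (by omega))
  obtain ⟨B, hB0, hBU, hBat⟩ := S.exists_base hU (S.ne_bot_of_finrank hUdim (by omega))
  obtain ⟨C, hC0, hCX, hCat⟩ := S.exists_base hX (S.ne_bot_of_finrank hXdim (by omega))
  have hdA := S.degree_base_le hA0 hAW hWdim ha
  have hdB := S.degree_base_le hB0 hBU hUdim hb
  have hdC := S.degree_base_le hC0 hCX hXdim hc
  have hle : divisorOf w + S.pole n ≤ A + B + C := fun v => by
    obtain ⟨f, hf, hf0, hfv⟩ := hAat v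
    obtain ⟨g, hg, hg0, hgv⟩ := hBat v
    obtain ⟨x, hx, hx0, hxv⟩ := hCat v
    obtain ⟨h, hh, heq⟩ := hprod f hf g hg x hx
    have hh0 : h ≠ 0 := fun h0 =>
      mul_ne_zero (mul_ne_zero hf0 hg0) hx0 (by rw [heq, h0, mul_zero])
    have e := congrArg v.ord heq
    rw [v.ord_mul (mul_ne_zero hf0 hg0) hx0, v.ord_mul hf0 hg0, v.ord_mul hw hh0] at e
    have hhv := (mem_riemannRochSpace_iff.mp hh v).resolve_left hh0
    have hp : S.pole n v + S.pole m v = S.pole a v + S.pole b v + S.pole c v := by
      classical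
      simp only [Setting.pole, Finsupp.single_apply]
      split_ifs <;> omega
    simp only [Finsupp.add_apply, divisorOf_apply]
    omega
  have heq : divisorOf w + S.pole n = A + B + C := eq_of_le_of_degree_le hle (by
    rw [map_add, map_add, map_add, degree_divisorOf, S.degree_pole]; omega)
  have hsum := congrArg Divisor.degree heq
  rw [map_add, map_add, map_add, degree_divisorOf, S.degree_pole] at hsum
  exact ⟨A, B, C, hA0, hB0, hC0, by omega, by omega, by omega,
    S.eq_of_base hAW hWdim (by omega) (by omega), S.eq_of_base hBU hUdim (by omega) (by omega),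
    S.eq_of_base hCX hXdim (by omega) (by omega), heq.symm⟩

end Setting

end Fermat.Agent.MordellWeil
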