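import Fermat.Agent.MordellWeil.Shift

/-!
The pairing attached to the height of `L(L ∞ - D)`: biadditive up to a bounded amount on effective
rational divisors of bounded degree, and on classes `E - g ∞` it kills principal divisors up to a
bounded amount.
-/

set_option autoImplicit false
set_option linter.unusedSectionVars false

noncomputable section

open AlgebraicCurve Fermat.Agent.Curve Height

namespace Fermat.Agent.MordellWeil

local notation "ℚ̄" => AlgebraicClosure ℚ

variable {F : Type} [Field F] [Algebra ℚ̄ F] [IsFunctionField1 ℚ̄ F]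

namespace Setting

variable (S : Setting F)

/-- The theorem of the cube for the height at level `L`, up to degree `bd`. -/
def CubeHolds (L bd : ℕ) : Prop :=
  ∃ K : ℝ, ∀ A B E : Divisor ℚ̄ F, 0 ≤ A → 0 ≤ B → 0 ≤ E → S.IsRat A → S.IsRat B → S.IsRat E →
    Divisor.degree A ≤ (bd : ℤ) → Divisor.degree B ≤ (bd : ℤ) → Divisor.degree E ≤ (bd : ℤ) →
    |S.height L (A + B + E) + S.height L A + S.height L B + S.height L E
      - S.height L (A + B) - S.height L (A + E) - S.height L (B + E) - S.height L 0| ≤ K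

/-- The pairing attached to the height at level `L`. -/
def heightPairing (L : ℕ) (C D : Divisor ℚ̄ F) : ℝ :=
  S.height L (C + D) - S.height L C - S.height L D + S.height L 0

/-- The pairing of the classes `C - g ∞` and `D - g ∞`. -/
def descentForm (L : ℕ) (C D : Divisor ℚ̄ F) : ℝ :=
  S.heightPairing L C D - S.heightPairing L C (S.pole S.genus)
    - S.heightPairing L (S.pole S.genus) D + S.heightPairing L (S.pole S.genus) (S.pole S.genus)

theorem heightPairing_comm (L : ℕ) (C D : Divisor ℚ̄ F) :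
    S.heightPairing L C D = S.heightPairing L D C := by
  unfold heightPairing
  rw [add_comm C D]
  ring

theorem descentForm_comm (L : ℕ) (C D : Divisor ℚ̄ F) :
    S.descentForm L C D = S.descentForm L D C := by
  unfold descentForm
  rw [S.heightPairing_comm L C D, S.heightPairing_comm L C (S.pole S.genus),
    S.heightPairing_comm L (S.pole S.genus) D]
  ring

theorem pole_nonneg (n : ℕ) : 0 ≤ S.pole n := by
  intro v
  classical
  simp only [Setting.pole, Finsupp.single_apply, Finsupp.coe_zero, Pi.zero_apply]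
  split <;> simp

theorem pole_add (a b : ℕ) : S.pole (a + b) = S.pole a + S.pole b := by
  simp [Setting.pole, Finsupp.single_add]

/-- Effective, rational, of degree `d`. -/
structure IsPointed (d : ℕ) (D : Divisor ℚ̄ F) : Prop where
  nonneg : 0 ≤ D
  rat : S.IsRat D
  degree_eq : Divisor.degree D = (d : ℤ)

theorem isPointed_pole (n : ℕ) : S.IsPointed n (S.pole n) :=
  ⟨S.pole_nonneg n, S.isRat_pole n, S.degree_pole n⟩

theorem IsPointed.add {a b : ℕ} {A B : Divisor ℚ̄ F} (hA : S.IsPointed a A)
    (hB : S.IsPointed b B) : S.IsPointed (a + b) (A + B) :=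
  ⟨add_nonneg hA.nonneg hB.nonneg, Setting.IsRat.add S hA.rat hB.rat, by
    rw [map_add, hA.degree_eq, hB.degree_eq]; push_cast; rfl⟩

/-- An effective rational divisor linearly equivalent to `n ∞` is cut out by a rational vector. -/
theorem exists_rat_zeros {n : ℕ} {D : Divisor ℚ̄ F} (hD : S.IsPointed n D)
    (hp : D - S.pole n ∈ Divisor.principal) :
    ∃ u : S.Coord n → ℚ, castVec u ≠ 0 ∧ S.zeros n (castVec u) = D := by
  obtain ⟨f, hf, hfD⟩ := hp
  have hfmem : f ∈ riemannRochSpace (S.pole n - D) := by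
    refine mem_riemannRochSpace_iff.mpr fun v => Or.inr ?_
    rw [← hfD v, Finsupp.sub_apply, Finsupp.sub_apply]
    omega
  obtain ⟨x, hx, hxf⟩ : f ∈ (S.space n D).map (S.elem n) := by
    rw [S.map_elem_space n hD.nonneg]; exact hfmem
  obtain ⟨p, hp⟩ := exists_isRep (S.space n D) (fun σ y hy => S.space_stable n hD.rat σ hy) rfl
  obtain ⟨J, t, hJt⟩ : ∃ J t, slot (castVec p) J t ≠ 0 := by
    by_contra hall
    have hbot : plSpan (castVec p) = ⊥ := Submodule.span_eq_bot.mpr (by
      rintro _ ⟨k, rfl⟩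
      exact not_not.mp fun h => hall ⟨k.1, k.2, h⟩)
    have hx0 : x = 0 := by
      have hx := hp.2.ge hx
      rw [hbot] at hx
      exact (Submodule.mem_bot ℚ̄).mp hx
    exact hf (by rw [← hxf, hx0, map_zero])
  have hmem : slot (castVec p) J t ∈ S.space n D :=
    hp.2.le (Submodule.subset_span ⟨(J, t), rfl⟩)
  have hw : castVec (slot p J t) ≠ 0 := hJt
  refine ⟨slot p J t, hw, ?_⟩
  have hge : 0 ≤ S.zeros n (castVec (slot p J t)) - D := fun v => by
    have h1 := (mem_sub_iff (S.elem_ne_zero hw)).mp hmem v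
    have h2 : v.ord (S.elem n (castVec (slot p J t)))
        = v.ord (S.elem n (slot (castVec p) J t)) := rfl
    simp only [Setting.zeros, Finsupp.coe_zero, Pi.zero_apply, Finsupp.sub_apply, Finsupp.add_apply,
      divisorOf_apply]
    omega
  have hdeg : Divisor.degree (S.zeros n (castVec (slot p J t)) - D) = 0 := by
    rw [map_sub, S.degree_zeros, hD.degree_eq, sub_self]
  have hcard := card_support_le_degree hge
  rw [hdeg] at hcard
  have hsupp : (S.zeros n (castVec (slot p J t)) - D).support = ∅ := Finset.card_eq_zero.mp (by omega)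
  exact sub_eq_zero.mp (Finsupp.support_eq_empty.mp hsupp)

theorem exists_const_vec (n : ℕ) :
    ∃ u : S.Coord n → ℚ, castVec u ≠ 0 ∧ S.zeros n (castVec u) = S.pole n :=
  S.exists_rat_zeros (S.isPointed_pole n) (by rw [sub_self]; exact zero_mem _)

/-- The height of the zeros of a rational function. -/
theorem exists_height_zeros {L n : ℕ} (hn : n + 1 + S.bound ≤ L) :
    ∃ K : ℝ, ∀ u : S.Coord n → ℚ, castVec u ≠ 0 →
      |S.height L (S.zeros n (castVec u)) - (S.spaceDim (L - n) 0 : ℝ) * logHeight u| ≤ K := by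
  obtain ⟨C, hC⟩ := S.exists_height_shift (n := n) (L0 := L - n) (L := L) (d := 0) (by omega)
    (by omega)
  refine ⟨C + |S.height (L - n) 0|, fun u hu => ?_⟩
  have h := hC 0 u le_rfl S.isRat_zero (by simp) hu
  rw [add_zero] at h
  obtain ⟨h1, h2⟩ := abs_le.mp h
  have := le_abs_self (S.height (L - n) 0)
  have := neg_abs_le (S.height (L - n) 0)
  exact abs_le.mpr ⟨by linarith, by linarith⟩

/-- The pairing of a fixed multiple of `∞` plus a principal divisor. -/
theorem exists_pairing_zeros {L n d : ℕ} (hn : n + d + 1 + S.bound ≤ L) :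
    ∃ K : ℝ, ∀ (D : Divisor ℚ̄ F) (u : S.Coord n → ℚ), S.IsPointed d D → castVec u ≠ 0 →
      |S.heightPairing L (S.zeros n (castVec u)) D - S.heightPairing L (S.pole n) D
        + (d : ℝ) * logHeight u| ≤ K := by
  obtain ⟨u₀, hu₀, hZ₀⟩ := S.exists_const_vec n
  obtain ⟨C, hC⟩ := S.exists_height_shift (n := n) (L0 := L - n) (L := L) (d := d) (by omega)
    (by omega)
  obtain ⟨C', hC'⟩ := S.exists_height_zeros (L := L) (n := n) (by omega)
  refine ⟨2 * C + 2 * C' + |(d : ℝ) * logHeight u₀|, fun D u hD hu => ?_⟩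
  have h1 := abs_le.mp (hC D u hD.nonneg hD.rat hD.degree_eq hu)
  have h2 := hC D u₀ hD.nonneg hD.rat hD.degree_eq hu₀
  have h3 := abs_le.mp (hC' u hu)
  have h4 := hC' u₀ hu₀
  rw [hZ₀, abs_le] at h2 h4
  have hb : S.genus < S.bound := by simp [Setting.genus, Setting.bound]
  have hM : (S.spaceDim (L - n) d : ℝ) = (S.spaceDim (L - n) 0 : ℝ) - (d : ℝ) := by
    rw [eq_sub_iff_add_eq]
    exact_mod_cast (show S.spaceDim (L - n) d + d = S.spaceDim (L - n) 0 by
      unfold Setting.spaceDim; omega)
  rw [hM] at h1 h2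
  have := le_abs_self ((d : ℝ) * logHeight u₀)
  have := neg_abs_le ((d : ℝ) * logHeight u₀)
  unfold heightPairing
  exact abs_le.mpr ⟨by linarith, by linarith⟩

variable {S}

theorem CubeHolds.exists_add_left {L bd : ℕ} (hcube : S.CubeHolds L bd) :
    ∃ K : ℝ, ∀ {a b e : ℕ} {A B E : Divisor ℚ̄ F}, a ≤ bd → b ≤ bd → e ≤ bd →
      S.IsPointed a A → S.IsPointed b B → S.IsPointed e E →
      |S.heightPairing L (A + B) E - S.heightPairing L A E - S.heightPairing L B E| ≤ K := by
  obtain ⟨K, hK⟩ := hcube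
  refine ⟨K, fun {a b e A B E} ha hb he hA hB hE => ?_⟩
  have h := hK A B E hA.nonneg hB.nonneg hE.nonneg hA.rat hB.rat hE.rat
    (by rw [hA.degree_eq]; exact_mod_cast ha) (by rw [hB.degree_eq]; exact_mod_cast hb)
    (by rw [hE.degree_eq]; exact_mod_cast he)
  refine le_of_eq_of_le (congrArg abs ?_) h
  unfold heightPairing
  ring

/-- Three divisors of degree `g` summing to `3 g ∞` up to a principal divisor. -/
theorem CubeHolds.exists_triple {L bd : ℕ} (hcube : S.CubeHolds L bd) (hbd : 2 * S.genus ≤ bd)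
    (hL : 4 * S.genus + 1 + S.bound ≤ L) :
    ∃ K : ℝ, ∀ E₁ E₂ E₃ D : Divisor ℚ̄ F, S.IsPointed S.genus E₁ → S.IsPointed S.genus E₂ →
      S.IsPointed S.genus E₃ → S.IsPointed S.genus D →
      (E₁ - S.pole S.genus) + (E₂ - S.pole S.genus) + (E₃ - S.pole S.genus) ∈ Divisor.principal →
      |S.descentForm L E₁ D + S.descentForm L E₂ D + S.descentForm L E₃ D| ≤ K := by
  obtain ⟨K, hK⟩ := hcube.exists_add_left
  obtain ⟨K', hK'⟩ := S.exists_pairing_zeros (L := L) (n := S.genus + S.genus + S.genus)
    (d := S.genus) (by omega)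
  set g := S.genus
  refine ⟨2 * (4 * K + K'), fun E₁ E₂ E₃ D h₁ h₂ h₃ hD hp => ?_⟩
  set P := S.pole g
  have hP : S.IsPointed g P := S.isPointed_pole g
  obtain ⟨u, hu, hZ⟩ := S.exists_rat_zeros ((h₁.add S h₂).add S h₃) (by
    convert hp using 1
    rw [S.pole_add, S.pole_add]
    abel)
  have key : ∀ D', S.IsPointed g D' →
      |S.heightPairing L E₁ D' + S.heightPairing L E₂ D' + S.heightPairing L E₃ D'
        - 3 * S.heightPairing L P D' + (g : ℝ) * logHeight u| ≤ 4 * K + K' := by
    intro D' hD'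
    have a1 := abs_le.mp (hK (by omega) (by omega) (by omega) (h₁.add S h₂) h₃ hD')
    have a2 := abs_le.mp (hK (by omega) (by omega) (by omega) h₁ h₂ hD')
    have b1 := abs_le.mp (hK (by omega) (by omega) (by omega) (hP.add S hP) hP hD')
    have b2 := abs_le.mp (hK (by omega) (by omega) (by omega) hP hP hD')
    have c := hK' D' u hD' hu
    rw [hZ, S.pole_add, S.pole_add, abs_le] at c
    exact abs_le.mpr ⟨by linarith, by linarith⟩
  have k1 := abs_le.mp (key D hD)
  have k2 := abs_le.mp (key P hP)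
  unfold descentForm
  exact abs_le.mpr ⟨by linarith, by linarith⟩

/-- Two divisors of degree `g` with sum cut out by `w`: the pairing is given by the heights. -/
theorem CubeHolds.exists_pair {L bd : ℕ} (hcube : S.CubeHolds L bd) (hbd : 2 * S.genus ≤ bd)
    (hL : 4 * S.genus + 1 + S.bound ≤ L) :
    ∃ K : ℝ, ∀ (E E' : Divisor ℚ̄ F) (w : S.Coord (2 * S.genus) → ℚ), S.IsPointed S.genus E →
      S.IsPointed S.genus E' → castVec w ≠ 0 → S.zeros (2 * S.genus) (castVec w) = E + E' →
      |S.descentForm L E E' + (S.height L E + S.height L E'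
        - (S.spaceDim L S.genus : ℝ) * logHeight w)| ≤ K := by
  obtain ⟨K, hK⟩ := hcube.exists_add_left
  obtain ⟨K₁, hK₁⟩ := S.exists_height_zeros (L := L) (n := 2 * S.genus) (by omega)
  obtain ⟨K₂, hK₂⟩ := S.exists_pairing_zeros (L := L) (n := 2 * S.genus) (d := S.genus) (by omega)
  have hb : S.genus < S.bound := by simp [Setting.genus, Setting.bound]
  set g := S.genus with hg
  set P := S.pole g
  set c := S.height L 0 + S.heightPairing L P P - S.heightPairing L (S.pole (2 * g)) P
  refine ⟨K + K₁ + K₂ + |c|, fun E E' w hE hE' hw hZ => ?_⟩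
  have hP : S.IsPointed g P := S.isPointed_pole g
  have h1 := hK₁ w hw
  have h2 := hK₂ P w hP hw
  have h3 := abs_le.mp (hK (by omega) (by omega) (by omega) hE hE' hP)
  rw [hZ, abs_le] at h1 h2
  have hM : (S.spaceDim L g : ℝ) = (S.spaceDim (L - 2 * g) 0 : ℝ) + (g : ℝ) := by
    exact_mod_cast (show S.spaceDim L g = S.spaceDim (L - 2 * g) 0 + g by
      unfold Setting.spaceDim; omega)
  rw [hM]
  have := le_abs_self c
  have := neg_abs_le c
  have hcomm := S.heightPairing_comm L P E'
  have hEE' : S.heightPairing L E E'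
      = S.height L (E + E') - S.height L E - S.height L E' + S.height L 0 := rfl
  unfold descentForm
  exact abs_le.mpr ⟨by linarith, by linarith⟩

end Setting

end Fermat.Agent.MordellWeil
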