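import Fermat.Agent.MordellWeil.Plucker
import Mathlib.LinearAlgebra.Projection
import Mathlib.LinearAlgebra.Basis.VectorSpace
import Mathlib.LinearAlgebra.Matrix.SchurComplement

/-!
Codimension-`e` pairs of subspaces and the expansion of the minors of a stacked basis.
-/

set_option autoImplicit false
set_option linter.unusedSectionVars false

noncomputable section

open Matrix

namespace Fermat.Agent.MordellWeil

variable {K : Type} [Field K] {ι : Type} [Fintype ι]

/-- `π` induces `P / P' ≅ K ^ e`. -/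
structure IsQuot {e : ℕ} (P' P : Submodule K (ι → K)) (π : (ι → K) →ₗ[K] (Fin e → K)) : Prop where
  le : P' ≤ P
  eq_zero_iff : ∀ x ∈ P, π x = 0 ↔ x ∈ P'
  surj : ∀ y, ∃ x ∈ P, π x = y

theorem exists_isQuot {e : ℕ} {P' P : Submodule K (ι → K)} (hle : P' ≤ P)
    (hdim : Module.finrank K P = Module.finrank K P' + e) :
    ∃ π : (ι → K) →ₗ[K] (Fin e → K), IsQuot P' P π := by
  let Q := (P'.comap P.subtype)
  have hQ : Module.finrank K (P ⧸ Q) = e := by
    have h1 := Q.finrank_quotient_add_finrank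
    have h2 : Module.finrank K Q = Module.finrank K P' :=
      (Submodule.comapSubtypeEquivOfLe hle).finrank_eq
    omega
  let ψ : (P ⧸ Q) ≃ₗ[K] (Fin e → K) :=
    LinearEquiv.ofFinrankEq _ _ (by rw [hQ, Module.finrank_fin_fun])
  obtain ⟨π, hπ⟩ := LinearMap.exists_extend (ψ.toLinearMap ∘ₗ Q.mkQ)
  refine ⟨π, hle, fun x hx => ?_, fun y => ?_⟩
  · have h1 : π x = ψ (Q.mkQ ⟨x, hx⟩) := LinearMap.congr_fun hπ ⟨x, hx⟩
    rw [h1, LinearEquiv.map_eq_zero_iff, Submodule.mkQ_apply, Submodule.Quotient.mk_eq_zero]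
    exact Iff.rfl
  · obtain ⟨x, hx⟩ := Q.mkQ_surjective (ψ.symm y)
    refine ⟨x, x.2, ?_⟩
    have h1 : π x = ψ (Q.mkQ x) := LinearMap.congr_fun hπ x
    rw [h1, hx, LinearEquiv.apply_symm_apply]

/-- A linear section. -/
theorem IsQuot.exists_section {e : ℕ} {P' P : Submodule K (ι → K)}
    {π : (ι → K) →ₗ[K] (Fin e → K)} (h : IsQuot P' P π) :
    ∃ σ : (Fin e → K) →ₗ[K] (ι → K), ∀ y, σ y ∈ P ∧ π (σ y) = y := by
  have hs : LinearMap.range (π ∘ₗ P.subtype) = ⊤ := LinearMap.range_eq_top.mpr fun y => by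
    obtain ⟨x, hx, hxy⟩ := h.surj y
    exact ⟨⟨x, hx⟩, hxy⟩
  obtain ⟨σ, hσ⟩ := (π ∘ₗ P.subtype).exists_rightInverse_of_surjective hs
  exact ⟨P.subtype ∘ₗ σ, fun y => ⟨(σ y).2, LinearMap.congr_fun hσ y⟩⟩

theorem minors_reindex {m m' : Type} [Fintype m] [DecidableEq m] [Fintype m'] [DecidableEq m']
    (ε : m ≃ m') (B : m' → ι → K) (J : m → ι) :
    minors (fun r => B (ε r)) J = minors B (J ∘ ε.symm) := by
  rw [minors, minors, ← det_submatrix_equiv_self ε (Matrix.of fun r s => B r ((J ∘ ε.symm) s))]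
  congr 1
  ext r s
  simp

/-- Minors of a basis of `P'` stacked with vectors of `P`. -/
theorem minors_slot_sum_eq {M' e M : ℕ} (hM' : 0 < M') {p' : (Fin M' → ι) → K} (hp' : IsPlucker p')
    {q : (Fin M → ι) → K} (hq : IsPlucker q) {π : (ι → K) →ₗ[K] (Fin e → K)}
    (hπ : IsQuot (plSpan p') (plSpan q) π) (ε : Fin M' ⊕ Fin e ≃ Fin M) :
    ∃ l : K, l ≠ 0 ∧ ∀ (J₀ : Fin M' → ι) (v : Fin e → ι → K), (∀ i, v i ∈ plSpan q) →
      ∀ J, minors (Sum.elim (slot p' J₀) v) J
        = l * p' J₀ ^ (M' - 1) * (Matrix.of fun i j => π (v i) j).det * q (J ∘ ε.symm) := by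
  classical
  obtain ⟨B', c', hB', hc', rfl⟩ := hp'.exists_eq
  obtain ⟨Bq, cq, hBq, hcq, rfl⟩ := hq.exists_eq
  obtain ⟨σ, hσ⟩ := hπ.exists_section
  have hP' : plSpan (c' • minors B') = Submodule.span K (Set.range B') := by
    rw [plSpan_smul _ hc', plSpan_minors hB']
  have hP : plSpan (cq • minors Bq) = Submodule.span K (Set.range Bq) := by
    rw [plSpan_smul _ hcq, plSpan_minors hBq]
  let r : Fin e → ι → K := fun j => σ (Pi.single j 1)
  let B : Fin M' ⊕ Fin e → ι → K := Sum.elim B' r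
  have hrπ : ∀ j, π (r j) = Pi.single j 1 := fun j => (hσ _).2
  have hB'π : ∀ i, π (B' i) = 0 := fun i =>
    (hπ.eq_zero_iff _ (hπ.le (hP' ▸ Submodule.subset_span ⟨i, rfl⟩))).mpr
      (hP' ▸ Submodule.subset_span ⟨i, rfl⟩)
  have hBli : LinearIndependent K B := by
    rw [Fintype.linearIndependent_iff]
    intro g hg
    rw [Fintype.sum_sum_type] at hg
    have h1 := congrArg π hg
    simp only [map_add, map_sum, map_smul, B, Sum.elim_inl, Sum.elim_inr, hB'π, hrπ, smul_zero,
      Finset.sum_const_zero, zero_add, map_zero] at h1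
    have h2 : ∀ j, g (Sum.inr j) = 0 := fun j => by
      have := congrFun h1 j
      simpa [Finset.sum_apply, Pi.single_apply] using this
    simp only [B, Sum.elim_inl, Sum.elim_inr, h2, zero_smul, Finset.sum_const_zero, add_zero] at hg
    rintro (i | j)
    · exact Fintype.linearIndependent_iff.mp hB' (fun i => g (Sum.inl i)) hg i
    · exact h2 j
  obtain ⟨d, hd, hBd⟩ := minors_eq_smul_of_mem_span hBli (B := fun i => Bq (ε i)) (by
    have hr : Set.range (fun i => Bq (ε i)) = Set.range Bq := ε.surjective.range_comp Bq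
    rw [hr, ← hP]
    rintro (i | j)
    · exact hπ.le (hP' ▸ Submodule.subset_span ⟨i, rfl⟩)
    · exact (hσ _).1)
  refine ⟨c' * (d / cq), mul_ne_zero hc' (div_ne_zero hd hcq), fun J₀ v hv J => ?_⟩
  let adj : Matrix (Fin M') (Fin M') K := c' • adjugate (Matrix.of fun r s => B' r (J₀ s))
  have hslot : ∀ t, slot (c' • minors B') J₀ t = ∑ i, adj t i • B' i := fun t => by
    rw [slot_smul, slot_minors]
    simp [adj, Finset.smul_sum, smul_smul]
  let Q : Matrix (Fin e) (Fin e) K := Matrix.of fun i j => π (v i) j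
  have hrest : ∀ i, v i - ∑ j, Q i j • r j ∈ Submodule.span K (Set.range B') := fun i => by
    rw [← hP', ← hπ.eq_zero_iff _ (Submodule.sub_mem _ (hv i)
      (Submodule.sum_mem _ fun j _ => Submodule.smul_mem _ _ (hσ _).1))]
    simp only [map_sub, map_sum, map_smul]
    simp only [(hσ _).2]
    rw [sub_eq_zero]
    funext j
    simp [Q, Finset.sum_apply, Pi.single_apply]
  choose H hH using fun i => (Submodule.mem_span_range_iff_exists_fun K).mp (hrest i)
  have hrows : Sum.elim (slot (c' • minors B') J₀) v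
      = fun s => ∑ u, (fromBlocks adj 0 (Matrix.of H) Q) s u • B u := by
    funext s
    rw [Fintype.sum_sum_type]
    rcases s with t | i
    · simp [hslot, B]
    · simp [B, hH]
  rw [hrows, minors_mul, det_fromBlocks_zero₁₂, hBd]
  simp only [Pi.smul_apply, smul_eq_mul, minors_reindex]
  have hadj : adj.det = c' * (c' * minors B' J₀) ^ (M' - 1) := by
    have h1 : adj.det = c' ^ M' * (minors B' J₀) ^ (M' - 1) := by
      simp [adj, det_adjugate, minors]
    rw [h1, mul_pow, ← mul_assoc, ← pow_succ', Nat.sub_add_cancel hM']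
  rw [hadj, show Q.det = (Matrix.of fun i j => π (v i) j).det from rfl]
  field_simp

end Fermat.Agent.MordellWeil
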