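import Fermat.Agent.MordellWeil.Incidence
import Fermat.Agent.MordellWeil.Quot

/-!
The determinant of multiplication on `L(s ∞) / L(s ∞ - E) → L(T ∞ - A - B) / L(T ∞ - A - B - E)`
by a product `f g`: it factors, and this gives the exchange identity behind the theorem of the cube.
-/

set_option autoImplicit false
set_option linter.unusedSectionVars false

noncomputable section

open AlgebraicCurve Fermat.Agent.Curve Matrix

namespace Fermat.Agent.MordellWeil

local notation "ℚ̄" => AlgebraicClosure ℚ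

variable {F : Type} [Field F] [Algebra ℚ̄ F] [IsFunctionField1 ℚ̄ F]

namespace Setting

variable (S : Setting F)

/-- The determinant of multiplication by `f g`, on a chosen tuple of unit vectors. -/
def qdet {a b s T e : ℕ} (h : a + b + s ≤ T)
    (π : (S.Coord T → ℚ̄) →ₗ[ℚ̄] (Fin e → ℚ̄)) (f : S.Coord a → ℚ̄) (g : S.Coord b → ℚ̄)
    (ω : Fin e → S.Coord s) : ℚ̄ :=
  (Matrix.of fun i j => π (S.tri h f g (S.unitVec (ω i))) j).det

/-- Multiplication by a fixed vector, as a linear map. -/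
def mulL {n m c : ℕ} (h : n + m ≤ c) (x : S.Coord n → ℚ̄) :
    (S.Coord m → ℚ̄) →ₗ[ℚ̄] (S.Coord c → ℚ̄) where
  toFun y := S.mulVec h x y
  map_add' y y' := S.elem_injective c (by rw [elem_mulVec, map_add, map_add, elem_mulVec,
    elem_mulVec, mul_add])
  map_smul' t y := S.mulVec_smul_right h t x y

/-- Products respect the divisor conditions. -/
theorem mulVec_mem_space {n m c : ℕ} (h : n + m ≤ c) {D D' : Divisor ℚ̄ F} {x : S.Coord n → ℚ̄}
    {y : S.Coord m → ℚ̄} (hx : x ∈ S.space n D) (hy : y ∈ S.space m D') :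
    S.mulVec h x y ∈ S.space c (D + D') := by
  rw [mem_space_iff, elem_mulVec]
  rcases eq_or_ne x 0 with rfl | hx0
  · simp
  rcases eq_or_ne y 0 with rfl | hy0
  · simp
  refine (mem_sub_iff (mul_ne_zero (S.elem_ne_zero hx0) (S.elem_ne_zero hy0))).mpr fun v => ?_
  have h1 := (mem_sub_iff (S.elem_ne_zero hx0)).mp hx v
  have h2 := (mem_sub_iff (S.elem_ne_zero hy0)).mp hy v
  have h3 : S.pole n v + S.pole m v ≤ S.pole c v := by
    classical
    simp only [Setting.pole, Finsupp.single_apply]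
    split_ifs <;> omega
  rw [v.ord_mul (S.elem_ne_zero hx0) (S.elem_ne_zero hy0), Finsupp.add_apply]
  omega

theorem mem_space_zero {n : ℕ} (x : S.Coord n → ℚ̄) : x ∈ S.space n 0 := by
  rw [mem_space_iff, sub_zero]
  exact S.elem_mem n x

/-- Multiplication by `f g` is injective modulo `E` when `f`, `g` have exact orders along `E`. -/
theorem mem_space_of_tri_mem {a b s T : ℕ} (habs : a + b + s = T) {A B E : Divisor ℚ̄ F}
    {f : S.Coord a → ℚ̄} {g : S.Coord b → ℚ̄} (hf0 : f ≠ 0) (hg0 : g ≠ 0)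
    (hfe : ∀ v, E v ≠ 0 → v.ord (S.elem a f) + S.pole a v = A v)
    (hge : ∀ v, E v ≠ 0 → v.ord (S.elem b g) + S.pole b v = B v)
    {x : S.Coord s → ℚ̄} (hx : S.tri habs.le f g x ∈ S.space T (A + B + E)) : x ∈ S.space s E := by
  rcases eq_or_ne x 0 with rfl | hx0
  · exact Submodule.zero_mem _
  rw [mem_space_iff, elem_tri] at hx
  refine (mem_sub_iff (S.elem_ne_zero hx0)).mpr fun v => ?_
  have hne := mul_ne_zero (mul_ne_zero (S.elem_ne_zero hf0) (S.elem_ne_zero hg0)) (S.elem_ne_zero hx0)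
  have h1 := (mem_sub_iff hne).mp hx v
  rw [v.ord_mul (mul_ne_zero (S.elem_ne_zero hf0) (S.elem_ne_zero hg0)) (S.elem_ne_zero hx0),
    v.ord_mul (S.elem_ne_zero hf0) (S.elem_ne_zero hg0)] at h1
  simp only [Finsupp.add_apply] at h1
  by_cases hv : E v = 0
  · have := (mem_riemannRochSpace_iff.mp (S.elem_mem s x) v).resolve_left (S.elem_ne_zero hx0)
    omega
  · have h2 := hfe v hv
    have h3 := hge v hv
    have h4 : S.pole a v + S.pole b v + S.pole s v = S.pole T v := by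
      classical
      simp only [Setting.pole, Finsupp.single_apply]
      split_ifs <;> omega
    omega

/-- Some choice of unit vectors gives a nonzero determinant. -/
theorem exists_qdet_ne_zero {a b s T e : ℕ} (habs : a + b + s = T) {A B E : Divisor ℚ̄ F}
    (hdim : s + 1 = S.spaceDim s e + e + S.genus ∧ Module.finrank ℚ̄ (S.space s E) = S.spaceDim s e)
    {π : (S.Coord T → ℚ̄) →ₗ[ℚ̄] (Fin e → ℚ̄)}
    (hπ : IsQuot (S.space T (A + B + E)) (S.space T (A + B)) π)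
    {f : S.Coord a → ℚ̄} {g : S.Coord b → ℚ̄} (hf : f ∈ S.space a A) (hg : g ∈ S.space b B)
    (hf0 : f ≠ 0) (hg0 : g ≠ 0)
    (hfe : ∀ v, E v ≠ 0 → v.ord (S.elem a f) + S.pole a v = A v)
    (hge : ∀ v, E v ≠ 0 → v.ord (S.elem b g) + S.pole b v = B v)
    (hs : Module.finrank ℚ̄ (S.Coord s → ℚ̄) + S.genus = s + 1) :
    ∃ ω : Fin e → S.Coord s, S.qdet habs.le π f g ω ≠ 0 := by
  let L : (S.Coord s → ℚ̄) →ₗ[ℚ̄] (Fin e → ℚ̄) :=
    π ∘ₗ S.mulL (c := T) habs.le (S.mulVec (le_refl (a + b)) f g)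
  have hker : LinearMap.ker L ≤ S.space s E := fun x hx => by
    have hmem : S.tri habs.le f g x ∈ S.space T (A + B) := by
      have := S.mulVec_mem_space habs.le (S.mulVec_mem_space (le_refl (a + b)) hf hg)
        (S.mem_space_zero x)
      rwa [add_zero] at this
    exact S.mem_space_of_tri_mem habs hf0 hg0 hfe hge ((hπ.eq_zero_iff _ hmem).mp hx)
  have hsurj : LinearMap.range L = ⊤ := by
    refine Submodule.eq_top_of_finrank_eq (le_antisymm (Submodule.finrank_le _) ?_)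
    have h1 := L.finrank_range_add_finrank_ker
    have h2 := Submodule.finrank_mono hker
    rw [Module.finrank_fin_fun]
    omega
  let R : Fin e → S.Coord s → ℚ̄ := fun j i => L (S.unitVec i) j
  have hR : LinearIndependent ℚ̄ R := by
    rw [Fintype.linearIndependent_iff]
    intro c hc j
    let φ : (Fin e → ℚ̄) →ₗ[ℚ̄] ℚ̄ := ∑ k, c k • LinearMap.proj k
    have hφ : φ ∘ₗ L = 0 := by
      refine LinearMap.ext_on (S.span_unitVec s) ?_
      rintro _ ⟨i, rfl⟩
      have := congrFun hc i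
      simpa [φ, R] using this
    obtain ⟨x, hx⟩ := LinearMap.range_eq_top.mp hsurj (Pi.single j 1)
    have := LinearMap.congr_fun hφ x
    simp [φ, hx, Pi.single_apply] at this
    exact this
  obtain ⟨ω, hω⟩ := Function.ne_iff.mp (minors_ne_zero R hR)
  refine ⟨ω, ?_⟩
  have : S.qdet habs.le π f g ω = minors R ω := by
    rw [qdet, ← det_transpose]
    rfl
  rw [this]
  exact hω

/-- The determinant of an induced map. -/
def indDet {n m e : ℕ} (π : (S.Coord m → ℚ̄) →ₗ[ℚ̄] (Fin e → ℚ̄))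
    (L : (S.Coord n → ℚ̄) →ₗ[ℚ̄] (S.Coord m → ℚ̄))
    (σ : (Fin e → ℚ̄) →ₗ[ℚ̄] (S.Coord n → ℚ̄)) : ℚ̄ :=
  (LinearMap.toMatrix' (π ∘ₗ L ∘ₗ σ)).det

theorem qdet_eq {a b s T e : ℕ} (habs : a + b + s = T) {A B E : Divisor ℚ̄ F}
    {πs : (S.Coord s → ℚ̄) →ₗ[ℚ̄] (Fin e → ℚ̄)} (hπs : IsQuot (S.space s E) ⊤ πs)
    {σs : (Fin e → ℚ̄) →ₗ[ℚ̄] (S.Coord s → ℚ̄)} (hσs : ∀ y, πs (σs y) = y)
    {πA : (S.Coord (a + s) → ℚ̄) →ₗ[ℚ̄] (Fin e → ℚ̄)}
    (hπA : IsQuot (S.space (a + s) (A + E)) (S.space (a + s) A) πA)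
    {σA : (Fin e → ℚ̄) →ₗ[ℚ̄] (S.Coord (a + s) → ℚ̄)}
    (hσA : ∀ y, σA y ∈ S.space (a + s) A ∧ πA (σA y) = y)
    {π : (S.Coord T → ℚ̄) →ₗ[ℚ̄] (Fin e → ℚ̄)}
    (hπ : IsQuot (S.space T (A + B + E)) (S.space T (A + B)) π)
    {f : S.Coord a → ℚ̄} {g : S.Coord b → ℚ̄} (hf : f ∈ S.space a A) (hg : g ∈ S.space b B)
    (ω : Fin e → S.Coord s) :
    S.qdet habs.le π f g ω
      = S.indDet π (S.mulL (c := T) (show b + (a + s) ≤ T by omega) g) σA
        * S.indDet πA (S.mulL (le_refl (a + s)) f) σs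
        * (Matrix.of fun i j => πs (S.unitVec (ω i)) j).det := by
  set G := LinearMap.toMatrix' (π ∘ₗ S.mulL (c := T) (show b + (a + s) ≤ T by omega) g ∘ₗ σA)
  set M := LinearMap.toMatrix' (πA ∘ₗ S.mulL (le_refl (a + s)) f ∘ₗ σs)
  have key : ∀ x, π (S.tri habs.le f g x) = (G * M).mulVec (πs x) := by
    intro x
    set z := S.mulVec (le_refl (a + s)) f x with hz
    have hzmem : z ∈ S.space (a + s) A := by
      have := S.mulVec_mem_space (le_refl (a + s)) hf (S.mem_space_zero x)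
      rwa [add_zero] at this
    have h1 : M.mulVec (πs x) = πA z := by
      rw [LinearMap.toMatrix'_mulVec]
      show πA (S.mulL (le_refl (a + s)) f (σs (πs x))) = πA z
      have hd : x - σs (πs x) ∈ S.space s E := (hπs.eq_zero_iff _ Submodule.mem_top).mp
        (by rw [map_sub, hσs, sub_self])
      have h2 := S.mulVec_mem_space (le_refl (a + s)) hf hd
      have h3 : S.mulL (le_refl (a + s)) f (x - σs (πs x)) ∈ S.space (a + s) (A + E) := h2
      rw [map_sub] at h3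
      have h4 := (hπA.eq_zero_iff _ (hπA.le h3)).mpr h3
      rw [map_sub, sub_eq_zero] at h4
      exact h4.symm
    rw [← Matrix.mulVec_mulVec, h1, LinearMap.toMatrix'_mulVec]
    show π (S.tri habs.le f g x) = π (S.mulL _ g (σA (πA z)))
    have hd : z - σA (πA z) ∈ S.space (a + s) (A + E) :=
      (hπA.eq_zero_iff _ (Submodule.sub_mem _ hzmem (hσA _).1)).mp
        (by rw [map_sub, (hσA _).2, sub_self])
    have h2 := S.mulVec_mem_space (c := T) (show b + (a + s) ≤ T by omega) hg hd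
    rw [show B + (A + E) = A + B + E by abel] at h2
    have h3 : S.mulL (c := T) (show b + (a + s) ≤ T by omega) g (z - σA (πA z))
        ∈ S.space T (A + B + E) := h2
    rw [map_sub] at h3
    have h4 := (hπ.eq_zero_iff _ (hπ.le h3)).mpr h3
    rw [map_sub, sub_eq_zero] at h4
    have h5 : S.tri habs.le f g x = S.mulL (c := T) (show b + (a + s) ≤ T by omega) g z :=
      S.elem_injective T (by
        show _ = S.elem T (S.mulVec _ g z)
        rw [elem_tri, elem_mulVec, hz, elem_mulVec]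
        ring)
    rw [h5, h4]
  have hmat : (Matrix.of fun i j => π (S.tri habs.le f g (S.unitVec (ω i))) j)
      = ((G * M) * (Matrix.of fun i j => πs (S.unitVec (ω i)) j).transpose).transpose := by
    ext i j
    rw [transpose_apply, of_apply, key]
    simp [Matrix.mul_apply, Matrix.mulVec, dotProduct]
  rw [qdet, hmat, det_transpose, det_mul, det_mul, det_transpose]
  rfl

/-- The factorisation `qdet = l · α(f) · β(g) · ν(ω)`. -/
theorem exists_qdet_factor {a b s T e : ℕ} (habs : a + b + s = T) {A B E : Divisor ℚ̄ F}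
    (hdim : s + 1 = S.spaceDim s e + e + S.genus ∧ Module.finrank ℚ̄ (S.space s E) = S.spaceDim s e)
    (hs : Module.finrank ℚ̄ (S.Coord s → ℚ̄) + S.genus = s + 1)
    {πs : (S.Coord s → ℚ̄) →ₗ[ℚ̄] (Fin e → ℚ̄)} (hπs : IsQuot (S.space s E) ⊤ πs)
    {σs : (Fin e → ℚ̄) →ₗ[ℚ̄] (S.Coord s → ℚ̄)} (hσs : ∀ y, πs (σs y) = y)
    {πA : (S.Coord (a + s) → ℚ̄) →ₗ[ℚ̄] (Fin e → ℚ̄)}
    (hπA : IsQuot (S.space (a + s) (A + E)) (S.space (a + s) A) πA)
    {σA : (Fin e → ℚ̄) →ₗ[ℚ̄] (S.Coord (a + s) → ℚ̄)}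
    (hσA : ∀ y, σA y ∈ S.space (a + s) A ∧ πA (σA y) = y)
    {πB : (S.Coord (b + s) → ℚ̄) →ₗ[ℚ̄] (Fin e → ℚ̄)}
    (hπB : IsQuot (S.space (b + s) (B + E)) (S.space (b + s) B) πB)
    {σB : (Fin e → ℚ̄) →ₗ[ℚ̄] (S.Coord (b + s) → ℚ̄)}
    (hσB : ∀ y, σB y ∈ S.space (b + s) B ∧ πB (σB y) = y)
    {π : (S.Coord T → ℚ̄) →ₗ[ℚ̄] (Fin e → ℚ̄)}
    (hπ : IsQuot (S.space T (A + B + E)) (S.space T (A + B)) π)
    {f₀ : S.Coord a → ℚ̄} {g₀ : S.Coord b → ℚ̄} (hf : f₀ ∈ S.space a A) (hg : g₀ ∈ S.space b B)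
    (hf0 : f₀ ≠ 0) (hg0 : g₀ ≠ 0)
    (hfe : ∀ v, E v ≠ 0 → v.ord (S.elem a f₀) + S.pole a v = A v)
    (hge : ∀ v, E v ≠ 0 → v.ord (S.elem b g₀) + S.pole b v = B v) :
    ∃ l : ℚ̄, l ≠ 0 ∧ ∀ f ∈ S.space a A, ∀ g ∈ S.space b B, ∀ ω : Fin e → S.Coord s,
      S.qdet habs.le π f g ω = l * S.indDet πA (S.mulL (le_refl (a + s)) f) σs
        * S.indDet πB (S.mulL (le_refl (b + s)) g) σs
        * (Matrix.of fun i j => πs (S.unitVec (ω i)) j).det := by
  have hswap : b + a + s = T := by omega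
  have hπ' : IsQuot (S.space T (B + A + E)) (S.space T (B + A)) π := by
    rwa [add_comm B A]
  let α : (S.Coord a → ℚ̄) → ℚ̄ := fun f => S.indDet πA (S.mulL (le_refl (a + s)) f) σs
  let β : (S.Coord b → ℚ̄) → ℚ̄ := fun g => S.indDet πB (S.mulL (le_refl (b + s)) g) σs
  let G : (S.Coord b → ℚ̄) → ℚ̄ := fun g =>
    S.indDet π (S.mulL (c := T) (show b + (a + s) ≤ T by omega) g) σA
  let H : (S.Coord a → ℚ̄) → ℚ̄ := fun f =>
    S.indDet π (S.mulL (c := T) (show a + (b + s) ≤ T by omega) f) σB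
  have htri : ∀ f g x, S.tri habs.le f g x = S.tri hswap.le g f x := fun f g x =>
    S.elem_injective T (by rw [elem_tri, elem_tri]; ring)
  have e1 : ∀ f ∈ S.space a A, ∀ g ∈ S.space b B, ∀ ω : Fin e → S.Coord s,
      S.qdet habs.le π f g ω
        = G g * α f * (Matrix.of fun i j => πs (S.unitVec (ω i)) j).det :=
    fun f hf g hg ω => S.qdet_eq habs hπs hσs hπA hσA hπ hf hg ω
  have e2 : ∀ f ∈ S.space a A, ∀ g ∈ S.space b B, ∀ ω : Fin e → S.Coord s,
      S.qdet habs.le π f g ω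
        = H f * β g * (Matrix.of fun i j => πs (S.unitVec (ω i)) j).det := by
    intro f hf g hg ω
    have := S.qdet_eq hswap hπs hσs hπB hσB hπ' hg hf ω
    rw [← this, qdet, qdet]
    simp only [htri]
  obtain ⟨ω₀, hω₀⟩ := S.exists_qdet_ne_zero habs hdim hπ hf hg hf0 hg0 hfe hge hs
  have hν : (Matrix.of fun i j => πs (S.unitVec (ω₀ i)) j).det ≠ 0 := fun h => hω₀ (by
    rw [e1 _ hf _ hg, h, mul_zero])
  have hα : α f₀ ≠ 0 := fun h => hω₀ (by rw [e1 _ hf _ hg, h]; ring)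
  have hH : H f₀ ≠ 0 := fun h => hω₀ (by rw [e2 _ hf _ hg, h]; ring)
  refine ⟨H f₀ / α f₀, div_ne_zero hH hα, fun f hf' g hg' ω => ?_⟩
  have h12 : G g * α f₀ = H f₀ * β g := by
    have := (e1 _ hf _ hg' ω₀).symm.trans (e2 _ hf _ hg' ω₀)
    exact mul_right_cancel₀ hν this
  rw [e1 _ hf' _ hg']
  show G g * α f * _ = H f₀ / α f₀ * α f * β g * _
  have : G g = H f₀ * β g / α f₀ := by rw [eq_div_iff hα, h12]
  rw [this]
  field_simp

end Setting

end Fermat.Agent.MordellWeil
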