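import Fermat.Agent.MordellWeil.Witness
import Fermat.Agent.MordellWeil.MultDet

/-!
The incidence variety of `(L(a∞ - A), L(b∞ - B), L(T∞ - A - B - E))` and the height of the vector
of stacked minors on it.
-/

set_option autoImplicit false
set_option linter.unusedSectionVars false

noncomputable section

open AlgebraicCurve Fermat.Agent.Curve Height

namespace Fermat.Agent.MordellWeil

local notation "ℚ̄" => AlgebraicClosure ℚ

/-- The vector variables of the incidence variety. -/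
inductive Vx
  | pW | pU | pR | pX | pY | zw | zv
  deriving DecidableEq

instance Vx.instFintype : Fintype Vx :=
  ⟨{.pW, .pU, .pR, .pX, .pY, .zw, .zv}, fun x => by cases x <;> simp⟩

theorem Vx.univ_eq : (Finset.univ : Finset Vx) = {.pW, .pU, .pR, .pX, .pY, .zw, .zv} := rfl

/-- The numerical parameters. -/
structure Levels {F : Type} [Field F] [Algebra ℚ̄ F] [IsFunctionField1 ℚ̄ F] (S : Setting F) where
  /-- level of the first factor -/
  a : ℕ
  /-- level of the second factor -/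
  b : ℕ
  /-- level of the multiplier -/
  s : ℕ
  /-- top level -/
  T : ℕ
  /-- degree of the first divisor -/
  dA : ℕ
  /-- degree of the second divisor -/
  dB : ℕ
  /-- degree of the third divisor -/
  e : ℕ
  sum_eq : a + b + s = T
  ha : dA + 1 + S.bound ≤ a
  hb : dB + 1 + S.bound ≤ b
  hs : e + S.bound ≤ s
  hT : 2 * S.bound + 1 ≤ T

namespace Levels

variable {F : Type} [Field F] [Algebra ℚ̄ F] [IsFunctionField1 ℚ̄ F] {S : Setting F} (P : Levels S)

/-- dimension for the first factor -/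
abbrev MW : ℕ := S.spaceDim P.a P.dA
/-- dimension for the second factor -/
abbrev MU : ℕ := S.spaceDim P.b P.dB
/-- dimension for the small target -/
abbrev MR : ℕ := S.spaceDim P.T (P.dA + P.dB + P.e)
/-- dimension for the cofactors -/
abbrev MX : ℕ := S.spaceDim P.T S.bound
/-- level of the first cofactor relation -/
abbrev nw : ℕ := P.dA + P.dB + S.bound
/-- level of the second cofactor relation -/
abbrev nv : ℕ := P.dA + P.dB + P.e + S.bound
/-- complementary level, three factors -/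
abbrev m1 : ℕ := P.a + P.b + P.T - P.nw
/-- complementary level, two factors -/
abbrev m2 : ℕ := P.T + P.T - P.nw
/-- complementary level, two factors -/
abbrev m3 : ℕ := P.T + P.T - P.nv

theorem le_m1 : P.nw + P.m1 ≤ P.a + P.b + P.T := by
  have := P.sum_eq; have := P.ha; have := P.hb; have := P.hT
  simp only [m1, nw]; omega

theorem le_m2 : P.nw + P.m2 ≤ P.T + P.T := by
  have := P.sum_eq; have := P.ha; have := P.hb; have := P.hT
  simp only [m2, nw]; omega

theorem le_m3 : P.nv + P.m3 ≤ P.T + P.T := by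
  have := P.sum_eq; have := P.ha; have := P.hb; have := P.hs; have := P.hT
  simp only [m3, nv]; omega

/-- Index types of the vector variables. -/
@[reducible]
def Ix : Vx → Type
  | .pW => Fin P.MW → S.Coord P.a
  | .pU => Fin P.MU → S.Coord P.b
  | .pR => Fin P.MR → S.Coord P.T
  | .pX => Fin P.MX → S.Coord P.T
  | .pY => Fin P.MX → S.Coord P.T
  | .zw => S.Coord P.nw
  | .zv => S.Coord P.nv

instance instFintypeIx : ∀ v, Fintype (P.Ix v)
  | .pW => inferInstanceAs (Fintype (Fin P.MW → S.Coord P.a))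
  | .pU => inferInstanceAs (Fintype (Fin P.MU → S.Coord P.b))
  | .pR => inferInstanceAs (Fintype (Fin P.MR → S.Coord P.T))
  | .pX => inferInstanceAs (Fintype (Fin P.MX → S.Coord P.T))
  | .pY => inferInstanceAs (Fintype (Fin P.MX → S.Coord P.T))
  | .zw => inferInstanceAs (Fintype (S.Coord P.nw))
  | .zv => inferInstanceAs (Fintype (S.Coord P.nv))

/-- Size of the range of the family parameter, first factor. -/
abbrev NW : ℕ := (P.e + 1) * slotCount (S.Coord P.a) P.MW
/-- Size of the range of the family parameter, second factor. -/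
abbrev NU : ℕ := (P.e + 1) * slotCount (S.Coord P.b) P.MU

/-- Index type of the core vector. -/
abbrev CoreIx : Type :=
  Fin (P.NW + 1) × Fin (P.NU + 1) × (Fin P.e → S.Coord P.s) × (Fin P.MR → S.Coord P.T) ×
    (Fin P.MR ⊕ Fin P.e → S.Coord P.T)

/-- The stacked minors. -/
def core {A : Type} [CommRing A] [Algebra ℚ A] (pW : (Fin P.MW → S.Coord P.a) → A)
    (pU : (Fin P.MU → S.Coord P.b) → A) (pR : (Fin P.MR → S.Coord P.T) → A) : P.CoreIx → A :=
  fun i => minors (Sum.elim (slot pR i.2.2.2.1) fun j => S.tri P.sum_eq.le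
    (fam pW ((i.1 : ℕ) : A)) (fam pU ((i.2.1 : ℕ) : A)) (S.unitVec (i.2.2.1 j))) i.2.2.2.2

theorem map_core {A B : Type} [CommRing A] [Algebra ℚ A] [CommRing B] [Algebra ℚ B]
    (φ : A →ₐ[ℚ] B) (pW : (Fin P.MW → S.Coord P.a) → A) (pU : (Fin P.MU → S.Coord P.b) → A)
    (pR : (Fin P.MR → S.Coord P.T) → A) (i : P.CoreIx) :
    φ (P.core pW pU pR i) = P.core (φ ∘ pW) (φ ∘ pU) (φ ∘ pR) i := by
  refine (minors_map (φ : A →+* B) _ _).trans ?_
  unfold core
  congr 1
  funext r k
  rcases r with t | j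
  · rfl
  · simp only [Sum.elim_inr]
    show φ _ = _
    rw [S.map_tri φ]
    congr 1
    · funext x
      refine (map_fam (φ : A →+* B) pW _ x).trans ?_
      simp [Function.comp_def]
    · funext x
      refine (map_fam (φ : A →+* B) pU _ x).trans ?_
      simp [Function.comp_def]
    · funext x
      exact S.map_unitVec (φ : A →+* B) _ x

/-- The multidegree of `core`. -/
def coreDeg : Vx → ℕ
  | .pW => P.e
  | .pU => P.e
  | .pR => P.MR
  | _ => 0

theorem core_smul {A : Type} [CommRing A] [Algebra ℚ A] (tW tU tR : A)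
    (pW : (Fin P.MW → S.Coord P.a) → A) (pU : (Fin P.MU → S.Coord P.b) → A)
    (pR : (Fin P.MR → S.Coord P.T) → A) (i : P.CoreIx) :
    P.core (tW • pW) (tU • pU) (tR • pR) i
      = tR ^ P.MR * (tW * tU) ^ P.e * P.core pW pU pR i := by
  unfold core
  have hrows : (Sum.elim (slot (tR • pR) i.2.2.2.1) fun j => S.tri P.sum_eq.le
      (fam (tW • pW) ((i.1 : ℕ) : A)) (fam (tU • pU) ((i.2.1 : ℕ) : A)) (S.unitVec (i.2.2.1 j)))
      = fun r => (Sum.elim (fun _ => tR) (fun _ => tW * tU) r : A) •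
        Sum.elim (slot pR i.2.2.2.1) (fun j => S.tri P.sum_eq.le
          (fam pW ((i.1 : ℕ) : A)) (fam pU ((i.2.1 : ℕ) : A)) (S.unitVec (i.2.2.1 j))) r := by
    funext r
    rcases r with t | j
    · rfl
    · simp only [Sum.elim_inr, fam_smul, S.tri_smul]
  rw [hrows, minors_smul_rows, Fintype.prod_sum_type]
  simp

/-- `core` as a polynomial map. -/
def coreMap : PolyMap P.Ix P.CoreIx where
  eval x := P.core (x .pW) (x .pU) (x .pR)
  map φ x j := P.map_core φ _ _ _ j

theorem coreMap_isHom : P.coreMap.IsHom P.coreDeg := by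
  intro A _ _ t x j
  show P.core (t .pW • x .pW) (t .pU • x .pU) (t .pR • x .pR) j = _
  rw [P.core_smul, Vx.univ_eq]
  simp only [Finset.prod_insert, Finset.mem_insert, Finset.mem_singleton, reduceCtorEq, or_self,
    not_false_eq_true, Finset.prod_singleton, coreDeg, pow_zero, mul_one]
  show _ = _ * P.core (x .pW) (x .pU) (x .pR) j
  ring

/-- Index type of the equations. -/
abbrev EqIx : Type :=
  ((Fin P.MW → S.Coord P.a) × (Fin P.MW → S.Coord P.a)) ⊕
  ((Fin P.MU → S.Coord P.b) × (Fin P.MU → S.Coord P.b)) ⊕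
  ((Fin P.MR → S.Coord P.T) × (Fin P.MR → S.Coord P.T)) ⊕
  ((Fin P.MX → S.Coord P.T) × (Fin P.MX → S.Coord P.T)) ⊕
  ((Fin P.MX → S.Coord P.T) × (Fin P.MX → S.Coord P.T)) ⊕
  (((Fin P.MW → S.Coord P.a) × Fin P.MW) × ((Fin P.MU → S.Coord P.b) × Fin P.MU) ×
      ((Fin P.MX → S.Coord P.T) × Fin P.MX) ×
      (Option (S.Coord P.m1) → S.Coord (P.a + P.b + P.T))) ⊕
  (((Fin P.MR → S.Coord P.T) × Fin P.MR) × ((Fin P.MX → S.Coord P.T) × Fin P.MX) ×
      (Option (S.Coord P.m2) → S.Coord (P.T + P.T))) ⊕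
  (((Fin P.MR → S.Coord P.T) × Fin P.MR) × ((Fin P.MX → S.Coord P.T) × Fin P.MX) ×
      (Option (S.Coord P.m3) → S.Coord (P.T + P.T)))

/-- The equations. -/
def eqs {A : Type} [CommRing A] [Algebra ℚ A] (x : ∀ v, P.Ix v → A) : P.EqIx → A :=
  Sum.elim (decomp (x .pW : (Fin P.MW → S.Coord P.a) → A)) <|
  Sum.elim (decomp (x .pU : (Fin P.MU → S.Coord P.b) → A)) <|
  Sum.elim (decomp (x .pR : (Fin P.MR → S.Coord P.T) → A)) <|
  Sum.elim (decomp (x .pX : (Fin P.MX → S.Coord P.T) → A)) <|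
  Sum.elim (decomp (x .pY : (Fin P.MX → S.Coord P.T) → A)) <|
  Sum.elim (fun k => S.prodEq P.le_m1 (S.tri le_rfl (slot (x .pW) k.1.1 k.1.2)
    (slot (x .pU) k.2.1.1 k.2.1.2) (slot (x .pX) k.2.2.1.1 k.2.2.1.2)) (x .zw) k.2.2.2) <|
  Sum.elim (fun k => S.prodEq P.le_m2 (S.mulVec le_rfl (slot (x .pR) k.1.1 k.1.2)
    (slot (x .pX) k.2.1.1 k.2.1.2)) (x .zw) k.2.2)
  (fun k => S.prodEq P.le_m3 (S.mulVec le_rfl (slot (x .pR) k.1.1 k.1.2)
    (slot (x .pY) k.2.1.1 k.2.1.2)) (x .zv) k.2.2)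

theorem map_eqs {A B : Type} [CommRing A] [Algebra ℚ A] [CommRing B] [Algebra ℚ B]
    (φ : A →ₐ[ℚ] B) (x : ∀ v, P.Ix v → A) (j : P.EqIx) :
    φ (P.eqs x j) = P.eqs (fun v i => φ (x v i)) j := by
  rcases j with j | j | j | j | j | k | k | k <;> simp only [eqs, Sum.elim_inl, Sum.elim_inr]
  · exact decomp_map (φ : A →+* B) _ j
  · exact decomp_map (φ : A →+* B) _ j
  · exact decomp_map (φ : A →+* B) _ j
  · exact decomp_map (φ : A →+* B) _ j
  · exact decomp_map (φ : A →+* B) _ j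
  · rw [S.map_prodEq φ]
    congr 1
    funext c
    exact S.map_tri φ _ _ _ _ c
  · rw [S.map_prodEq φ]
    congr 1
    funext c
    exact S.map_mulVec φ _ _ _ c
  · rw [S.map_prodEq φ]
    congr 1
    funext c
    exact S.map_mulVec φ _ _ _ c

/-- The equations as a polynomial map. -/
def eqMap : PolyMap P.Ix P.EqIx where
  eval x := P.eqs x
  map φ x j := P.map_eqs φ x j

theorem eqs_scale (x : ∀ v, P.Ix v → ℚ) (hx : P.eqs x = 0) (t : Vx → ℚ) :
    P.eqs (fun v i => t v * x v i) = 0 := by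
  have hd : ∀ {m ι : Type} [Fintype m] [DecidableEq m] (c : ℚ) (p : (m → ι) → ℚ)
      (j : (m → ι) × (m → ι)), decomp p j = 0 → decomp (fun J => c * p J) j = 0 := by
    intro m ι _ _ c p j h
    rw [show (fun J => c * p J) = c • p from rfl, decomp_smul]
    simp [h]
  funext j
  rcases j with j | j | j | j | j | k | k | k <;> simp only [eqs, Sum.elim_inl, Sum.elim_inr,
    Pi.zero_apply]
  · exact hd _ _ _ (congrFun hx (.inl j))
  · exact hd _ _ _ (congrFun hx (.inr (.inl j)))
  · exact hd _ _ _ (congrFun hx (.inr (.inr (.inl j))))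
  · exact hd _ _ _ (congrFun hx (.inr (.inr (.inr (.inl j)))))
  · exact hd _ _ _ (congrFun hx (.inr (.inr (.inr (.inr (.inl j))))))
  · have h := congrFun hx (.inr (.inr (.inr (.inr (.inr (.inl k))))))
    simp only [eqs, Sum.elim_inl, Sum.elim_inr, Pi.zero_apply] at h
    show S.prodEq P.le_m1 (S.tri le_rfl (t .pW • slot (x .pW) k.1.1 k.1.2)
      (t .pU • slot (x .pU) k.2.1.1 k.2.1.2) (t .pX • slot (x .pX) k.2.2.1.1 k.2.2.1.2))
      (t .zw • x .zw) k.2.2.2 = 0
    rw [S.tri_smul, S.tri_smul_last, smul_smul, S.prodEq_smul, Pi.smul_apply, h, smul_zero]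
  · have h := congrFun hx (.inr (.inr (.inr (.inr (.inr (.inr (.inl k)))))))
    simp only [eqs, Sum.elim_inl, Sum.elim_inr, Pi.zero_apply] at h
    show S.prodEq P.le_m2 (S.mulVec le_rfl (t .pR • slot (x .pR) k.1.1 k.1.2)
      (t .pX • slot (x .pX) k.2.1.1 k.2.1.2)) (t .zw • x .zw) k.2.2 = 0
    rw [S.mulVec_smul_left, S.mulVec_smul_right, smul_smul, S.prodEq_smul, Pi.smul_apply, h,
      smul_zero]
  · have h := congrFun hx (.inr (.inr (.inr (.inr (.inr (.inr (.inr k)))))))
    simp only [eqs, Sum.elim_inl, Sum.elim_inr, Pi.zero_apply] at h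
    show S.prodEq P.le_m3 (S.mulVec le_rfl (t .pR • slot (x .pR) k.1.1 k.1.2)
      (t .pY • slot (x .pY) k.2.1.1 k.2.1.2)) (t .zv • x .zv) k.2.2 = 0
    rw [S.mulVec_smul_left, S.mulVec_smul_right, smul_smul, S.prodEq_smul, Pi.smul_apply, h,
      smul_zero]

end Levels

end Fermat.Agent.MordellWeil
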