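import Fermat.Agent.MordellWeil.Cert

/-!
On the incidence variety the core vector never vanishes, hence its height is exactly
`e h(pW) + e h(pU) + M h(pR)` up to a constant.
-/

set_option autoImplicit false
set_option linter.unusedSectionVars false

noncomputable section

open AlgebraicCurve Fermat.Agent.Curve Height

namespace Fermat.Agent.MordellWeil

local notation "ℚ̄" => AlgebraicClosure ℚ

theorem mul_le_span_of_forall {F : Type} [Field F] [Algebra ℚ̄ F] {κ κ' : Type} {u : κ → F}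
    {v : κ' → F} {Q : Submodule ℚ̄ F} (h : ∀ i j, u i * v j ∈ Q) :
    Submodule.span ℚ̄ (Set.range u) * Submodule.span ℚ̄ (Set.range v) ≤ Q := by
  rw [Submodule.span_mul_span, Submodule.span_le]
  rintro _ ⟨_, ⟨i, rfl⟩, _, ⟨j, rfl⟩, rfl⟩
  exact h i j

namespace Levels

variable {F : Type} [Field F] [Algebra ℚ̄ F] [IsFunctionField1 ℚ̄ F] {S : Setting F} (P : Levels S)

theorem core_ne_zero (x : ∀ v, P.Ix v → ℚ̄) (hx0 : ∀ v, x v ≠ 0) (hE : P.eqs x = 0) :
    P.core (x .pW) (x .pU) (x .pR) ≠ 0 := by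
  classical
  have hsum := P.sum_eq
  have ha := P.ha
  have hb := P.hb
  have hs := P.hs
  have hT := P.hT
  have hgen : S.genus < S.bound := by simp [Setting.genus, Setting.bound]
  have pW : IsPlucker (x .pW : (Fin P.MW → S.Coord P.a) → ℚ̄) :=
    ⟨hx0 .pW, funext fun j => congrFun hE (.inl j)⟩
  have pU : IsPlucker (x .pU : (Fin P.MU → S.Coord P.b) → ℚ̄) :=
    ⟨hx0 .pU, funext fun j => congrFun hE (.inr (.inl j))⟩
  have pR : IsPlucker (x .pR : (Fin P.MR → S.Coord P.T) → ℚ̄) :=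
    ⟨hx0 .pR, funext fun j => congrFun hE (.inr (.inr (.inl j)))⟩
  have pX : IsPlucker (x .pX : (Fin P.MX → S.Coord P.T) → ℚ̄) :=
    ⟨hx0 .pX, funext fun j => congrFun hE (.inr (.inr (.inr (.inl j))))⟩
  have pY : IsPlucker (x .pY : (Fin P.MX → S.Coord P.T) → ℚ̄) :=
    ⟨hx0 .pY, funext fun j => congrFun hE (.inr (.inr (.inr (.inr (.inl j)))))⟩
  have hw0 : S.elem P.nw (x .zw) ≠ 0 := S.elem_ne_zero (hx0 .zw)
  have hv0 : S.elem P.nv (x .zv) ≠ 0 := S.elem_ne_zero (hx0 .zv)
  -- the product relations on the subspaces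
  have q1 : ∀ f ∈ (plSpan (x .pW)).map (S.elem P.a), ∀ g ∈ (plSpan (x .pU)).map (S.elem P.b),
      ∀ z ∈ (plSpan (x .pX)).map (S.elem P.T),
      ∃ h ∈ riemannRochSpace (S.pole P.m1), f * g * z = S.elem P.nw (x .zw) * h := by
    have key : ((plSpan (x .pW)).map (S.elem P.a) * (plSpan (x .pU)).map (S.elem P.b))
        * (plSpan (x .pX)).map (S.elem P.T)
        ≤ (riemannRochSpace (S.pole P.m1)).map (LinearMap.mulLeft ℚ̄ (S.elem P.nw (x .zw))) := by
      rw [S.map_plSpan_eq_span, S.map_plSpan_eq_span, S.map_plSpan_eq_span, Submodule.span_mul_span,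
        Submodule.span_mul_span, Submodule.span_le]
      rintro _ ⟨_, ⟨_, ⟨k1, rfl⟩, _, ⟨k2, rfl⟩, rfl⟩, _, ⟨k3, rfl⟩, rfl⟩
      obtain ⟨h, hh, heq⟩ := (S.prodEq_eq_zero_iff P.le_m1 (S.tri le_rfl (slot (x .pW) k1.1 k1.2)
        (slot (x .pU) k2.1 k2.2) (slot (x .pX) k3.1 k3.2)) (hx0 .zw)).mp
        (funext fun J => congrFun hE
          (.inr (.inr (.inr (.inr (.inr (.inl (k1, k2, k3, J))))))))
      rw [S.elem_tri] at heq
      exact ⟨h, hh, heq.symm⟩
    intro f hf g hg z hz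
    obtain ⟨h, hh, heq⟩ := key (Submodule.mul_mem_mul (Submodule.mul_mem_mul hf hg) hz)
    exact ⟨h, hh, heq.symm⟩
  have q2 : ∀ f ∈ (plSpan (x .pR)).map (S.elem P.T), ∀ z ∈ (plSpan (x .pX)).map (S.elem P.T),
      ∃ h ∈ riemannRochSpace (S.pole P.m2), f * z = S.elem P.nw (x .zw) * h := by
    have key : (plSpan (x .pR)).map (S.elem P.T) * (plSpan (x .pX)).map (S.elem P.T)
        ≤ (riemannRochSpace (S.pole P.m2)).map (LinearMap.mulLeft ℚ̄ (S.elem P.nw (x .zw))) := by
      rw [S.map_plSpan_eq_span, S.map_plSpan_eq_span]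
      refine mul_le_span_of_forall fun k1 k2 => ?_
      obtain ⟨h, hh, heq⟩ := (S.prodEq_eq_zero_iff P.le_m2 (S.mulVec le_rfl
        (slot (x .pR) k1.1 k1.2) (slot (x .pX) k2.1 k2.2)) (hx0 .zw)).mp
        (funext fun J => congrFun hE
          (.inr (.inr (.inr (.inr (.inr (.inr (.inl (k1, k2, J)))))))))
      rw [S.elem_mulVec] at heq
      exact ⟨h, hh, heq.symm⟩
    intro f hf z hz
    obtain ⟨h, hh, heq⟩ := key (Submodule.mul_mem_mul hf hz)
    exact ⟨h, hh, heq.symm⟩
  have q3 : ∀ f ∈ (plSpan (x .pR)).map (S.elem P.T), ∀ z ∈ (plSpan (x .pY)).map (S.elem P.T),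
      ∃ h ∈ riemannRochSpace (S.pole P.m3), f * z = S.elem P.nv (x .zv) * h := by
    have key : (plSpan (x .pR)).map (S.elem P.T) * (plSpan (x .pY)).map (S.elem P.T)
        ≤ (riemannRochSpace (S.pole P.m3)).map (LinearMap.mulLeft ℚ̄ (S.elem P.nv (x .zv))) := by
      rw [S.map_plSpan_eq_span, S.map_plSpan_eq_span]
      refine mul_le_span_of_forall fun k1 k2 => ?_
      obtain ⟨h, hh, heq⟩ := (S.prodEq_eq_zero_iff P.le_m3 (S.mulVec le_rfl
        (slot (x .pR) k1.1 k1.2) (slot (x .pY) k2.1 k2.2)) (hx0 .zv)).mp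
        (funext fun J => congrFun hE
          (.inr (.inr (.inr (.inr (.inr (.inr (.inr (k1, k2, J)))))))))
      rw [S.elem_mulVec] at heq
      exact ⟨h, hh, heq.symm⟩
    intro f hf z hz
    obtain ⟨h, hh, heq⟩ := key (Submodule.mul_mem_mul hf hz)
    exact ⟨h, hh, heq.symm⟩
  obtain ⟨A, B, C, hA0, hB0, hC0, hdA, hdB, hdC, hWA, hUB, hXC, hABC⟩ :=
    S.base_three (m := P.m1) (n := P.nw) (S.map_plSpan_le _) (S.map_plSpan_le _) (S.map_plSpan_le _)
      (S.finrank_map_plSpan pW) (S.finrank_map_plSpan pU) (S.finrank_map_plSpan pX)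
      (c := P.T) P.ha P.hb (by omega) rfl (by simp only [Levels.m1, Levels.nw]; omega) hw0 q1
  obtain ⟨A', C', hA'0, -, hdA', -, hRA', -, -⟩ :=
    S.base_two (m := P.m3) (n := P.nv) (S.map_plSpan_le _) (S.map_plSpan_le _)
      (S.finrank_map_plSpan pR) (S.finrank_map_plSpan pY) (by omega) (by omega) rfl
      (by simp only [Levels.m3, Levels.nv]; omega) hv0 q3
  have hE0 : A + B ≤ A' := fun v => by
    obtain ⟨f, hf, hf0, hfv⟩ := S.exists_attains hA'0 (d := P.dA + P.dB + P.e) (a := P.T) hdA' (by omega) v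
    obtain ⟨z, hz, hz0, hzv⟩ := S.exists_attains hC0 (d := S.bound) hdC (a := P.T) (by omega) v
    obtain ⟨h, hh, heq⟩ := q2 f (hRA' ▸ hf) z (hXC ▸ hz)
    have hh0 : h ≠ 0 := fun h0 => mul_ne_zero hf0 hz0 (by rw [heq, h0, mul_zero])
    have he := congrArg v.ord heq
    rw [v.ord_mul hf0 hz0, v.ord_mul hw0 hh0] at he
    have hhv := (mem_riemannRochSpace_iff.mp hh v).resolve_left hh0
    have hZ := DFunLike.congr_fun hABC v
    have hp : S.pole P.nw v + S.pole P.m2 v = S.pole P.T v + S.pole P.T v := by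
      simp only [Setting.pole, Finsupp.single_apply, Levels.m2, Levels.nw]
      split_ifs <;> omega
    simp only [Finsupp.add_apply, divisorOf_apply] at hZ ⊢
    omega
  set E : Divisor ℚ̄ F := A' - (A + B) with hEdef
  have hEdeg : Divisor.degree E = (P.e : ℤ) := by
    rw [hEdef, map_sub, map_add, hdA, hdB, hdA']; push_cast; ring
  have hEnn : 0 ≤ E := sub_nonneg.mpr hE0
  have hcard : E.support.card ≤ P.e := by
    have := card_support_le_degree hEnn
    omega
  have hA'eq : A' = A + B + E := by rw [hEdef]; abel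
  -- subspaces in coordinates
  have sW : plSpan (x .pW) = S.space P.a A := S.space_eq_of_map_eq hWA
  have sU : plSpan (x .pU) = S.space P.b B := S.space_eq_of_map_eq hUB
  have sR : plSpan (x .pR) = S.space P.T (A + B + E) := hA'eq ▸ S.space_eq_of_map_eq hRA'
  obtain ⟨c, hfc0, hfc⟩ := S.exists_fam_exact hA0 hdA P.ha hWA E.support (N := P.NW)
    (Nat.mul_le_mul_right _ (by omega))
  obtain ⟨c', hgc0, hgc⟩ := S.exists_fam_exact hB0 hdB P.hb hUB E.support (N := P.NU)
    (Nat.mul_le_mul_right _ (by omega))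
  have hdimR : Module.finrank ℚ̄ (S.space P.T (A + B + E)) = P.MR :=
    S.finrank_space_eq (add_nonneg (add_nonneg hA0 hB0) hEnn) (by rw [← hA'eq]; exact hdA')
      (by omega)
  have hdimQ : Module.finrank ℚ̄ (S.space P.T (A + B)) = S.spaceDim P.T (P.dA + P.dB) :=
    S.finrank_space_eq (add_nonneg hA0 hB0) (by rw [map_add, hdA, hdB]; push_cast; ring) (by omega)
  have hle : S.space P.T (A + B + E) ≤ S.space P.T (A + B) := fun z hz => by
    rw [Setting.mem_space_iff] at hz ⊢
    exact riemannRochSpace_mono (sub_le_sub_left (le_add_of_nonneg_right hEnn) _) hz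
  obtain ⟨π, hπ⟩ := exists_isQuot (e := P.e) hle (by
    rw [hdimR, hdimQ]; simp only [Levels.MR, Setting.spaceDim]; omega)
  let bq := Module.finBasisOfFinrankEq ℚ̄ _ hdimQ
  have hbq : LinearIndependent ℚ̄ (fun r => (bq r : S.Coord P.T → ℚ̄)) :=
    bq.linearIndependent.map' (Submodule.subtype _) (Submodule.ker_subtype _)
  have sq : plSpan (minors fun r => (bq r : S.Coord P.T → ℚ̄)) = S.space P.T (A + B) := by
    rw [plSpan_minors hbq, ← Submodule.coe_subtype, Set.range_comp', Submodule.span_image,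
      bq.span_eq, Submodule.map_top, Submodule.range_subtype]
  have hεcard : P.MR + P.e = S.spaceDim P.T (P.dA + P.dB) := by
    simp only [Levels.MR, Setting.spaceDim]; omega
  let ε : Fin P.MR ⊕ Fin P.e ≃ Fin (S.spaceDim P.T (P.dA + P.dB)) :=
    finSumFinEquiv.trans (finCongr hεcard)
  obtain ⟨l, hl, hmin⟩ := minors_slot_sum_eq (by simp only [Levels.MR, Setting.spaceDim]; omega)
    pR (isPlucker_minors hbq) (π := π) (by rw [sR, sq]; exact hπ) ε
  have hf : fam (x .pW) ((c : ℕ) : ℚ̄) ∈ S.space P.a A := sW ▸ fam_mem _ _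
  have hg : fam (x .pU) ((c' : ℕ) : ℚ̄) ∈ S.space P.b B := sU ▸ fam_mem _ _
  obtain ⟨ω, hω⟩ := S.exists_qdet_ne_zero P.sum_eq (A := A) (B := B) (E := E)
    ⟨by simp only [Setting.spaceDim]; omega,
      S.finrank_space_eq hEnn hEdeg P.hs⟩ hπ hf hg
    (fun h => hfc0 (by rw [h, map_zero])) (fun h => hgc0 (by rw [h, map_zero]))
    (fun v hv => hfc v (Finsupp.mem_support_iff.mpr hv))
    (fun v hv => hgc v (Finsupp.mem_support_iff.mpr hv))
    (by
      rw [Module.finrank_fintype_fun_eq_card, Fintype.card_fin]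
      have := S.ell_eq_of_bound_le (D := S.pole P.s) (by rw [S.degree_pole]; omega)
      rw [S.degree_pole] at this
      omega)
  obtain ⟨J₀, hJ₀⟩ := Function.ne_iff.mp (hx0 .pR)
  obtain ⟨I, hI⟩ := Function.ne_iff.mp (minors_ne_zero _ hbq)
  intro h0
  have h1 := congrFun h0 (c, c', ω, J₀, I ∘ ε)
  have hv : ∀ i, S.tri P.sum_eq.le (fam (x .pW) ((c : ℕ) : ℚ̄)) (fam (x .pU) ((c' : ℕ) : ℚ̄))
      (S.unitVec (ω i)) ∈ plSpan (minors fun r => (bq r : S.Coord P.T → ℚ̄)) := fun i => by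
    rw [sq]
    have := S.mulVec_mem_space (c := P.T) (n := P.a + P.b) P.sum_eq.le
      (S.mulVec_mem_space le_rfl hf hg) (S.mem_space_zero (S.unitVec (ω i)))
    rwa [add_zero] at this
  simp only [Levels.core, Pi.zero_apply, hmin _ _ hv] at h1
  refine mul_ne_zero (mul_ne_zero (mul_ne_zero hl (pow_ne_zero _ hJ₀)) hω) ?_ h1
  rwa [Function.comp_assoc, Equiv.self_comp_symm, Function.comp_id]

set_option synthInstance.maxSize 4096 in
set_option synthInstance.maxHeartbeats 400000 in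
/-- The height of the core vector on rational points of the incidence variety. -/
theorem exists_core_height : ∃ K : ℝ, ∀ A B E : Divisor ℚ̄ F, 0 ≤ A → 0 ≤ B → 0 ≤ E →
    S.IsRat A → S.IsRat B → S.IsRat E →
    Divisor.degree A = (P.dA : ℤ) → Divisor.degree B = (P.dB : ℤ) →
    Divisor.degree E = (P.e : ℤ) →
    ∀ (pW : (Fin P.MW → S.Coord P.a) → ℚ) (pU : (Fin P.MU → S.Coord P.b) → ℚ)
      (pR : (Fin P.MR → S.Coord P.T) → ℚ),
      IsRep pW (S.space P.a A) → IsRep pU (S.space P.b B) → IsRep pR (S.space P.T (A + B + E)) →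
      |logHeight (P.core pW pU pR) -
        ((P.e : ℝ) * logHeight pW + (P.e : ℝ) * logHeight pU + (P.MR : ℝ) * logHeight pR)| ≤ K := by
  have hsum := P.sum_eq
  have ha := P.ha
  have hb := P.hb
  have hs := P.hs
  have hT := P.hT
  obtain ⟨K, hK⟩ := exists_abs_logHeight_eval_sub_le P.coreMap P.coreMap_isHom P.eqMap
    (fun x hx t => P.eqs_scale x hx t) (fun x hx hE => P.core_ne_zero x hx hE)
  refine ⟨K, fun A B E hA hB hE hrA hrB hrE hdA hdB hdE pW pU pR hpW hpU hpR => ?_⟩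
  obtain ⟨w, X, hw0, hX, hrX, hdX, hwX⟩ := S.exists_cofactor (n := P.nw) (d := P.dA + P.dB)
    (add_nonneg hA hB) (Setting.IsRat.add S hrA hrB)
    (by rw [map_add, hdA, hdB]; push_cast; ring) rfl
  obtain ⟨v, Y, hv0, hY, hrY, hdY, hvY⟩ := S.exists_cofactor (n := P.nv) (d := P.dA + P.dB + P.e)
    (add_nonneg (add_nonneg hA hB) hE) (Setting.IsRat.add S (Setting.IsRat.add S hrA hrB) hrE)
    (by rw [map_add, map_add, hdA, hdB, hdE]; push_cast; ring) rfl
  obtain ⟨pX, hpX, -⟩ := S.exists_isRep_space (n := P.T) hX hrX hdX (by omega)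
  obtain ⟨pY, hpY, -⟩ := S.exists_isRep_space (n := P.T) hY hrY hdY (by omega)
  let x : ∀ u, P.Ix u → ℚ := fun
    | .pW => pW
    | .pU => pU
    | .pR => pR
    | .pX => pX
    | .pY => pY
    | .zw => w
    | .zv => v
  have hx0 : ∀ u, x u ≠ 0 := by
    intro u
    cases u
    · exact hpW.ne_zero
    · exact hpU.ne_zero
    · exact hpR.ne_zero
    · exact hpX.ne_zero
    · exact hpY.ne_zero
    · exact fun h => hw0 (by
        show castVec w = 0
        rw [show w = 0 from h]; funext i; simp [castVec])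
    · exact fun h => hv0 (by
        show castVec v = 0
        rw [show v = 0 from h]; funext i; simp [castVec])
  have hEq : P.eqs x = 0 := by
    funext j
    refine (algebraMap ℚ ℚ̄).injective ?_
    have hmap := P.map_eqs (Algebra.ofId ℚ ℚ̄) x j
    simp only [Algebra.ofId_apply] at hmap
    rw [Pi.zero_apply, map_zero, hmap]
    have mem : ∀ {n M : ℕ} {D : Divisor ℚ̄ F} {p : (Fin M → S.Coord n) → ℚ},
        IsRep p (S.space n D) → ∀ J t,
          S.elem n (slot (castVec p) J t) ∈ riemannRochSpace (S.pole n - D) := by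
      intro n M D p hp J t
      exact (hp.2 ▸ Submodule.subset_span ⟨(J, t), rfl⟩ : slot (castVec p) J t ∈ S.space n D)
    rcases j with j | j | j | j | j | k | k | k <;> simp only [Levels.eqs, Sum.elim_inl, Sum.elim_inr]
    · exact congrFun hpW.1.2 j
    · exact congrFun hpU.1.2 j
    · exact congrFun hpR.1.2 j
    · exact congrFun hpX.1.2 j
    · exact congrFun hpY.1.2 j
    · refine congrFun ((S.prodEq_eq_zero_iff P.le_m1 _ hw0).mpr ?_) k.2.2.2
      rw [S.elem_tri]
      exact S.mul_mul_mem_of_le (by simp only [Levels.m1, Levels.nw]; omega) hw0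
        (le_of_eq hwX) (mem hpW _ _) (mem hpU _ _) (mem hpX _ _)
    · refine congrFun ((S.prodEq_eq_zero_iff P.le_m2 _ hw0).mpr ?_) k.2.2
      rw [S.elem_mulVec]
      refine S.mul_mem_of_le (by simp only [Levels.m2, Levels.nw]; omega) hw0 ?_
        (mem hpR _ _) (mem hpX _ _)
      show S.zeros P.nw (castVec w) ≤ A + B + E + X
      rw [hwX]
      exact add_le_add_left (le_add_of_nonneg_right hE) X
    · refine congrFun ((S.prodEq_eq_zero_iff P.le_m3 _ hv0).mpr ?_) k.2.2
      rw [S.elem_mulVec]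
      exact S.mul_mem_of_le (by simp only [Levels.m3, Levels.nv]; omega) hv0
        (le_of_eq hvY) (mem hpR _ _) (mem hpY _ _)
  have h := hK x hx0 hEq
  have hval : ∑ u, (P.coreDeg u : ℝ) * logHeight (x u)
      = (P.e : ℝ) * logHeight pW + (P.e : ℝ) * logHeight pU + (P.MR : ℝ) * logHeight pR := by
    rw [Vx.univ_eq]
    simp only [Finset.sum_insert, Finset.mem_insert, Finset.mem_singleton, reduceCtorEq, or_self,
      not_false_eq_true, Finset.sum_singleton, Levels.coreDeg, Nat.cast_zero, zero_mul, add_zero]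
    show (P.e : ℝ) * logHeight pW + ((P.e : ℝ) * logHeight pU + (P.MR : ℝ) * logHeight pR) = _
    ring
  rw [hval] at h
  exact h

end Levels

end Fermat.Agent.MordellWeil
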