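import Mathlib.LinearAlgebra.Matrix.Adjugate
import Mathlib.LinearAlgebra.Matrix.Rank
import Mathlib.LinearAlgebra.Matrix.NonsingularInverse
import Mathlib.LinearAlgebra.Determinant
import Mathlib.Algebra.Algebra.Defs

/-!
Plücker vectors of subspaces, indexed by all tuples of column indices: the vector of all maximal
minors of a basis matrix. A subspace is recovered linearly from its Plücker vector by `slot`.
-/

set_option autoImplicit false

noncomputable section

open Matrix

namespace Fermat.Agent.MordellWeil

variable {m ι : Type} [Fintype m] [DecidableEq m]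

section Ring

variable {A : Type} [CommRing A]

/-- All maximal minors of a matrix with rows indexed by `m`. -/
def minors (B : m → ι → A) : (m → ι) → A :=
  fun J => det (Matrix.of fun r s => B r (J s))

/-- The vectors of the subspace of a Plücker vector, linear in the vector. -/
def slot (p : (m → ι) → A) (J : m → ι) : m → ι → A :=
  fun t i => p (Function.update J t i)

/-- The equations of decomposable vectors. -/
def decomp (p : (m → ι) → A) : (m → ι) × (m → ι) → A :=
  fun J => p J.1 ^ Fintype.card m * p J.2 - p J.1 * minors (slot p J.1) J.2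

theorem minors_map {B' : Type} [CommRing B'] (φ : A →+* B') (B : m → ι → A) (J : m → ι) :
    φ (minors B J) = minors (fun r i => φ (B r i)) J := by
  rw [minors, RingHom.map_det]
  rfl

theorem decomp_map {B' : Type} [CommRing B'] (φ : A →+* B') (p : (m → ι) → A)
    (J : (m → ι) × (m → ι)) : φ (decomp p J) = decomp (fun J => φ (p J)) J := by
  simp only [decomp, map_sub, map_mul, map_pow, minors_map]
  rfl

/-- Scaling the rows. -/
theorem minors_smul_rows (c : m → A) (B : m → ι → A) (J : m → ι) :
    minors (fun r => c r • B r) J = (∏ r, c r) * minors B J := by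
  rw [minors, minors, ← det_mul_column]
  rfl

theorem minors_smul (c : A) (B : m → ι → A) :
    minors (fun r => c • B r) = c ^ Fintype.card m • minors B := by
  funext J
  rw [minors_smul_rows]
  simp

omit [Fintype m] in
theorem slot_smul (c : A) (p : (m → ι) → A) (J : m → ι) :
    slot (c • p) J = fun t => c • slot p J t := rfl

theorem decomp_smul (c : A) (p : (m → ι) → A) :
    decomp (c • p) = c ^ (Fintype.card m + 1) • decomp p := by
  funext J
  simp only [decomp, slot_smul, minors_smul, Pi.smul_apply, smul_eq_mul, mul_pow, pow_succ]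
  ring

/-- Minors of a product. -/
theorem minors_mul (G : Matrix m m A) (B : m → ι → A) :
    minors (fun r => ∑ s, G r s • B s) = G.det • minors B := by
  funext J
  rw [minors, Pi.smul_apply, smul_eq_mul, minors, ← det_mul]
  congr 1
  ext r s
  simp [Matrix.mul_apply, Finset.sum_apply]

theorem slot_minors (B : m → ι → A) (J : m → ι) :
    slot (minors B) J = fun t => ∑ r, adjugate (Matrix.of fun r s => B r (J s)) t r • B r := by
  funext t i
  have h : slot (minors B) J t i
      = ((Matrix.of fun r s => B r (J s)).updateCol t (fun r => B r i)).det := by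
    simp only [slot, minors]
    congr 1
    ext r s
    rcases eq_or_ne s t with rfl | hst
    · simp [Matrix.updateCol_self]
    · simp [Matrix.updateCol_ne hst, Function.update_of_ne hst]
  rw [h, ← cramer_apply, cramer_eq_adjugate_mulVec]
  simp [Matrix.mulVec, dotProduct, Finset.sum_apply]

theorem minors_slot_minors (B : m → ι → A) (J : m → ι) :
    minors (slot (minors B) J) = minors B J ^ (Fintype.card m - 1) • minors B := by
  rw [slot_minors, minors_mul, det_adjugate]
  rfl

theorem decomp_minors (B : m → ι → A) : decomp (minors B) = 0 := by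
  funext J
  simp only [decomp, minors_slot_minors, Pi.smul_apply, smul_eq_mul, Pi.zero_apply]
  rcases Nat.eq_zero_or_pos (Fintype.card m) with h | h
  · have : IsEmpty m := Fintype.card_eq_zero_iff.mp h
    simp [minors]
  · conv_lhs => rw [show Fintype.card m = (Fintype.card m - 1) + 1 by omega]
    rw [pow_succ, Nat.add_sub_cancel]
    ring

end Ring

section Field

variable {K : Type} [Field K]

/-- A nonzero decomposable vector. -/
def IsPlucker (p : (m → ι) → K) : Prop := p ≠ 0 ∧ decomp p = 0

/-- The subspace of a Plücker vector. -/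
def plSpan (p : (m → ι) → K) : Submodule K (ι → K) :=
  Submodule.span K (Set.range fun Jt : (m → ι) × m => slot p Jt.1 Jt.2)

theorem linearIndependent_of_minors_ne_zero (B : m → ι → K) (h : minors B ≠ 0) :
    LinearIndependent K B := by
  obtain ⟨J, hJ⟩ := Function.ne_iff.mp h
  have h1 : LinearIndependent K (fun r => LinearMap.funLeft K K J (B r)) :=
    linearIndependent_rows_iff_isUnit.mpr
      ((isUnit_iff_isUnit_det (Matrix.of fun r s => B r (J s))).mpr (isUnit_iff_ne_zero.mpr hJ))
  exact LinearIndependent.of_comp _ h1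

theorem minors_ne_zero [Finite ι] (B : m → ι → K) (h : LinearIndependent K B) : minors B ≠ 0 := by
  have : Fintype ι := Fintype.ofFinite ι
  let M : Matrix m ι K := Matrix.of B
  have hrank : M.rank = Fintype.card m := h.rank_matrix
  obtain ⟨κ, a, ha, hspan, hli⟩ := exists_linearIndependent' K (Mᵀ : ι → m → K)
  have : Fintype κ := Fintype.ofInjective a ha
  have htop : Submodule.span K (Set.range (Mᵀ : ι → m → K)) = ⊤ := by
    refine Submodule.eq_top_of_finrank_eq ?_
    rw [← hspan, Module.finrank_fintype_fun_eq_card]
    have := M.rank_eq_finrank_span_cols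
    rw [hrank] at this
    rw [hspan]
    exact this.symm
  have hcard : Fintype.card κ = Fintype.card m := by
    have := finrank_span_eq_card hli
    rw [hspan, htop, finrank_top, Module.finrank_fintype_fun_eq_card] at this
    exact this.symm
  let e : m ≃ κ := (Fintype.equivOfCardEq hcard).symm
  refine Function.ne_iff.mpr ⟨a ∘ e, ?_⟩
  have h1 : LinearIndependent K (fun s r => B r (a (e s))) := hli.comp e e.injective
  have h2 : IsUnit (Matrix.of fun r s => B r (a (e s))) :=
    linearIndependent_cols_iff_isUnit.mp h1
  exact ((isUnit_iff_isUnit_det _).mp h2).ne_zero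

theorem isPlucker_minors [Finite ι] {B : m → ι → K} (h : LinearIndependent K B) :
    IsPlucker (minors B) :=
  ⟨minors_ne_zero B h, decomp_minors B⟩

theorem IsPlucker.smul {p : (m → ι) → K} (hp : IsPlucker p) {c : K} (hc : c ≠ 0) :
    IsPlucker (c • p) :=
  ⟨smul_ne_zero hc hp.1, by rw [decomp_smul, hp.2, smul_zero]⟩

/-- A Plücker vector is a multiple of the minors of independent rows. -/
theorem IsPlucker.exists_eq {p : (m → ι) → K} (hp : IsPlucker p) :
    ∃ (B : m → ι → K) (c : K), LinearIndependent K B ∧ c ≠ 0 ∧ p = c • minors B := by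
  obtain ⟨J₀, hJ₀⟩ := Function.ne_iff.mp hp.1
  have hJ : ∀ J, p J₀ ^ Fintype.card m * p J = p J₀ * minors (slot p J₀) J := fun J =>
    sub_eq_zero.mp (congrFun hp.2 (J₀, J))
  have heq : p = (p J₀ / p J₀ ^ Fintype.card m) • minors (slot p J₀) := by
    funext J
    rw [Pi.smul_apply, smul_eq_mul, div_mul_eq_mul_div,
      eq_div_iff (pow_ne_zero (Fintype.card m) hJ₀), ← hJ J, mul_comm]
  refine ⟨slot p J₀, _, linearIndependent_of_minors_ne_zero _ ?_,
    div_ne_zero hJ₀ (pow_ne_zero _ hJ₀), heq⟩
  intro h
  exact hp.1 (by rw [heq, h, smul_zero])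

omit [Fintype m] in
theorem plSpan_smul (p : (m → ι) → K) {c : K} (hc : c ≠ 0) : plSpan (c • p) = plSpan p := by
  refine le_antisymm (Submodule.span_le.mpr ?_) (Submodule.span_le.mpr ?_) <;> rintro _ ⟨Jt, rfl⟩
  · exact Submodule.smul_mem _ c (Submodule.subset_span ⟨Jt, rfl⟩)
  · have h : slot p Jt.1 Jt.2 = c⁻¹ • slot (c • p) Jt.1 Jt.2 := by
      rw [slot_smul, smul_smul, inv_mul_cancel₀ hc, one_smul]
    show slot p Jt.1 Jt.2 ∈ _
    rw [h]
    exact Submodule.smul_mem _ _ (Submodule.subset_span ⟨Jt, rfl⟩)

theorem plSpan_minors [Finite ι] {B : m → ι → K} (h : LinearIndependent K B) :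
    plSpan (minors B) = Submodule.span K (Set.range B) := by
  refine le_antisymm (Submodule.span_le.mpr ?_) (Submodule.span_le.mpr ?_)
  · rintro _ ⟨Jt, rfl⟩
    show slot (minors B) Jt.1 Jt.2 ∈ _
    rw [slot_minors]
    exact Submodule.sum_mem _ fun r _ =>
      Submodule.smul_mem _ _ (Submodule.subset_span ⟨r, rfl⟩)
  · rintro _ ⟨r, rfl⟩
    obtain ⟨J, hJ⟩ := Function.ne_iff.mp (minors_ne_zero B h)
    set G : Matrix m m K := Matrix.of fun r s => B r (J s) with hG
    have hrow : B r = (G.det)⁻¹ • ∑ t, G r t • slot (minors B) J t := by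
      simp only [slot_minors, ← hG, Finset.smul_sum, smul_smul]
      rw [Finset.sum_comm]
      simp only [← Finset.sum_smul]
      have h1 : ∀ s, ∑ t, G.det⁻¹ * (G r t * adjugate G t s) = (1 : Matrix m m K) r s := by
        intro s
        have hd : G.det ≠ 0 := hJ
        rw [← Finset.mul_sum, ← Matrix.mul_apply, mul_adjugate, Matrix.smul_apply, smul_eq_mul,
          ← mul_assoc, inv_mul_cancel₀ hd, one_mul]
      simp only [h1, Matrix.one_apply, ite_smul, one_smul, zero_smul, Finset.sum_ite_eq,
        Finset.mem_univ, if_true]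
    show B r ∈ _
    rw [hrow]
    exact Submodule.smul_mem _ _ (Submodule.sum_mem _ fun t _ =>
      Submodule.smul_mem _ _ (Submodule.subset_span ⟨(J, t), rfl⟩))

theorem IsPlucker.finrank_plSpan [Finite ι] {p : (m → ι) → K} (hp : IsPlucker p) :
    Module.finrank K (plSpan p) = Fintype.card m := by
  obtain ⟨B, c, hB, hc, rfl⟩ := hp.exists_eq
  rw [plSpan_smul _ hc, plSpan_minors hB, finrank_span_eq_card hB]

/-- Two families spanning the same space have proportional minors. -/
theorem minors_eq_smul_of_mem_span {B B' : m → ι → K} (hB' : LinearIndependent K B')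
    (h : ∀ r, B' r ∈ Submodule.span K (Set.range B)) :
    ∃ c : K, c ≠ 0 ∧ minors B' = c • minors B := by
  choose G hG using fun r => (Submodule.mem_span_range_iff_exists_fun K).mp (h r)
  have hG' : B' = fun r => ∑ s, (Matrix.of G) r s • B s := funext fun r => (hG r).symm
  refine ⟨(Matrix.of G).det, fun h0 => ?_, by rw [hG', minors_mul]⟩
  obtain ⟨v, hv0, hv⟩ := exists_vecMul_eq_zero_iff.mpr h0
  refine hv0 (funext (Fintype.linearIndependent_iff.mp hB' v ?_))
  rw [hG']
  simp only [Finset.smul_sum, smul_smul]
  rw [Finset.sum_comm]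
  simp only [← Finset.sum_smul]
  refine Finset.sum_eq_zero fun s _ => ?_
  have : ∑ r, v r * G r s = 0 := congrFun hv s
  simp [this]

/-- A Plücker vector is determined up to a scalar by its subspace. -/
theorem IsPlucker.eq_smul_of_plSpan_eq [Finite ι] {p q : (m → ι) → K} (hp : IsPlucker p)
    (hq : IsPlucker q) (h : plSpan p = plSpan q) : ∃ c : K, c ≠ 0 ∧ p = c • q := by
  obtain ⟨B, c, hB, hc, rfl⟩ := hp.exists_eq
  obtain ⟨B', c', hB', hc', rfl⟩ := hq.exists_eq
  rw [plSpan_smul _ hc, plSpan_smul _ hc', plSpan_minors hB, plSpan_minors hB'] at h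
  obtain ⟨d, hd, hd'⟩ := minors_eq_smul_of_mem_span hB (B := B')
    (fun r => h ▸ Submodule.subset_span ⟨r, rfl⟩)
  refine ⟨c * d / c', div_ne_zero (mul_ne_zero hc hd) hc', ?_⟩
  rw [hd', smul_smul, smul_smul, div_mul_cancel₀ _ hc']

/-- A vector next to independent rows: all minors vanish iff it lies in their span. -/
theorem minors_option_eq_zero_iff [Finite ι] {B : m → ι → K} (hB : LinearIndependent K B)
    (v : ι → K) : minors (fun o : Option m => o.elim v B) = 0 ↔
      v ∈ Submodule.span K (Set.range B) := by
  constructor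
  · intro h
    by_contra hv
    refine minors_ne_zero (fun o : Option m => o.elim v B) ?_ h
    exact linearIndependent_option.mpr ⟨hB, hv⟩
  · intro hv
    by_contra h
    exact (linearIndependent_option.mp (linearIndependent_of_minors_ne_zero _ h)).2 hv

/-- A vector lies in the subspace of a Plücker vector. -/
theorem IsPlucker.mem_plSpan_iff [Finite ι] {p : (m → ι) → K} (hp : IsPlucker p) (v : ι → K) :
    v ∈ plSpan p ↔
      ∀ J₀ : m → ι, minors (fun o : Option m => o.elim v (slot p J₀)) = 0 := by
  obtain ⟨B, c, hB, hc, rfl⟩ := hp.exists_eq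
  rw [plSpan_smul _ hc, plSpan_minors hB]
  constructor
  · intro hv J₀
    by_contra h
    have h1 := linearIndependent_option.mp (linearIndependent_of_minors_ne_zero _ h)
    refine h1.2 ?_
    have hle : Submodule.span K (Set.range B) ≤
        Submodule.span K (Set.range fun t : m => slot (c • minors B) J₀ t) := by
      refine le_of_eq (Submodule.eq_of_le_of_finrank_le ?_ ?_).symm
      · refine Submodule.span_le.mpr ?_
        rintro _ ⟨t, rfl⟩
        show slot (c • minors B) J₀ t ∈ _
        rw [slot_smul, slot_minors]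
        exact Submodule.smul_mem _ _ (Submodule.sum_mem _ fun r _ =>
          Submodule.smul_mem _ _ (Submodule.subset_span ⟨r, rfl⟩))
      · rw [finrank_span_eq_card hB]
        exact (finrank_span_eq_card h1.1).ge
    exact hle hv
  · intro h
    obtain ⟨J₀, hJ₀⟩ := Function.ne_iff.mp (minors_ne_zero B hB)
    have hslot : LinearIndependent K (slot (c • minors B) J₀) := by
      refine linearIndependent_of_minors_ne_zero _ ?_
      rw [slot_smul, minors_smul, minors_slot_minors, smul_smul]
      exact smul_ne_zero (mul_ne_zero (pow_ne_zero _ hc) (pow_ne_zero _ hJ₀))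
        (minors_ne_zero B hB)
    have hv := (minors_option_eq_zero_iff hslot v).mp (h J₀)
    refine Submodule.span_le.mpr ?_ hv
    rintro _ ⟨t, rfl⟩
    show slot (c • minors B) J₀ t ∈ _
    rw [slot_smul, slot_minors]
    exact Submodule.smul_mem _ _ (Submodule.sum_mem _ fun r _ =>
      Submodule.smul_mem _ _ (Submodule.subset_span ⟨r, rfl⟩))

end Field

end Fermat.Agent.MordellWeil
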