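import Fermat.Agent.MordellWeil.Setting
import Fermat.Agent.MordellWeil.Plucker
import Mathlib.NumberTheory.Height.NumberField

/-!
Heights of Galois stable subspaces of coordinate spaces over `ℚ̄`, and of the spaces
`L(n ∞ - D)` for Galois fixed effective divisors `D`.
-/

set_option autoImplicit false

noncomputable section

open AlgebraicCurve Fermat.Agent.Curve Height

namespace Fermat.Agent.MordellWeil

local notation "ℚ̄" => AlgebraicClosure ℚ

/-- A rational tuple, seen over `ℚ̄`. -/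
abbrev castVec {σ : Type} (p : σ → ℚ) : σ → ℚ̄ := fun J => algebraMap ℚ ℚ̄ (p J)

theorem castVec_injective {σ : Type} : Function.Injective (castVec (σ := σ)) := fun _ _ h =>
  funext fun J => (algebraMap ℚ ℚ̄).injective (congrFun h J)

/-- `p` is a rational Plücker vector of `P`. -/
def IsRep {ι : Type} [Fintype ι] {M : ℕ} (p : (Fin M → ι) → ℚ) (P : Submodule ℚ̄ (ι → ℚ̄)) : Prop :=
  IsPlucker (castVec p) ∧ plSpan (castVec p) = P

/-- The logarithmic height of a subspace defined over `ℚ`. -/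
def spaceHeight {ι : Type} [Fintype ι] (P : Submodule ℚ̄ (ι → ℚ̄)) : ℝ :=
  letI := Classical.propDecidable
  if h : ∃ (M : ℕ) (p : (Fin M → ι) → ℚ), IsRep p P then logHeight h.choose_spec.choose else 0

theorem IsRep.card_eq {ι : Type} [Fintype ι] {M : ℕ} {p : (Fin M → ι) → ℚ}
    {P : Submodule ℚ̄ (ι → ℚ̄)} (hp : IsRep p P) : Module.finrank ℚ̄ P = M := by
  rw [← hp.2, hp.1.finrank_plSpan, Fintype.card_fin]

theorem IsRep.ne_zero {ι : Type} [Fintype ι] {M : ℕ} {p : (Fin M → ι) → ℚ}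
    {P : Submodule ℚ̄ (ι → ℚ̄)} (hp : IsRep p P) : p ≠ 0 := fun h =>
  hp.1.1 (by subst h; funext J; simp [castVec])

theorem IsRep.spaceHeight_eq {ι : Type} [Fintype ι] {M : ℕ} {p : (Fin M → ι) → ℚ}
    {P : Submodule ℚ̄ (ι → ℚ̄)} (hp : IsRep p P) : spaceHeight P = logHeight p := by
  have h : ∃ (M : ℕ) (p : (Fin M → ι) → ℚ), IsRep p P := ⟨M, p, hp⟩
  rw [spaceHeight, dif_pos h]
  have hq := h.choose_spec.choose_spec
  revert hq
  generalize h.choose_spec.choose = q
  revert q
  generalize h.choose = M'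
  intro q hq
  obtain rfl : M' = M := hq.card_eq.symm.trans hp.card_eq
  obtain ⟨c, hc, hqc⟩ := hq.1.eq_smul_of_plSpan_eq hp.1 (hq.2.trans hp.2.symm)
  obtain ⟨J, hJ⟩ := Function.ne_iff.mp hp.ne_zero
  have hcJ : c = algebraMap ℚ ℚ̄ (q J / p J) := by
    have := congrFun hqc J
    simp only [Pi.smul_apply, smul_eq_mul] at this
    rw [map_div₀, show algebraMap ℚ ℚ̄ (q J) = c * algebraMap ℚ ℚ̄ (p J) from this, mul_div_cancel_right₀]
    simpa using hJ
  have hqp : q = (q J / p J) • p := castVec_injective <| by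
    rw [hqc, hcJ]
    funext I
    simp [castVec]
  rw [hqp, logHeight_smul_eq_logHeight]
  intro h0
  exact hc (by rw [hcJ, h0, map_zero])

/-- A Galois stable subspace has a rational Plücker vector. -/
theorem exists_isRep {ι : Type} [Fintype ι] (P : Submodule ℚ̄ (ι → ℚ̄))
    (hP : ∀ σ : ℚ̄ ≃ₐ[ℚ] ℚ̄, ∀ x ∈ P, (fun i => σ (x i)) ∈ P) {M : ℕ}
    (hM : Module.finrank ℚ̄ P = M) : ∃ p : (Fin M → ι) → ℚ, IsRep p P := by
  let b := Module.finBasisOfFinrankEq ℚ̄ P hM
  let B : Fin M → ι → ℚ̄ := fun r => b r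
  have hB : LinearIndependent ℚ̄ B := b.linearIndependent.map' P.subtype P.ker_subtype
  have hspan : Submodule.span ℚ̄ (Set.range B) = P := by
    have : Set.range B = P.subtype '' Set.range b := by rw [← Set.range_comp]; rfl
    rw [this, Submodule.span_image, b.span_eq, Submodule.map_top, Submodule.range_subtype]
  obtain ⟨J₀, hJ₀⟩ := Function.ne_iff.mp (minors_ne_zero B hB)
  let c : ℚ̄ := (minors B J₀)⁻¹
  have hc : c ≠ 0 := inv_ne_zero hJ₀
  have hfix : ∀ (σ : ℚ̄ ≃ₐ[ℚ] ℚ̄) (J), σ ((c • minors B) J) = (c • minors B) J := by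
    intro σ J
    have hσB : LinearIndependent ℚ̄ (fun r i => σ (B r i)) := by
      refine linearIndependent_of_minors_ne_zero _ (Function.ne_iff.mpr ⟨J₀, ?_⟩)
      rw [show minors (fun r i => σ (B r i)) J₀ = σ (minors B J₀) from
        (minors_map (σ : ℚ̄ →+* ℚ̄) B J₀).symm]
      simpa using hJ₀
    obtain ⟨d, hd, hσ⟩ := minors_eq_smul_of_mem_span hσB (B := B)
      (fun r => hspan.symm ▸ hP σ _ (b r).2)
    have hall : ∀ I, σ (minors B I) = d * minors B I := fun I =>
      (minors_map (σ : ℚ̄ →+* ℚ̄) B I).trans (congrFun hσ I)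
    have h0 := hall J₀
    simp only [Pi.smul_apply, smul_eq_mul, c, map_mul, map_inv₀, hall]
    field_simp
  choose q hq using fun J => exists_algebraMap_rat_of_fixed (fun σ => hfix σ J)
  have hq' : castVec q = c • minors B := funext hq
  refine ⟨q, ?_, ?_⟩
  · rw [hq']; exact (isPlucker_minors hB).smul hc
  · rw [hq', plSpan_smul _ hc, plSpan_minors hB, hspan]

variable {F : Type} [Field F] [Algebra ℚ̄ F] [IsFunctionField1 ℚ̄ F]

namespace Setting

variable (S : Setting F)

/-- A divisor fixed by Galois. -/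
def IsRat (D : Divisor ℚ̄ F) : Prop := ∀ σ, S.galois σ • D = D

theorem IsRat.add {D E : Divisor ℚ̄ F} (hD : S.IsRat D) (hE : S.IsRat E) : S.IsRat (D + E) :=
  fun σ => by rw [smul_add, hD σ, hE σ]

theorem IsRat.sub {D E : Divisor ℚ̄ F} (hD : S.IsRat D) (hE : S.IsRat E) : S.IsRat (D - E) :=
  fun σ => by rw [smul_sub, hD σ, hE σ]

theorem isRat_pole (n : ℕ) : S.IsRat (S.pole n) := fun σ => by
  rw [SemilinearAut.smul_single, S.galois_infty]

theorem isRat_zero : S.IsRat 0 := fun _ => smul_zero _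

theorem smul_mem_riemannRochSpace {D : Divisor ℚ̄ F} (hD : S.IsRat D) {f : F}
    (hf : f ∈ riemannRochSpace D) (σ : ℚ̄ ≃ₐ[ℚ] ℚ̄) : S.galois σ • f ∈ riemannRochSpace D := by
  rw [mem_riemannRochSpace_iff] at hf ⊢
  intro v
  rcases hf ((S.galois σ)⁻¹ • v) with h | h
  · exact Or.inl (by rw [h, smul_zero])
  · refine Or.inr ?_
    have h1 := SemilinearAut.ord_smul (S.galois σ) ((S.galois σ)⁻¹ • v) f
    rw [smul_inv_smul] at h1
    have h2 : D ((S.galois σ)⁻¹ • v) = D v := by
      rw [← SemilinearAut.divisor_smul_apply, hD σ]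
    omega

theorem space_stable (n : ℕ) {D : Divisor ℚ̄ F} (hD : S.IsRat D) (σ : ℚ̄ ≃ₐ[ℚ] ℚ̄)
    {x : S.Coord n → ℚ̄} (hx : x ∈ S.space n D) : (fun i => σ (x i)) ∈ S.space n D := by
  rw [mem_space_iff, ← smul_elem]
  exact S.smul_mem_riemannRochSpace (IsRat.sub S (S.isRat_pole n) hD) hx σ

theorem map_elem_space (n : ℕ) {D : Divisor ℚ̄ F} (hD : 0 ≤ D) :
    (S.space n D).map (S.elem n) = riemannRochSpace (S.pole n - D) := by
  rw [space, Submodule.map_comap_eq, S.range_elem, inf_eq_right]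
  exact riemannRochSpace_mono (sub_le_self _ hD)

theorem finrank_space (n : ℕ) {D : Divisor ℚ̄ F} (hD : 0 ≤ D) :
    Module.finrank ℚ̄ (S.space n D) = ell (S.pole n - D) := by
  rw [ell, ← S.map_elem_space n hD]
  exact (Submodule.equivMapOfInjective _ (S.elem_injective n) _).finrank_eq

/-- The dimension of `L(n ∞ - D)` for `D` of degree `d`, in the stable range. -/
def spaceDim (n d : ℕ) : ℕ := n + 1 - d - S.genus

theorem finrank_space_eq {n d : ℕ} {D : Divisor ℚ̄ F} (hD : 0 ≤ D)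
    (hd : Divisor.degree D = (d : ℤ)) (h : d + S.bound ≤ n) :
    Module.finrank ℚ̄ (S.space n D) = S.spaceDim n d := by
  rw [S.finrank_space n hD]
  have hb : S.genus < S.bound := by simp [Setting.genus, Setting.bound]
  have := S.ell_eq_of_bound_le (D := S.pole n - D) (by rw [map_sub, S.degree_pole, hd]; omega)
  rw [map_sub, S.degree_pole, hd] at this
  unfold spaceDim
  omega

/-- The Plücker height of `L(n ∞ - D)`. -/
def height (n : ℕ) (D : Divisor ℚ̄ F) : ℝ := spaceHeight (S.space n D)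

theorem exists_isRep_space {n d : ℕ} {D : Divisor ℚ̄ F} (hD : 0 ≤ D) (hr : S.IsRat D)
    (hd : Divisor.degree D = (d : ℤ)) (h : d + S.bound ≤ n) :
    ∃ p : (Fin (S.spaceDim n d) → S.Coord n) → ℚ,
      IsRep p (S.space n D) ∧ S.height n D = logHeight p := by
  obtain ⟨p, hp⟩ := exists_isRep (S.space n D) (fun σ x hx => S.space_stable n hr σ hx)
    (S.finrank_space_eq hD hd h)
  exact ⟨p, hp, hp.spaceHeight_eq⟩

/-- The zero divisor of a nonzero element of `L(n ∞)` given by coordinates. -/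
def zeros (n : ℕ) (x : S.Coord n → ℚ̄) : Divisor ℚ̄ F := divisorOf (S.elem n x) + S.pole n

theorem elem_ne_zero {n : ℕ} {x : S.Coord n → ℚ̄} (hx : x ≠ 0) : S.elem n x ≠ 0 := fun h =>
  hx (S.elem_injective n (by rw [h, map_zero]))

theorem zeros_nonneg {n : ℕ} {x : S.Coord n → ℚ̄} (hx : x ≠ 0) : 0 ≤ S.zeros n x := fun v => by
  have := (mem_riemannRochSpace_iff.mp (S.elem_mem n x) v).resolve_left (S.elem_ne_zero hx)
  simp only [zeros, Finsupp.coe_zero, Pi.zero_apply, Finsupp.add_apply, divisorOf_apply]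
  omega

theorem degree_zeros (n : ℕ) (x : S.Coord n → ℚ̄) : Divisor.degree (S.zeros n x) = n := by
  rw [zeros, map_add, degree_divisorOf, S.degree_pole, zero_add]

theorem isRat_zeros (n : ℕ) (u : S.Coord n → ℚ) : S.IsRat (S.zeros n (castVec u)) := by
  have hfix : ∀ σ, S.galois σ • S.elem n (castVec u) = S.elem n (castVec u) := fun σ => by
    rw [smul_elem]
    congr 1
    funext i
    exact σ.commutes (u i)
  intro σ
  refine Finsupp.ext fun v => ?_
  rw [SemilinearAut.divisor_smul_apply]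
  simp only [zeros, Finsupp.add_apply, divisorOf_apply]
  have h1 := SemilinearAut.ord_smul (S.galois σ) ((S.galois σ)⁻¹ • v) (S.elem n (castVec u))
  rw [smul_inv_smul, hfix σ] at h1
  have h2 : S.pole n ((S.galois σ)⁻¹ • v) = S.pole n v := by
    rw [← SemilinearAut.divisor_smul_apply, S.isRat_pole n σ]
  omega

end Setting

end Fermat.Agent.MordellWeil
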