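import Mathlib.NumberTheory.Height.MvPolynomial
import Mathlib.NumberTheory.Height.NumberField
import Mathlib.RingTheory.Nullstellensatz
import Mathlib.Algebra.MvPolynomial.Funext
import Mathlib.FieldTheory.IsAlgClosed.AlgebraicClosure

/-!
A height machine over `ℚ`: a multihomogeneous polynomial map without zeros on a cone cut out by
polynomial equations changes logarithmic heights by a bounded amount only.
-/

set_option autoImplicit false

noncomputable section

open Height MvPolynomial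

namespace Fermat.Agent.MordellWeil

/-- A polynomial map with rational coefficients, given by its values in every ℚ-algebra. -/
structure PolyMap {α : Type} (ι : α → Type) (τ : Type) where
  eval : ∀ {A : Type} [CommRing A] [Algebra ℚ A], (∀ a, ι a → A) → τ → A
  map : ∀ {A B : Type} [CommRing A] [Algebra ℚ A] [CommRing B] [Algebra ℚ B] (φ : A →ₐ[ℚ] B)
    (x : ∀ a, ι a → A) (j : τ), φ (eval x j) = eval (fun a i => φ (x a i)) j

/-- Multihomogeneity of multidegree `d`. -/
def PolyMap.IsHom {α : Type} [Fintype α] {ι : α → Type} {τ : Type} (F : PolyMap ι τ)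
    (d : α → ℕ) : Prop :=
  ∀ {A : Type} [CommRing A] [Algebra ℚ A] (t : α → A) (x : ∀ a, ι a → A) (j : τ),
    F.eval (fun a i => t a * x a i) j = (∏ a, t a ^ d a) * F.eval x j

variable {α : Type} [Fintype α] {ι : α → Type} [∀ a, Fintype (ι a)]

/-- The underlying polynomial. -/
def PolyMap.poly {τ : Type} (F : PolyMap ι τ) (j : τ) : MvPolynomial (Σ a, ι a) ℚ :=
  F.eval (fun a i => X ⟨a, i⟩) j

omit [Fintype α] [∀ a, Fintype (ι a)] in
theorem PolyMap.aeval_poly {τ : Type} (F : PolyMap ι τ) {A : Type} [CommRing A] [Algebra ℚ A]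
    (x : ∀ a, ι a → A) (j : τ) : aeval (fun s : Σ a, ι a => x s.1 s.2) (F.poly j) = F.eval x j := by
  simp [PolyMap.poly, F.map]

/-- Scaling substitution. -/
def scaleHom (x : ∀ a, ι a → ℚ) : MvPolynomial (Σ a, ι a) ℚ →ₐ[ℚ] MvPolynomial α ℚ :=
  aeval fun s => C (x s.1 s.2) * X s.1

/-- The weight component of multidegree `e`, evaluated at `x`. -/
def component (e : α →₀ ℕ) (P : MvPolynomial (Σ a, ι a) ℚ) (x : ∀ a, ι a → ℚ) : ℚ :=
  (scaleHom x P).coeff e

omit [Fintype α] [∀ a, Fintype (ι a)] in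
theorem scaleHom_monomial (x : ∀ a, ι a → ℚ) (m : (Σ a, ι a) →₀ ℕ) (c : ℚ) :
    scaleHom x (monomial m c)
      = monomial (m.mapDomain Sigma.fst) (c * m.prod fun s n => x s.1 s.2 ^ n) := by
  induction m using Finsupp.induction generalizing c with
  | zero => simp [scaleHom]
  | single_add s n m hs hn ih =>
    classical
    rw [monomial_single_add, map_mul, ih, map_pow]
    simp only [scaleHom, aeval_X, mul_pow, ← map_pow C, X_pow_eq_monomial, C_mul_monomial,
      monomial_mul, Finsupp.mapDomain_add, Finsupp.mapDomain_single]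
    rw [Finsupp.prod_add_index_of_disjoint, Finsupp.prod_single_index (by simp)]
    · congr 1
      ring
    · exact Finset.disjoint_of_subset_left Finsupp.support_single_subset (by simpa using hs)

omit [Fintype α] [∀ a, Fintype (ι a)] in
theorem component_eq_sum [DecidableEq α] (e : α →₀ ℕ) (P : MvPolynomial (Σ a, ι a) ℚ) (x : ∀ a, ι a → ℚ) :
    component e P x = ∑ m ∈ P.support,
      if m.mapDomain Sigma.fst = e then P.coeff m * m.prod (fun s n => x s.1 s.2 ^ n) else 0 := by
  conv_lhs => rw [component, P.as_sum]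
  simp only [map_sum, coeff_sum, scaleHom_monomial, coeff_monomial]

/-- A monomial of multidegree `e` is an entry of the tensor power table. -/
theorem exists_slots (e : α →₀ ℕ) (m : (Σ a, ι a) →₀ ℕ) (hm : m.mapDomain Sigma.fst = e) :
    ∃ f : ∀ q : (Σ a, Fin (e a)), ι q.1,
      ∀ y : ∀ a, ι a → ℚ, m.prod (fun s n => y s.1 s.2 ^ n) = ∏ q, y q.1 (f q) := by
  classical
  have hcard : ∀ a, (∑ i, m ⟨a, i⟩) = e a := by
    intro a
    rw [← hm, Finsupp.mapDomain, Finsupp.sum_apply, Finsupp.sum_fintype _ _ (by simp)]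
    rw [Fintype.sum_sigma, Finset.sum_eq_single a]
    · simp
    · intro b _ hb
      simp [hb]
    · simp
  let g : ∀ a, Fin (e a) ≃ Σ i : ι a, Fin (m ⟨a, i⟩) := fun a =>
    (Fintype.equivFinOfCardEq (by rw [Fintype.card_sigma]; simpa using hcard a)).symm
  refine ⟨fun q => (g q.1 q.2).1, fun y => ?_⟩
  rw [Finsupp.prod_fintype _ _ (by simp), Fintype.prod_sigma, Fintype.prod_sigma]
  refine Finset.prod_congr rfl fun a _ => ?_
  rw [(g a).prod_comp (fun s => y a s.1), Fintype.prod_sigma]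
  simp

/-- Upper bound for the height of a component. -/
theorem exists_logHeight_component_le {τ : Type} [Finite τ] (e : α →₀ ℕ)
    (P : τ → MvPolynomial (Σ a, ι a) ℚ) :
    ∃ C : ℝ, ∀ x : ∀ a, ι a → ℚ, (∀ a, x a ≠ 0) →
      logHeight (fun j => component e (P j) x) ≤ C + ∑ a, (e a : ℝ) * logHeight (x a) := by
  classical
  by_cases hne : Nonempty (∀ q : (Σ a, Fin (e a)), ι q.1)
  swap
  · refine ⟨0, fun x hx => absurd ⟨fun q => ?_⟩ hne⟩
    exact (Function.ne_iff.mp (hx q.1)).choose
  let slot : ((Σ a, ι a) →₀ ℕ) → (∀ q : (Σ a, Fin (e a)), ι q.1) := fun m =>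
    if hm : m.mapDomain Sigma.fst = e then (exists_slots e m hm).choose
    else hne.some
  let M : τ × (∀ q : (Σ a, Fin (e a)), ι q.1) → ℚ := fun jf =>
    ∑ m ∈ (P jf.1).support,
      if m.mapDomain Sigma.fst = e ∧ slot m = jf.2 then (P jf.1).coeff m else 0
  refine ⟨Real.log ((Nat.card (∀ q : (Σ a, Fin (e a)), ι q.1) : ℝ) ^ totalWeight ℚ * mulHeight M),
    fun x hx => ?_⟩
  let z : (∀ q : (Σ a, Fin (e a)), ι q.1) → ℚ := fun f => ∏ q, x q.1 (f q)
  have hcomp : (fun j => component e (P j) x) = fun j => ∑ f, M (j, f) * z f := by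
    funext j
    simp only [component_eq_sum, M, Finset.sum_mul]
    rw [Finset.sum_comm]
    refine Finset.sum_congr rfl fun m _ => ?_
    split_ifs with hm
    · simp only [hm, true_and, ite_mul, zero_mul]
      rw [Finset.sum_ite_eq Finset.univ (slot m) (fun f => (P j).coeff m * z f)]
      simp only [Finset.mem_univ, if_true, slot, dif_pos hm, z]
      rw [(exists_slots e m hm).choose_spec x]
    · simp [hm]
  have hz : logHeight z = ∑ a, (e a : ℝ) * logHeight (x a) := by
    simp only [z]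
    rw [logHeight_fun_prod_eq (x := fun q : (Σ a, Fin (e a)) => x q.1) (fun q => hx q.1),
      Fintype.sum_sigma]
    simp
  rw [hcomp, ← hz, logHeight_eq_log_mulHeight, logHeight_eq_log_mulHeight]
  rw [← Real.log_mul (mul_ne_zero (pow_ne_zero _ (Nat.cast_ne_zero.mpr Nat.card_pos.ne')) (mulHeight_ne_zero _))
    (mulHeight_ne_zero _)]
  exact Real.log_le_log (mulHeight_pos _) (mulHeight_linearMap_apply_le M z)

omit [∀ a, Fintype (ι a)] in
theorem scaleHom_poly {τ : Type} (F : PolyMap ι τ) {d : α → ℕ} (hF : F.IsHom d) (j : τ)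
    (x : ∀ a, ι a → ℚ) :
    scaleHom x (F.poly j) = monomial (Finsupp.equivFunOnFinite.symm d) (F.eval x j) := by
  unfold scaleHom
  rw [F.aeval_poly (fun a i => C (x a i) * X a)]
  have h1 := hF (A := MvPolynomial α ℚ) (fun a => X a) (fun a i => C (x a i)) j
  simp only [mul_comm (X _)] at h1
  rw [h1]
  have h2 : F.eval (fun a i => (C (x a i) : MvPolynomial α ℚ)) j = C (F.eval x j) := by
    have h3 := F.map (Algebra.ofId ℚ (MvPolynomial α ℚ)) x j
    simp only [Algebra.ofId_apply, algebraMap_eq] at h3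
    exact h3.symm
  rw [h2, monomial_eq, Finsupp.prod_fintype _ _ (by simp), mul_comm]
  simp

/-- Upper height bound for a multihomogeneous map. -/
theorem exists_logHeight_eval_le {τ : Type} [Finite τ] (F : PolyMap ι τ) {d : α → ℕ}
    (hF : F.IsHom d) :
    ∃ C : ℝ, ∀ x : ∀ a, ι a → ℚ, (∀ a, x a ≠ 0) →
      logHeight (F.eval x) ≤ C + ∑ a, (d a : ℝ) * logHeight (x a) := by
  classical
  obtain ⟨C, hC⟩ := exists_logHeight_component_le (Finsupp.equivFunOnFinite.symm d) F.poly
  refine ⟨C, fun x hx => ?_⟩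
  have h := hC x hx
  simp only [component, scaleHom_poly F hF, coeff_monomial] at h
  simpa using h

/-- Lower height bound for a multihomogeneous map without zeros on the cone cut out by `E`. -/
theorem exists_le_logHeight_eval {τ : Type} [Fintype τ] {τ' : Type} [Fintype τ']
    (F : PolyMap ι τ) {d : α → ℕ} (hF : F.IsHom d) (E : PolyMap ι τ')
    (hcone : ∀ x : ∀ a, ι a → ℚ, E.eval x = 0 →
      ∀ t : α → ℚ, E.eval (fun a i => t a * x a i) = 0)
    (hne : ∀ x : ∀ a, ι a → AlgebraicClosure ℚ, (∀ a, x a ≠ 0) → E.eval x = 0 → F.eval x ≠ 0) :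
    ∃ C : ℝ, ∀ x : ∀ a, ι a → ℚ, (∀ a, x a ≠ 0) → E.eval x = 0 →
      ∑ a, (d a : ℝ) * logHeight (x a) - C ≤ logHeight (F.eval x) := by
  classical
  by_cases hι : Nonempty (∀ a, ι a)
  swap
  · refine ⟨0, fun x hx => absurd ⟨fun a => ?_⟩ hι⟩
    exact (Function.ne_iff.mp (hx a)).choose
  let I : Ideal (MvPolynomial (Σ a, ι a) ℚ) := Ideal.span (Set.range (Sum.elim F.poly E.poly))
  have hrad : ∀ k : ∀ a, ι a, ∏ a, X (⟨a, k a⟩ : Σ a, ι a) ∈ I.radical := by
    intro k
    rw [← vanishingIdeal_zeroLocus_eq_radical (K := AlgebraicClosure ℚ)]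
    intro y hy
    rw [map_prod]
    simp only [aeval_X]
    by_contra hne0
    rw [← ne_eq, Finset.prod_ne_zero_iff] at hne0
    have hmem : ∀ s, aeval y (Sum.elim F.poly E.poly s) = 0 := fun s =>
      hy _ (Ideal.subset_span ⟨s, rfl⟩)
    refine hne (fun a i => y ⟨a, i⟩) (fun a h => hne0 a (Finset.mem_univ a) (congrFun h (k a)))
      (funext fun j => ?_) (funext fun j => ?_)
    · rw [← E.aeval_poly]; exact hmem (Sum.inr j)
    · rw [← F.aeval_poly]; exact hmem (Sum.inl j)
  choose r hr using hrad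
  let R : ℕ := (∑ k, r k) + ∑ a, d a
  have hR : ∀ k : ∀ a, ι a, (∏ a, X (⟨a, k a⟩ : Σ a, ι a)) ^ R ∈ I := fun k =>
    I.pow_mem_of_pow_mem (hr k) (le_add_right
      (Finset.single_le_sum (fun i _ => Nat.zero_le (r i)) (Finset.mem_univ k)))
  choose cA hcA using fun k => Ideal.mem_span_range_iff_exists_fun.mp (hR k)
  let df : α →₀ ℕ := Finsupp.equivFunOnFinite.symm d
  let e : α →₀ ℕ := Finsupp.equivFunOnFinite.symm fun a => R - d a
  let Rf : α →₀ ℕ := Finsupp.equivFunOnFinite.symm fun _ => R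
  have hdR : ∀ a, d a ≤ R := fun a =>
    le_add_left (Finset.single_le_sum (fun i _ => Nat.zero_le (d i)) (Finset.mem_univ a))
  obtain ⟨Cb, hC⟩ := exists_logHeight_component_le e
    (fun kj : (∀ a, ι a) × τ => cA kj.1 (Sum.inl kj.2))
  by_cases hτ : Nonempty τ
  swap
  · refine ⟨0, fun x hx hEx => ?_⟩
    exfalso
    have hτ' : IsEmpty τ := not_nonempty_iff.mp hτ
    let φ : ℚ →ₐ[ℚ] AlgebraicClosure ℚ := Algebra.ofId ℚ _
    refine hne (fun a i => φ (x a i)) (fun a h => hx a (funext fun i => ?_))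
      (funext fun j => ?_) (Subsingleton.elim _ _)
    · exact φ.toRingHom.injective (by simpa using congrFun h i)
    · rw [← E.map, hEx]; simp
  refine ⟨Real.log ((Nat.card τ : ℝ) ^ totalWeight ℚ) + Cb, fun x hx hEx => ?_⟩
  let A : (∀ a, ι a) × τ → ℚ := fun kj => component e (cA kj.1 (Sum.inl kj.2)) x
  have hEpoly : ∀ j, scaleHom x (E.poly j) = 0 := by
    intro j
    refine MvPolynomial.funext fun t => ?_
    rw [scaleHom, E.aeval_poly (fun a i => C (x a i) * X a), map_zero]
    have h := E.map (MvPolynomial.aeval t) (fun a i => C (x a i) * X a) j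
    simp only [map_mul, aeval_C, aeval_X, Algebra.algebraMap_self, RingHom.id_apply] at h
    have h2 : MvPolynomial.eval t (E.eval (fun a i => C (x a i) * X a) j)
        = aeval t (E.eval (fun a i => C (x a i) * X a) j) := rfl
    rw [h2, h]
    simp only [mul_comm (x _ _)]
    exact congrFun (hcone x hEx t) j
  have hid : (fun k : ∀ a, ι a => ∏ a, x a (k a)) ^ R
      = fun k => ∑ j, A (k, j) * F.eval x j := by
    funext k
    have h := congrArg (scaleHom x) (hcA k)
    simp only [Fintype.sum_sum_type, map_add, map_sum, map_mul, Sum.elim_inl, Sum.elim_inr,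
      hEpoly, mul_zero, Finset.sum_const_zero, add_zero, scaleHom_poly F hF, map_pow,
      map_prod] at h
    have h' := congrArg (coeff Rf) h
    simp only [coeff_sum] at h'
    have hsplit : Rf = e + df := by
      ext a; simp [Rf, e, df, Nat.sub_add_cancel (hdR a)]
    rw [Pi.pow_apply]
    calc (∏ a, x a (k a)) ^ R
        = coeff Rf ((∏ a, scaleHom x (X (⟨a, k a⟩ : Σ a, ι a))) ^ R) := by
          simp only [scaleHom, aeval_X]
          rw [Finset.prod_mul_distrib, mul_pow, ← map_prod, ← map_pow C, coeff_C_mul,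
            ← Finset.prod_pow _ R (fun a => (X a : MvPolynomial α ℚ))]
          have : ∏ a, (X a : MvPolynomial α ℚ) ^ R = monomial Rf 1 := by
            rw [monomial_eq, Finsupp.prod_fintype _ _ (by simp)]; simp [Rf]
          erw [this, coeff_monomial]
          simp
      _ = ∑ j, A (k, j) * F.eval x j := by
          rw [← h']
          refine Finset.sum_congr rfl fun j _ => ?_
          rw [hsplit, coeff_mul_monomial]
          rfl
  have hbig : logHeight ((fun k : ∀ a, ι a => ∏ a, x a (k a)) ^ R)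
      ≤ Real.log ((Nat.card τ : ℝ) ^ totalWeight ℚ) + logHeight A + logHeight (F.eval x) := by
    rw [hid, logHeight_eq_log_mulHeight, logHeight_eq_log_mulHeight (x := A),
      logHeight_eq_log_mulHeight (x := F.eval x)]
    have h0 : ((Nat.card τ : ℝ) ^ totalWeight ℚ) ≠ 0 := pow_ne_zero _ (Nat.cast_ne_zero.mpr Nat.card_pos.ne')
    rw [← Real.log_mul h0 (mulHeight_ne_zero _),
      ← Real.log_mul (mul_ne_zero h0 (mulHeight_ne_zero _)) (mulHeight_ne_zero _)]
    exact Real.log_le_log (mulHeight_pos _) (mulHeight_linearMap_apply_le A (F.eval x))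
  rw [logHeight_pow, logHeight_fun_prod_eq hx] at hbig
  have hA := hC x hx
  have hsum : ∑ a, (e a : ℝ) * logHeight (x a)
      = (R : ℝ) * ∑ a, logHeight (x a) - ∑ a, (d a : ℝ) * logHeight (x a) := by
    rw [Finset.mul_sum, ← Finset.sum_sub_distrib]
    refine Finset.sum_congr rfl fun a _ => ?_
    simp only [e, Finsupp.coe_equivFunOnFinite_symm, Nat.cast_sub (hdR a)]
    ring
  rw [hsum] at hA
  linarith

/-- The machine: two-sided bound. -/
theorem exists_abs_logHeight_eval_sub_le {τ : Type} [Fintype τ] {τ' : Type} [Fintype τ']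
    (F : PolyMap ι τ) {d : α → ℕ} (hF : F.IsHom d) (E : PolyMap ι τ')
    (hcone : ∀ x : ∀ a, ι a → ℚ, E.eval x = 0 →
      ∀ t : α → ℚ, E.eval (fun a i => t a * x a i) = 0)
    (hne : ∀ x : ∀ a, ι a → AlgebraicClosure ℚ, (∀ a, x a ≠ 0) → E.eval x = 0 → F.eval x ≠ 0) :
    ∃ C : ℝ, ∀ x : ∀ a, ι a → ℚ, (∀ a, x a ≠ 0) → E.eval x = 0 →
      |logHeight (F.eval x) - ∑ a, (d a : ℝ) * logHeight (x a)| ≤ C := by
  obtain ⟨C₁, h₁⟩ := exists_logHeight_eval_le F hF
  obtain ⟨C₂, h₂⟩ := exists_le_logHeight_eval F hF E hcone hne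
  refine ⟨max C₁ C₂, fun x hx hE => abs_le.mpr ⟨?_, ?_⟩⟩
  · linarith [h₂ x hx hE, le_max_right C₁ C₂]
  · linarith [h₁ x hx, le_max_left C₁ C₂]

end Fermat.Agent.MordellWeil
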