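import Fermat.Agent.MordellWeil.Base
import Fermat.Agent.MordellWeil.Machine
import Mathlib.LinearAlgebra.Dual.Lemmas
import Mathlib.Algebra.Polynomial.Roots
import Mathlib.Algebra.Module.Projective

/-!
Polynomial building blocks on Plücker vectors: linear families of members of a subspace, triple
products, and the equation "a product lies in `w · L(m ∞)`".
-/

set_option autoImplicit false
set_option linter.unusedSectionVars false

noncomputable section

open AlgebraicCurve Fermat.Agent.Curve

namespace Fermat.Agent.MordellWeil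

local notation "ℚ̄" => AlgebraicClosure ℚ

section Fam

variable {ι : Type} [Fintype ι] {M : ℕ} {A : Type} [CommRing A]

/-- The number of slot vectors. -/
abbrev slotCount (ι : Type) [Fintype ι] (M : ℕ) : ℕ := Fintype.card ((Fin M → ι) × Fin M)

/-- A one-parameter linear family of members of the subspace of a Plücker vector. -/
def fam (p : (Fin M → ι) → A) (c : A) : ι → A :=
  ∑ k : (Fin M → ι) × Fin M,
    c ^ (Fintype.equivFin ((Fin M → ι) × Fin M) k : ℕ) • slot p k.1 k.2

theorem map_fam {B : Type} [CommRing B] (φ : A →+* B) (p : (Fin M → ι) → A) (c : A) (i : ι) :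
    φ (fam p c i) = fam (fun J => φ (p J)) (φ c) i := by
  simp [fam, Finset.sum_apply, slot]

theorem fam_smul (t : A) (p : (Fin M → ι) → A) (c : A) : fam (t • p) c = t • fam p c := by
  simp only [fam, slot_smul, Finset.smul_sum, smul_smul, mul_comm]

theorem fam_mem {K : Type} [Field K] (p : (Fin M → ι) → K) (c : K) :
    fam p c ∈ plSpan p :=
  Submodule.sum_mem _ fun k _ => Submodule.smul_mem _ _ (Submodule.subset_span ⟨k, rfl⟩)

end Fam

/-- `slot` commutes with maps. -/
theorem map_slot {m ι : Type} [DecidableEq m] {A B : Type} [CommRing A] [CommRing B]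
    (φ : A →+* B) (p : (m → ι) → A) (J : m → ι) (t : m) (i : ι) :
    φ (slot p J t i) = slot (fun J => φ (p J)) J t i := rfl

variable {F : Type} [Field F] [Algebra ℚ̄ F] [IsFunctionField1 ℚ̄ F]

namespace Setting

variable (S : Setting F)

/-- A unit vector. -/
def unitVec {A : Type} [CommRing A] {n : ℕ} (i : S.Coord n) : S.Coord n → A := Pi.single i 1

theorem map_unitVec {A B : Type} [CommRing A] [CommRing B] (φ : A →+* B) {n : ℕ}
    (i j : S.Coord n) : φ (S.unitVec (A := A) i j) = S.unitVec (A := B) i j := by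
  simp [unitVec, Pi.single_apply, apply_ite φ]

theorem elem_unitVec {n : ℕ} (i : S.Coord n) :
    S.elem n (S.unitVec i) = (S.basis n i : F) := by
  rw [elem_eq_sum, Finset.sum_eq_single i]
  · simp [unitVec]
  · intro j _ hj
    simp [unitVec, hj]
  · simp

theorem span_unitVec (n : ℕ) :
    Submodule.span ℚ̄ (Set.range fun i : S.Coord n => (S.unitVec i : S.Coord n → ℚ̄)) = ⊤ := by
  rw [← (Pi.basisFun ℚ̄ (S.Coord n)).span_eq]
  congr
  funext i
  simp [unitVec]

/-- The product of three coordinate vectors. -/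
def tri {A : Type} [CommRing A] [Algebra ℚ A] {a b s T : ℕ} (h : a + b + s ≤ T)
    (x : S.Coord a → A) (y : S.Coord b → A) (z : S.Coord s → A) : S.Coord T → A :=
  S.mulVec (c := T) h (S.mulVec (le_refl (a + b)) x y) z

theorem elem_tri {a b s T : ℕ} (h : a + b + s ≤ T) (x : S.Coord a → ℚ̄) (y : S.Coord b → ℚ̄)
    (z : S.Coord s → ℚ̄) :
    S.elem T (S.tri h x y z) = S.elem a x * S.elem b y * S.elem s z := by
  rw [tri, elem_mulVec, elem_mulVec]

theorem map_tri {A B : Type} [CommRing A] [Algebra ℚ A] [CommRing B] [Algebra ℚ B]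
    (φ : A →ₐ[ℚ] B) {a b s T : ℕ} (h : a + b + s ≤ T) (x : S.Coord a → A) (y : S.Coord b → A)
    (z : S.Coord s → A) (k : S.Coord T) :
    φ (S.tri h x y z k) = S.tri h (φ ∘ x) (φ ∘ y) (φ ∘ z) k := by
  rw [tri, map_mulVec, tri]
  congr 1
  funext j
  exact S.map_mulVec φ _ x y j

theorem tri_smul {A : Type} [CommRing A] [Algebra ℚ A] {a b s T : ℕ} (h : a + b + s ≤ T) (t u : A)
    (x : S.Coord a → A) (y : S.Coord b → A) (z : S.Coord s → A) :
    S.tri h (t • x) (u • y) z = (t * u) • S.tri h x y z := by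
  rw [tri, tri, mulVec_smul_left, mulVec_smul_right, mulVec_smul_left, mulVec_smul_left, smul_smul]

theorem tri_smul_last {A : Type} [CommRing A] [Algebra ℚ A] {a b s T : ℕ} (h : a + b + s ≤ T)
    (t : A) (x : S.Coord a → A) (y : S.Coord b → A) (z : S.Coord s → A) :
    S.tri h x y (t • z) = t • S.tri h x y z := by
  rw [tri, tri, mulVec_smul_right]

/-- "`P` lies in `w · L(m ∞)`", as polynomial equations. -/
def prodEq {A : Type} [CommRing A] [Algebra ℚ A] {n m c : ℕ} (h : n + m ≤ c)
    (P : S.Coord c → A) (w : S.Coord n → A) : (Option (S.Coord m) → S.Coord c) → A :=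
  minors fun o : Option (S.Coord m) => o.elim P fun j => S.mulVec h w (S.unitVec j)

theorem map_prodEq {A B : Type} [CommRing A] [Algebra ℚ A] [CommRing B] [Algebra ℚ B]
    (φ : A →ₐ[ℚ] B) {n m c : ℕ} (h : n + m ≤ c) (P : S.Coord c → A) (w : S.Coord n → A)
    (J : Option (S.Coord m) → S.Coord c) :
    φ (S.prodEq h P w J) = S.prodEq h (φ ∘ P) (φ ∘ w) J := by
  have h1 := minors_map (φ : A →+* B)
    (fun o : Option (S.Coord m) => o.elim P fun j => S.mulVec h w (S.unitVec j)) J
  refine h1.trans ?_
  unfold prodEq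
  congr 1
  funext o k
  rcases o with _ | j
  · rfl
  · show φ (S.mulVec h w (S.unitVec j) k) = _
    rw [map_mulVec]
    show S.mulVec h (φ ∘ w) (φ ∘ S.unitVec j) k = S.mulVec h (φ ∘ w) (S.unitVec j) k
    congr 1
    funext i
    exact S.map_unitVec (φ : A →+* B) j i

theorem prodEq_smul {A : Type} [CommRing A] [Algebra ℚ A] {n m c : ℕ} (h : n + m ≤ c) (s t : A)
    (P : S.Coord c → A) (w : S.Coord n → A) :
    S.prodEq h (s • P) (t • w) =
      (s * t ^ Fintype.card (S.Coord m)) • S.prodEq h P w := by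
  funext J
  have hrows : (fun o : Option (S.Coord m) =>
      o.elim (s • P) fun j => S.mulVec h (t • w) (S.unitVec j))
      = fun o => (o.elim s fun _ => t : A) •
          (o.elim P fun j => S.mulVec h w (S.unitVec j)) := by
    funext o
    rcases o with _ | j
    · rfl
    · exact S.mulVec_smul_left h t w (S.unitVec j)
  rw [prodEq, hrows, minors_smul_rows, Fintype.prod_option]
  simp [prodEq]

theorem prodEq_eq_zero_iff {n m c : ℕ} (h : n + m ≤ c) (P : S.Coord c → ℚ̄)
    {w : S.Coord n → ℚ̄} (hw : w ≠ 0) :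
    S.prodEq h P w = 0 ↔
      ∃ f ∈ riemannRochSpace (S.pole m), S.elem c P = S.elem n w * f := by
  let μ : (S.Coord m → ℚ̄) →ₗ[ℚ̄] F := (LinearMap.mulLeft ℚ̄ (S.elem n w)).comp (S.elem m)
  have hμ : Function.Injective μ :=
    (mul_right_injective₀ (S.elem_ne_zero hw)).comp (S.elem_injective m)
  have hrow : ∀ j, S.elem c (S.mulVec h w (S.unitVec j)) = μ (S.unitVec j) := fun j =>
    S.elem_mulVec h w _
  have hunit : LinearIndependent ℚ̄ fun j : S.Coord m => (S.unitVec j : S.Coord m → ℚ̄) := by
    have : (fun j : S.Coord m => (S.unitVec j : S.Coord m → ℚ̄)) = Pi.basisFun ℚ̄ (S.Coord m) := by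
      funext j; simp [unitVec]
    rw [this]; exact (Pi.basisFun ℚ̄ (S.Coord m)).linearIndependent
  have hli : LinearIndependent ℚ̄ fun j => S.mulVec h w (S.unitVec j) := by
    refine LinearIndependent.of_comp (S.elem c) ?_
    rw [show (⇑(S.elem c) ∘ fun j => S.mulVec h w (S.unitVec j)) = ⇑μ ∘ fun j => S.unitVec j from
      funext hrow]
    exact hunit.map' μ (LinearMap.ker_eq_bot.mpr hμ)
  rw [prodEq, minors_option_eq_zero_iff hli]
  constructor
  · intro hP
    obtain ⟨r, hr⟩ := (Submodule.mem_span_range_iff_exists_fun ℚ̄).mp hP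
    refine ⟨S.elem m r, S.elem_mem m r, ?_⟩
    rw [← hr, map_sum]
    have : r = ∑ j, r j • (S.unitVec j : S.Coord m → ℚ̄) := by
      funext k; simp [unitVec, Pi.single_apply]
    conv_rhs => rw [this, map_sum, Finset.mul_sum]
    refine Finset.sum_congr rfl fun j _ => ?_
    rw [map_smul, map_smul, hrow, mul_smul_comm]
    rfl
  · rintro ⟨f, hf, hP⟩
    obtain ⟨r, rfl⟩ := (S.range_elem m).symm ▸ hf
    have : P = S.mulVec h w r := S.elem_injective c (by rw [hP, elem_mulVec])
    have hr : r = ∑ j, r j • (S.unitVec j : S.Coord m → ℚ̄) := by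
      funext k; simp [unitVec, Pi.single_apply]
    have hP' : P = ∑ j, r j • S.mulVec h w (S.unitVec j) := by
      refine S.elem_injective c ?_
      rw [hP, map_sum]
      conv_lhs => rw [hr, map_sum, Finset.mul_sum]
      refine Finset.sum_congr rfl fun j _ => ?_
      rw [map_smul, map_smul, hrow, mul_smul_comm]
      rfl
    rw [hP']
    exact Submodule.sum_mem _ fun j _ => Submodule.smul_mem _ _ (Submodule.subset_span ⟨j, rfl⟩)

/-- A complete space in the stable range attains its divisor everywhere. -/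
theorem exists_attains {a d : ℕ} {A : Divisor ℚ̄ F} (hA : 0 ≤ A)
    (hd : Divisor.degree A = (d : ℤ)) (h : d + 1 + S.bound ≤ a) (v : Place ℚ̄ F) :
    ∃ f ∈ riemannRochSpace (S.pole a - A), f ≠ 0 ∧ v.ord f + S.pole a v = A v := by
  have hdim : Module.finrank ℚ̄ (riemannRochSpace (S.pole a - A)) = S.spaceDim a d :=
    S.ell_pole_sub hd (by omega)
  have hle : riemannRochSpace (S.pole a - A) ≤ riemannRochSpace (S.pole a) :=
    riemannRochSpace_mono (sub_le_self _ hA)
  obtain ⟨B, hB0, hB, hat⟩ := S.exists_base hle (S.ne_bot_of_finrank hdim (by omega))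
  have hdB := S.degree_base_le hB0 hB hdim h
  have hAB : A ≤ B := fun u => by
    obtain ⟨f, hf, hf0, hfu⟩ := hat u
    have := (mem_sub_iff hf0).mp hf u
    omega
  obtain rfl := eq_of_le_of_degree_le hAB (by omega)
  exact hat v

/-- Some member of the family has exact order at finitely many given places. -/
theorem exists_fam_exact {a d M : ℕ} {p : (Fin M → S.Coord a) → ℚ̄}
    {A : Divisor ℚ̄ F} (hA : 0 ≤ A) (hd : Divisor.degree A = (d : ℤ)) (h : d + 1 + S.bound ≤ a)
    (hp : (plSpan p).map (S.elem a) = riemannRochSpace (S.pole a - A))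
    (s : Finset (Place ℚ̄ F)) {N : ℕ} (hN : (s.card + 1) * slotCount (S.Coord a) M ≤ N) :
    ∃ c : Fin (N + 1), S.elem a (fam p ((c : ℕ) : ℚ̄)) ≠ 0 ∧
      ∀ v ∈ s, v.ord (S.elem a (fam p ((c : ℕ) : ℚ̄))) + S.pole a v = A v := by
  classical
  set κ := (Fin M → S.Coord a) × Fin M
  have hkey : ∀ v : Place ℚ̄ F, ∃ P : Polynomial ℚ̄, P ≠ 0 ∧ P.natDegree ≤ slotCount (S.Coord a) M ∧
      ∀ c : ℚ̄, P.eval c ≠ 0 → S.elem a (fam p c) ≠ 0 ∧
        v.ord (S.elem a (fam p c)) + S.pole a v = A v := by
    intro v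
    set sub := riemannRochSpace (S.pole a - (A + Finsupp.single v 1)) with hsub
    obtain ⟨f, hf, hf0, hfv⟩ := S.exists_attains hA hd h v
    have hfsub : f ∉ sub := fun hmem => by
      have := (mem_sub_iff hf0).mp hmem v
      rw [Finsupp.add_apply, Finsupp.single_eq_same] at this
      omega
    obtain ⟨k, hk⟩ : ∃ k : κ, S.elem a (slot p k.1 k.2) ∉ sub := by
      by_contra hall
      refine hfsub ((hp.symm.trans_le ?_) hf)
      rw [Submodule.map_le_iff_le_comap]
      exact Submodule.span_le.mpr (by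
        rintro _ ⟨k, rfl⟩
        exact not_not.mp fun hk => hall ⟨k, hk⟩)
    obtain ⟨φ, hφk, hφ⟩ := Submodule.exists_dual_map_eq_bot_of_notMem hk inferInstance
    let P : Polynomial ℚ̄ := ∑ j : κ, Polynomial.C (φ (S.elem a (slot p j.1 j.2))) *
      Polynomial.X ^ (Fintype.equivFin κ j : ℕ)
    have hcoeff : P.coeff (Fintype.equivFin κ k : ℕ) = φ (S.elem a (slot p k.1 k.2)) := by
      simp only [P, Polynomial.finsetSum_coeff, Polynomial.coeff_C_mul, Polynomial.coeff_X_pow,
        Fin.val_inj, (Fintype.equivFin κ).injective.eq_iff, mul_ite, mul_one, mul_zero]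
      rw [Finset.sum_ite_eq Finset.univ k, if_pos (Finset.mem_univ k)]
    refine ⟨P, fun h0 => hφk (by rw [← hcoeff, h0, Polynomial.coeff_zero]), ?_, fun c hc => ?_⟩
    · refine (Polynomial.natDegree_sum_le_of_forall_le _ _ fun j _ => ?_)
      exact (Polynomial.natDegree_C_mul_X_pow_le _ _).trans (Fintype.equivFin κ j).isLt.le
    · have hval : φ (S.elem a (fam p c)) = P.eval c := by
        simp only [fam, map_sum, map_smul, smul_eq_mul, P, Polynomial.eval_finsetSum,
          Polynomial.eval_mul, Polynomial.eval_C, Polynomial.eval_pow, Polynomial.eval_X]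
        exact Finset.sum_congr rfl fun j _ => mul_comm _ _
      have hne : S.elem a (fam p c) ≠ 0 := fun h0 => hc (by rw [← hval, h0, map_zero])
      refine ⟨hne, ?_⟩
      have hmem : S.elem a (fam p c) ∈ riemannRochSpace (S.pole a - A) :=
        hp ▸ Submodule.mem_map_of_mem (fam_mem p c)
      have hge := (mem_sub_iff hne).mp hmem
      by_contra hne'
      refine hc ?_
      rw [← hval]
      have : S.elem a (fam p c) ∈ sub := (mem_sub_iff hne).mpr fun u => by
        rw [Finsupp.add_apply]
        rcases eq_or_ne u v with rfl | hu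
        · have := hge u
          rw [Finsupp.single_eq_same]
          omega
        · rw [Finsupp.single_eq_of_ne hu, add_zero]
          exact hge u
      have := Submodule.mem_map_of_mem (f := φ) this
      rw [hφ] at this
      exact this
  choose P hP0 hPdeg hP using hkey
  let s' := insert S.infty s
  let bad : Finset ℚ̄ := s'.biUnion fun v => (P v).roots.toFinset
  have hbad : bad.card ≤ N := by
    refine Finset.card_biUnion_le.trans ((Finset.sum_le_sum fun v _ =>
      ((P v).roots.toFinset_card_le.trans (Polynomial.card_roots' (P v))).trans (hPdeg v)).trans ?_)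
    rw [Finset.sum_const, smul_eq_mul]
    refine le_trans ?_ hN
    exact Nat.mul_le_mul_right _ (Finset.card_insert_le _ _)
  obtain ⟨c, hc⟩ : ∃ c : Fin (N + 1), ((c : ℕ) : ℚ̄) ∉ bad := by
    by_contra hall
    push Not at hall
    have := Finset.card_le_card_of_injOn (s := (Finset.univ : Finset (Fin (N + 1))))
      (fun c => ((c : ℕ) : ℚ̄)) (fun c _ => hall c)
      (fun c _ c' _ hcc => Fin.ext (Nat.cast_injective hcc))
    simp at this
    omega
  have hev : ∀ v ∈ s', (P v).eval ((c : ℕ) : ℚ̄) ≠ 0 := fun v hv h0 => hc (Finset.mem_biUnion.mpr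
    ⟨v, hv, Multiset.mem_toFinset.mpr ((Polynomial.mem_roots (hP0 v)).mpr h0)⟩)
  exact ⟨c, (hP _ _ (hev _ (Finset.mem_insert_self _ _))).1,
    fun v hv => (hP v _ (hev v (Finset.mem_insert_of_mem hv))).2⟩

end Setting

end Fermat.Agent.MordellWeil
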