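import Fermat.Agent.MordellWeil.WeakDescent
import Fermat.Agent.EichlerShimura.FiniteLevel
import Fermat.Agent.Reduction.Galois
import Fermat.Agent.Reduction.WeakRiemann

/-!
# Weak Mordell–Weil for `J₀(N)` over `ℚ`

From two-divisibility, finiteness of the points of order two and good reduction away from `m`.
-/

set_option autoImplicit false

noncomputable section

open AlgebraicCurve ModularCurve

namespace Fermat.Agent.MordellWeil

/-- `Γ` abbreviates the absolute Galois group of `ℚ`. -/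
local notation "Γ" => (AlgebraicClosure ℚ ≃ₐ[ℚ] AlgebraicClosure ℚ)

/-- Good reduction at all places above `ℓ`: reduction exists and is injective on `2`-torsion. -/
def GoodReductionTwo (N ℓ : ℕ) : Prop :=
  ∀ A : ValuationSubring (AlgebraicClosure ℚ), A.LiesOverPrime ℓ →
    ReductionInputsModL A N ∧
      ∀ z : JZero N, 2 • z = 0 → reductionModL A N z = 0 → z = 0

variable (N : ℕ) [NeZero N]
  [Curve.IsFunctionField1 (AlgebraicClosure ℚ) (modularFunctionFieldBar N)]

/-- Points of `J₀(N)(ℚ̄)` have open stabilisers. -/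
theorem isOpen_stabilizer_jZero (x : JZero N) :
    IsOpen (MulAction.stabilizer Γ x : Set Γ) := by
  obtain ⟨L, hL, hLx⟩ := EichlerShimura.galoisFiniteLevel N x
  exact Subgroup.isOpen_mono (H₁ := L.fixingSubgroup)
    (fun σ hσ => MulAction.mem_stabilizer_iff.2 (hLx σ fun a ha => hσ ⟨a, ha⟩))
    (IntermediateField.fixingSubgroup_isOpen L)

omit [NeZero N] in
/-- Inertia at a prime of good reduction fixes the halves of rational points. -/
theorem inertia_smul_half {ℓ : ℕ} (hgood : GoodReductionTwo N ℓ)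
    (A : ValuationSubring (AlgebraicClosure ℚ)) (hA : A.LiesOverPrime ℓ) {σ : Γ}
    (hσ : σ ∈ A.inertiaSubgroupIn ℚ) {y : JZero N} (hy : ∀ τ : Γ, τ • (2 • y) = 2 • y) :
    σ • y = y := by
  obtain ⟨hin, hinj⟩ := hgood A hA
  refine sub_eq_zero.1 (hinj _ ?_ ?_)
  · have h2 : 2 • (σ • y) = 2 • y :=
      ((DistribSMul.toAddMonoidHom (JZero N) σ).map_nsmul 2 y).symm.trans (hy σ)
    rw [nsmul_sub, h2, sub_self]
  · rw [map_sub, Reduction.reductionModL_inertia_smul A Reduction.one_le_deg
      Reduction.weakRiemann hin hσ y, sub_self]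

/-- **Weak Mordell–Weil** for `J₀(N)` over `ℚ`. -/
theorem finiteIndex_two_fixedPoints_of (hdiv : ∀ x : JZero N, ∃ y : JZero N, 2 • y = x)
    (hfin : {x : JZero N | 2 • x = 0}.Finite) {m : ℕ} (hm : m ≠ 0)
    (hgood : ∀ ℓ : ℕ, ℓ.Prime → ¬ ℓ ∣ m → GoodReductionTwo N ℓ) :
    (nsmulAddMonoidHom (α := ↥(FixedPoints.addSubgroup Γ (JZero N))) 2).range.FiniteIndex :=
  finiteIndex_two_of_unramified (isOpen_stabilizer_jZero N) hdiv hfin hm
    fun ℓ hℓ hℓm A hA _σ hσ _y hy => inertia_smul_half N (hgood ℓ hℓ hℓm) A hA hσ hy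

end Fermat.Agent.MordellWeil
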