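import Fermat.Agent.MordellWeil.Witness
import Fermat.Agent.MordellWeil.MultDet

/-!
Shifting a divisor by the zeros of a rational function: the height of `L(L ∞ - Z(u) - D)` is that
of `L(L₀ ∞ - D)` plus a fixed multiple of the height of `u`, up to a bounded amount.
-/

set_option autoImplicit false
set_option linter.unusedSectionVars false

noncomputable section

open AlgebraicCurve Fermat.Agent.Curve Height

namespace Fermat.Agent.MordellWeil

local notation "ℚ̄" => AlgebraicClosure ℚ

/-- Minors of linear images of the slot vectors of a multiple of a minors vector. -/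
theorem minors_map_slot_minors {m ι κ : Type} [Fintype m] [DecidableEq m] {A : Type} [CommRing A]
    (T : (ι → A) →ₗ[A] (κ → A)) (c : A) (B : m → ι → A) (J : m → ι) :
    minors (fun t => T (slot (c • minors B) J t))
      = (c ^ Fintype.card m * minors B J ^ (Fintype.card m - 1)) •
          minors (fun r => T (B r)) := by
  simp only [slot_smul, slot_minors, map_smul, map_sum]
  rw [minors_smul, minors_mul, Matrix.det_adjugate, smul_smul]
  rfl

/-- Heights of rational tuples proportional over `ℚ̄` agree. -/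
theorem logHeight_eq_of_castVec_smul {σ : Type} [Finite σ] {x y : σ → ℚ} {k : ℚ̄} (hk : k ≠ 0)
    (h : castVec x = k • castVec y) : logHeight x = logHeight y := by
  rcases eq_or_ne y 0 with rfl | hy
  · congr 1
    refine castVec_injective (h.trans ?_)
    funext J
    simp [castVec]
  obtain ⟨J, hJ⟩ := Function.ne_iff.mp hy
  have hkJ : k = algebraMap ℚ ℚ̄ (x J / y J) := by
    rw [map_div₀, show algebraMap ℚ ℚ̄ (x J) = k * algebraMap ℚ ℚ̄ (y J) from congrFun h J,
      mul_div_cancel_right₀]
    simpa using hJ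
  have hxy : x = (x J / y J) • y := castVec_injective <| by
    rw [h, hkJ]
    funext I
    simp [castVec]
  rw [hxy, logHeight_smul_eq_logHeight]
  intro h0
  exact hk (by rw [hkJ, h0, map_zero])

variable {F : Type} [Field F] [Algebra ℚ̄ F] [IsFunctionField1 ℚ̄ F]

namespace Setting

variable (S : Setting F)

/-- Multiplication by a nonzero vector is injective. -/
theorem mulL_injective {n m c : ℕ} (h : n + m ≤ c) {x : S.Coord n → ℚ̄} (hx : x ≠ 0) :
    Function.Injective (S.mulL h x) := fun y y' he => S.elem_injective m <| by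
  have h1 : S.elem c (S.mulVec h x y) = S.elem c (S.mulVec h x y') := congrArg _ he
  rw [elem_mulVec, elem_mulVec] at h1
  exact mul_left_cancel₀ (S.elem_ne_zero hx) h1

/-- The index types of the shift map. -/
abbrev shiftIdx (n L0 M : ℕ) : Bool → Type
  | true => Fin M → S.Coord L0
  | false => S.Coord n

instance fintypeShiftIdx (n L0 M : ℕ) : ∀ b, Fintype (S.shiftIdx n L0 M b)
  | true => inferInstanceAs (Fintype (Fin M → S.Coord L0))
  | false => inferInstanceAs (Fintype (S.Coord n))

/-- Minors of the rows `u · slot p J₀`. -/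
def shiftMap {n L0 L M : ℕ} (h : n + L0 ≤ L) :
    PolyMap (S.shiftIdx n L0 M) ((Fin M → S.Coord L0) × (Fin M → S.Coord L)) where
  eval {A} _ _ x J := minors (fun t => S.mulVec h (x false : S.Coord n → A)
    (slot (x true : (Fin M → S.Coord L0) → A) J.1 t)) J.2
  map {A B} _ _ _ _ φ x J := by
    refine (minors_map (φ : A →+* B) _ J.2).trans ?_
    congr 1
    funext t k
    exact S.map_mulVec φ h _ _ k

/-- The equations of decomposable vectors on the first block. -/
def shiftCone {n L0 M : ℕ} :
    PolyMap (S.shiftIdx n L0 M) ((Fin M → S.Coord L0) × (Fin M → S.Coord L0)) where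
  eval {A} _ _ x := decomp (x true : (Fin M → S.Coord L0) → A)
  map {A B} _ _ _ _ φ x J := decomp_map (φ : A →+* B) _ J

theorem shiftMap_isHom {n L0 L M : ℕ} (h : n + L0 ≤ L) :
    (S.shiftMap (M := M) h).IsHom fun _ => M := by
  intro A _ _ t x J
  have hrows : (fun r => S.mulVec h (t false • (x false : S.Coord n → A))
      (slot (t true • (x true : (Fin M → S.Coord L0) → A)) J.1 r))
      = fun r => (t false * t true) •
          S.mulVec h (x false : S.Coord n → A) (slot (x true : (Fin M → S.Coord L0) → A) J.1 r) := by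
    funext r
    rw [slot_smul, mulVec_smul_left, mulVec_smul_right, smul_smul]
  show minors (fun r => S.mulVec h (t false • (x false : S.Coord n → A))
    (slot (t true • (x true : (Fin M → S.Coord L0) → A)) J.1 r)) J.2 = _
  rw [hrows, minors_smul, Pi.smul_apply, Fintype.card_fin, smul_eq_mul, Fintype.prod_bool,
    mul_pow, mul_comm (t false ^ M)]
  rfl

/-- **Shift.** -/
theorem exists_height_shift {n L0 L d : ℕ} (hL : L0 + n = L) (hd : d + 1 + S.bound ≤ L0) :
    ∃ K : ℝ, ∀ (D : Divisor ℚ̄ F) (u : S.Coord n → ℚ), 0 ≤ D → S.IsRat D →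
      Divisor.degree D = (d : ℤ) → castVec u ≠ 0 →
      |S.height L (S.zeros n (castVec u) + D) - S.height L0 D
        - (S.spaceDim L0 d : ℝ) * logHeight u| ≤ K := by
  have h : n + L0 ≤ L := by omega
  have hb : S.genus < S.bound := by simp [Setting.genus, Setting.bound]
  set M := S.spaceDim L0 d with hMdef
  have hM : 0 < M := by rw [hMdef, Setting.spaceDim]; omega
  obtain ⟨C, hC⟩ := exists_abs_logHeight_eval_sub_le (S.shiftMap (M := M) h) (S.shiftMap_isHom h)
    (S.shiftCone (n := n) (L0 := L0) (M := M))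
    (fun x hx t => by
      show decomp (t true • (x true : (Fin M → S.Coord L0) → ℚ)) = 0
      rw [decomp_smul, show decomp (x true : (Fin M → S.Coord L0) → ℚ) = 0 from hx, smul_zero])
    (fun x hx hE => by
      obtain ⟨B, c, hB, hc, hp⟩ := IsPlucker.exists_eq
        (p := (x true : (Fin M → S.Coord L0) → ℚ̄)) ⟨hx true, hE⟩
      have hR : LinearIndependent ℚ̄ fun r => S.mulL h (x false : S.Coord n → ℚ̄) (B r) :=
        hB.map' (S.mulL h (x false : S.Coord n → ℚ̄))
          (LinearMap.ker_eq_bot.mpr (S.mulL_injective h (hx false)))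
      obtain ⟨J0, hJ0⟩ := Function.ne_iff.mp (minors_ne_zero B hB)
      obtain ⟨J, hJ⟩ := Function.ne_iff.mp (minors_ne_zero _ hR)
      refine Function.ne_iff.mpr ⟨(J0, J), ?_⟩
      show minors (fun t => S.mulL h (x false : S.Coord n → ℚ̄)
        (slot (x true : (Fin M → S.Coord L0) → ℚ̄) J0 t)) J ≠ 0
      rw [hp, minors_map_slot_minors, Pi.smul_apply, smul_eq_mul]
      exact mul_ne_zero (mul_ne_zero (pow_ne_zero _ hc) (pow_ne_zero _ hJ0)) hJ)
  refine ⟨C, fun D u hD hr hdeg hu => ?_⟩
  obtain ⟨p, hp, hhp⟩ := S.exists_isRep_space hD hr hdeg (show d + S.bound ≤ L0 by omega)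
  set Z := S.zeros n (castVec u) with hZ
  have hZD : 0 ≤ Z + D := add_nonneg (S.zeros_nonneg hu) hD
  have hfin : Module.finrank ℚ̄ (S.space L (Z + D)) = M := by
    rw [S.finrank_space_eq (d := n + d) hZD
      (by rw [map_add, S.degree_zeros, hdeg]; push_cast; rfl) (by omega), hMdef]
    simp only [Setting.spaceDim]
    omega
  obtain ⟨q, hq⟩ := exists_isRep (S.space L (Z + D))
    (fun σ x hx => S.space_stable L (IsRat.add S (S.isRat_zeros n u) hr) σ hx) hfin
  obtain ⟨B, c, hB, hc, hpB⟩ := hp.1.exists_eq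
  have hspan : Submodule.span ℚ̄ (Set.range B) = S.space L0 D := by
    rw [← hp.2, hpB, plSpan_smul _ hc, plSpan_minors hB]
  let R : Fin M → S.Coord L → ℚ̄ := fun r => S.mulL h (castVec u) (B r)
  have hR : LinearIndependent ℚ̄ R :=
    hB.map' (S.mulL h (castVec u)) (LinearMap.ker_eq_bot.mpr (S.mulL_injective h hu))
  have huZ : castVec u ∈ S.space n Z := by
    rw [mem_space_iff, mem_sub_iff (S.elem_ne_zero hu)]
    intro v
    simp only [hZ, Setting.zeros, Finsupp.add_apply, divisorOf_apply]
    exact le_rfl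
  have hRspan : Submodule.span ℚ̄ (Set.range R) = S.space L (Z + D) := by
    refine Submodule.eq_of_le_of_finrank_le (Submodule.span_le.mpr ?_) ?_
    · rintro _ ⟨r, rfl⟩
      exact S.mulVec_mem_space h huZ (hspan ▸ Submodule.subset_span ⟨r, rfl⟩)
    · rw [hfin, finrank_span_eq_card hR, Fintype.card_fin]
  obtain ⟨k, hk, hqR⟩ := hq.1.eq_smul_of_plSpan_eq (isPlucker_minors hR)
    (by rw [hq.2, plSpan_minors hR, hRspan])
  let x : ∀ b, S.shiftIdx n L0 M b → ℚ := fun b => match b with
    | true => p
    | false => u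
  have hu' : u ≠ 0 := fun h0 => hu (by funext i; simp [h0, castVec])
  have hbound := hC x (fun b => match b with | true => hp.ne_zero | false => hu')
    (by
      funext J
      refine (algebraMap ℚ ℚ̄).injective ?_
      rw [Pi.zero_apply, map_zero]
      exact (decomp_map (algebraMap ℚ ℚ̄) p J).trans (congrFun hp.1.2 J))
  have hval : castVec ((S.shiftMap h).eval x)
      = (c * k⁻¹) • castVec (fun J : (Fin M → S.Coord L0) × (Fin M → S.Coord L) =>
          (p ^ (M - 1)) J.1 * q J.2) := by
    funext J
    refine ((S.shiftMap h).map (Algebra.ofId ℚ ℚ̄) x J).trans ?_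
    show minors (fun t => S.mulL h (castVec u) (slot (castVec p) J.1 t)) J.2 = _
    rw [hpB, minors_map_slot_minors, Fintype.card_fin]
    have hpJ : algebraMap ℚ ℚ̄ (p J.1) = c * minors B J.1 := congrFun hpB J.1
    have hqJ : algebraMap ℚ ℚ̄ (q J.2) = k * minors R J.2 := congrFun hqR J.2
    show c ^ M * minors B J.1 ^ (M - 1) * minors R J.2 =
      c * k⁻¹ * algebraMap ℚ ℚ̄ (p J.1 ^ (M - 1) * q J.2)
    rw [map_mul, map_pow, hpJ, hqJ, mul_pow]
    conv_lhs => rw [show c ^ M = c * c ^ (M - 1) by rw [← pow_succ', Nat.sub_add_cancel hM]]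
    field_simp
  have hheight : logHeight ((S.shiftMap h).eval x) = (M - 1 : ℕ) * logHeight p + logHeight q := by
    rw [logHeight_eq_of_castVec_smul (mul_ne_zero hc (inv_ne_zero hk)) hval,
      logHeight_fun_mul_eq (pow_ne_zero _ hp.ne_zero) hq.ne_zero, logHeight_pow]
  rw [Fintype.sum_bool, hheight] at hbound
  rw [show S.height L (Z + D) = logHeight q from hq.spaceHeight_eq, hhp]
  have e : ((M - 1 : ℕ) : ℝ) = (M : ℝ) - 1 := by rw [Nat.cast_sub hM]; simp
  rw [e] at hbound
  calc |logHeight q - logHeight p - (M : ℝ) * logHeight u|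
      = |((M : ℝ) - 1) * logHeight p + logHeight q
          - ((M : ℝ) * logHeight p + (M : ℝ) * logHeight u)| := by congr 1; ring
    _ ≤ C := hbound

end Setting

end Fermat.Agent.MordellWeil
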