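import Mathlib.NumberTheory.NumberField.ClassNumber
import Mathlib.NumberTheory.NumberField.Units.DirichletTheorem
import Mathlib.RingTheory.DedekindDomain.Factorization
import Mathlib.GroupTheory.FiniteAbelian.Basic

/-!
# Finiteness of square classes unramified outside a finite set

For a number field `K` and a finite set `T` of primes, the non-zero integers all of whose odd
exponents sit at `T` lie in finitely many classes modulo squares of `K`.  This is the finiteness of
the Selmer group `K(T, 2)`: class group finiteness and Dirichlet's unit theorem.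
-/

set_option autoImplicit false

noncomputable section

namespace Fermat.Agent.MordellWeil

open UniqueFactorizationMonoid NumberField
open scoped NumberField nonZeroDivisors Classical

variable {K : Type*} [Field K] [NumberField K]

/-- Units modulo squares are finite. -/
theorem finite_units_mod_squares :
    Finite ((𝓞 K)ˣ ⧸ (powMonoidHom 2 : (𝓞 K)ˣ →* (𝓞 K)ˣ).range) := by
  have : Group.FG (𝓞 K)ˣ := Group.fg_iff_monoid_fg.2 inferInstance
  refine CommGroup.finite_of_fg_isMulTorsion _ fun x => ?_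
  obtain ⟨u, rfl⟩ := QuotientGroup.mk_surjective x
  refine isOfFinOrder_iff_pow_eq_one.2 ⟨2, two_pos, ?_⟩
  rw [← QuotientGroup.mk_pow]
  exact (QuotientGroup.eq_one_iff _).2 ⟨u, rfl⟩

/-- A nonzero ideal is the product of a square and the primes of odd exponent. -/
theorem exists_sq_mul_oddPart {J : Ideal (𝓞 K)} (hJ : J ≠ 0) :
    ∃ I : Ideal (𝓞 K), I ≠ 0 ∧
      J = I ^ 2 * (((normalizedFactors J).toFinset.filter
        fun P => Odd ((normalizedFactors J).count P)).prod id) := by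
  let s := normalizedFactors J
  let I : Ideal (𝓞 K) := ∏ P ∈ s.toFinset, P ^ (s.count P / 2)
  have hs : s.prod = J := by
    simpa [s] using associated_iff_eq.1 (prod_normalizedFactors hJ)
  refine ⟨I, Finset.prod_ne_zero_iff.2 fun P hP => pow_ne_zero _ ?_, ?_⟩
  · exact (prime_of_normalized_factor P (Multiset.mem_toFinset.1 hP)).ne_zero
  rw [← Finset.prod_pow, Finset.prod_filter, ← Finset.prod_mul_distrib]
  conv_lhs => rw [← hs, Finset.prod_multiset_count]
  refine Finset.prod_congr rfl fun P _ => ?_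
  rcases Nat.even_or_odd (s.count P) with h | h
  · obtain ⟨k, hk⟩ := h
    rw [if_neg (Nat.not_odd_iff_even.2 ⟨k, hk⟩), mul_one, ← pow_mul]
    congr 1; omega
  · obtain ⟨k, hk⟩ := h
    rw [if_pos ⟨k, hk⟩, id_eq, ← pow_mul, ← pow_succ]
    congr 1; omega

/-- Finiteness of the square classes with odd exponents in a finite set of primes. -/
theorem exists_finite_squareClasses {T : Set (Ideal (𝓞 K))} (hT : T.Finite) :
    ∃ R : Set (𝓞 K), R.Finite ∧ ∀ a : 𝓞 K, a ≠ 0 →
      (∀ P, Odd ((normalizedFactors (Ideal.span {a})).count P) → P ∈ T) →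
      ∃ r ∈ R, ∃ z : K, z ≠ 0 ∧ (a : K) = (r : K) * z ^ 2 := by
  have := finite_units_mod_squares (K := K)
  have : Finite (ClassGroup (𝓞 K)) := inferInstance
  let Key := hT.toFinset.powerset × ClassGroup (𝓞 K)
  let odd : 𝓞 K → Finset (Ideal (𝓞 K)) := fun a =>
    (normalizedFactors (Ideal.span {a})).toFinset.filter
      fun P => Odd ((normalizedFactors (Ideal.span {a})).count P)
  let Has : Key → 𝓞 K → Prop := fun k a => a ≠ 0 ∧ ∃ I : (Ideal (𝓞 K))⁰,
    ClassGroup.mk0 I = k.2 ∧ Ideal.span {a} = (I : Ideal (𝓞 K)) ^ 2 * (k.1 : Finset _).prod id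
  let rep : Key → 𝓞 K := fun k => if h : ∃ a, Has k a then h.choose else 0
  refine ⟨Set.range fun x : Key × ((𝓞 K)ˣ ⧸ (powMonoidHom 2 : (𝓞 K)ˣ →* (𝓞 K)ˣ).range) =>
      rep x.1 * (x.2.out : 𝓞 K), Set.finite_range _, fun a ha hodd => ?_⟩
  have hJ : Ideal.span {a} ≠ (0 : Ideal (𝓞 K)) := by simpa using ha
  obtain ⟨I, hI0, hI⟩ := exists_sq_mul_oddPart hJ
  have hmem : odd a ∈ hT.toFinset.powerset := by
    rw [Finset.mem_powerset]
    intro P hP
    exact hT.mem_toFinset.2 (hodd P (Finset.mem_filter.1 hP).2)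
  let Iu : (Ideal (𝓞 K))⁰ := ⟨I, mem_nonZeroDivisors_of_ne_zero hI0⟩
  let k : Key := (⟨odd a, hmem⟩, ClassGroup.mk0 Iu)
  have hk : ∃ a, Has k a := ⟨a, ha, Iu, rfl, hI⟩
  obtain ⟨hr0, I', hI'c, hI'⟩ : Has k (rep k) := by
    simp only [rep, dif_pos hk]; exact hk.choose_spec
  obtain ⟨x, y, hx, hy, hxy⟩ := ClassGroup.mk0_eq_mk0_iff.1 hI'c.symm
  -- `x I = y I'`, hence `a x² = (rep k) y² · unit`
  have hspan : Ideal.span {a * x ^ 2} = Ideal.span {rep k * y ^ 2} := by
    rw [← Ideal.span_singleton_mul_span_singleton, ← Ideal.span_singleton_pow,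
      ← Ideal.span_singleton_mul_span_singleton, ← Ideal.span_singleton_pow, hI, hI',
      mul_right_comm, ← mul_pow, mul_right_comm, ← mul_pow, mul_comm I,
      mul_comm (I' : Ideal (𝓞 K))]
    exact congrArg (fun J : Ideal (𝓞 K) => J ^ 2 * (odd a).prod id) hxy
  obtain ⟨w, hw⟩ := (Ideal.span_singleton_eq_span_singleton.1 hspan).symm
  obtain ⟨v, hv⟩ : ∃ v : (𝓞 K)ˣ, (QuotientGroup.mk w :
      (𝓞 K)ˣ ⧸ (powMonoidHom 2 : (𝓞 K)ˣ →* (𝓞 K)ˣ).range).out * v ^ 2 = w := by
    obtain ⟨⟨g, v, hv⟩, hg⟩ := QuotientGroup.mk_out_eq_mul (powMonoidHom 2 : (𝓞 K)ˣ →* (𝓞 K)ˣ).range w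
    refine ⟨v⁻¹, ?_⟩
    have hv' : v ^ 2 = g := hv
    rw [hg, inv_pow, hv']
    exact mul_inv_cancel_right _ _
  refine ⟨_, ⟨(k, QuotientGroup.mk w), rfl⟩, (y : K) * ((v : 𝓞 K) : K) / (x : K), ?_, ?_⟩
  · have hxK : (x : K) ≠ 0 := by exact_mod_cast hx
    have hyK : (y : K) ≠ 0 := by exact_mod_cast hy
    have hvK : ((v : 𝓞 K) : K) ≠ 0 := by exact_mod_cast v.ne_zero
    exact div_ne_zero (mul_ne_zero hyK hvK) hxK
  · have hxK : (x : K) ≠ 0 := by exact_mod_cast hx
    have h1 := congrArg (fun z : 𝓞 K => (z : K)) hw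
    rw [← hv, Units.val_mul, Units.val_pow_eq_pow_val] at h1
    simp only [map_mul, map_pow] at h1
    simp only [map_mul]
    field_simp
    linear_combination -h1

end Fermat.Agent.MordellWeil
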