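import Fermat.Agent.MordellWeil.QuadraticSubgroups

/-!
# Weak Mordell–Weil, abstract form

A discrete `Γ_ℚ`-module `M`, divisible by `2`, with finitely many points of order `2`, whose
halves of rational points are unramified away from a fixed `m`, has `M^Γ / 2 M^Γ` finite.
-/

set_option autoImplicit false

noncomputable section

namespace Fermat.Agent.MordellWeil

/-- `Qb` abbreviates the fixed algebraic closure of `ℚ`. -/
local notation "Qb" => AlgebraicClosure ℚ

/-- `Γ` abbreviates the absolute Galois group of `ℚ`. -/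
local notation "Γ" => (AlgebraicClosure ℚ ≃ₐ[ℚ] AlgebraicClosure ℚ)

local instance : Algebra.IsAlgebraic ℚ Qb := AlgebraicClosure.isAlgebraic ℚ

local instance : IsAlgClosure ℚ Qb := ⟨inferInstance, inferInstance⟩

local instance : IsGalois ℚ Qb := IsAlgClosure.isGalois ℚ Qb

variable {M : Type*} [AddCommGroup M] [DistribMulAction Γ M]

/-- Weak Mordell–Weil for a Galois module. -/
theorem finiteIndex_two_of_unramified (hstab : ∀ y : M, IsOpen (MulAction.stabilizer Γ y : Set Γ))
    (hdiv : ∀ x : M, ∃ y : M, 2 • y = x) (hfin : {x : M | 2 • x = 0}.Finite) {m : ℕ} (hm : m ≠ 0)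
    (hur : ∀ ℓ : ℕ, ℓ.Prime → ¬ ℓ ∣ m → ∀ A : ValuationSubring Qb, A.LiesOverPrime ℓ →
      ∀ σ ∈ A.inertiaSubgroupIn ℚ, ∀ y : M, (∀ τ : Γ, τ • (2 • y) = 2 • y) → σ • y = y) :
    (nsmulAddMonoidHom (α := ↥(FixedPoints.addSubgroup Γ M)) 2).range.FiniteIndex := by
  classical
  let P := ↥(FixedPoints.addSubgroup Γ M)
  let T : AddSubgroup M := (nsmulAddMonoidHom (α := M) 2).ker
  have hT : ∀ x : M, x ∈ T ↔ 2 • x = 0 := fun x => by simp [T]
  have : Finite T := by
    have := hfin.to_subtype
    exact Finite.of_injective (β := {x : M | 2 • x = 0}) (fun t => ⟨t.1, (hT _).1 t.2⟩)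
      fun a b h => Subtype.ext (congrArg (fun z : {x : M | 2 • x = 0} => (z : M)) h)
  -- a finite level fixing the points of order two
  obtain ⟨K, hKfin, hK⟩ : ∃ K : IntermediateField ℚ Qb, FiniteDimensional ℚ K ∧
      ∀ σ ∈ K.fixingSubgroup, ∀ t : T, σ • (t : M) = t := by
    have hopen : IsOpen (⋂ t : T, (MulAction.stabilizer Γ (t : M) : Set Γ)) :=
      isOpen_iInter_of_finite fun t => hstab _
    obtain ⟨K, hKfin, hK⟩ := (krullTopology_mem_nhds_one_iff ℚ Qb _).1
      (hopen.mem_nhds (Set.mem_iInter.2 fun t => (MulAction.stabilizer Γ (t : M)).one_mem))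
    exact ⟨K, hKfin, fun σ hσ t => Set.mem_iInter.1 (hK hσ) t⟩
  let H := K.fixingSubgroup
  have : Finite (Γ ⧸ H) :=
    Subgroup.quotient_finite_of_isOpen H (IntermediateField.fixingSubgroup_isOpen K)
  let : Module (ZMod 2) T := AddCommGroup.zmodModule fun x => Subtype.ext ((hT _).1 x.2)
  -- halves and their cocycles
  choose half hhalf using fun x : P => hdiv (x : M)
  have hxfix : ∀ (x : P) (σ : Γ), σ • (x : M) = x := fun x σ => x.2 σ
  let c : P → Γ → T := fun x σ => ⟨σ • half x - half x, (hT _).2 (by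
    rw [nsmul_sub, two_nsmul (σ • half x), ← smul_add, ← two_nsmul, hhalf, hxfix, sub_self])⟩
  have hc : ∀ (x : P) (σ τ : Γ), (c x (σ * τ) : M) = σ • (c x τ : M) + c x σ := fun x σ τ => by
    show (σ * τ) • half x - half x = σ • (τ • half x - half x) + (σ • half x - half x)
    rw [mul_smul, smul_sub]; abel
  have hcH : ∀ (x : P) (σ : Γ), σ ∈ H → ∀ τ, c x (σ * τ) = c x τ + c x σ := fun x σ hσ τ =>
    Subtype.ext (by rw [hc, hK σ hσ]; rfl)
  let ker : P → (T →ₗ[ZMod 2] ZMod 2) → Subgroup Γ := fun x φ =>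
    { carrier := {σ | σ ∈ H ∧ φ (c x σ) = 0}
      one_mem' := ⟨H.one_mem, by
        have : c x 1 = 0 := Subtype.ext (by
          show (1 : Γ) • half x - half x = 0
          rw [one_smul, sub_self])
        rw [this, map_zero]⟩
      mul_mem' := fun {σ τ} hσ hτ => ⟨H.mul_mem hσ.1 hτ.1, by
        rw [hcH x σ hσ.1, map_add, hσ.2, hτ.2, add_zero]⟩
      inv_mem' := fun {σ} hσ => ⟨H.inv_mem hσ.1, by
        have h1 := hcH x σ hσ.1 σ⁻¹
        have h0 : c x 1 = 0 := Subtype.ext (by
          show (1 : Γ) • half x - half x = 0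
          rw [one_smul, sub_self])
        rw [mul_inv_cancel, h0] at h1
        have h2 := congrArg φ h1.symm
        rw [map_add, hσ.2, add_zero, map_zero] at h2
        exact h2⟩ }
  have hker : ∀ x φ, IsQuadraticUnramified K m (ker x φ) := fun x φ =>
    { le := fun σ hσ => hσ.1
      isOpen := Subgroup.isOpen_mono
        (show H ⊓ MulAction.stabilizer Γ (half x) ≤ ker x φ from fun σ hσ => ⟨hσ.1, by
          have : c x σ = 0 := Subtype.ext (by
            show σ • half x - half x = 0
            rw [MulAction.mem_stabilizer_iff.1 hσ.2, sub_self])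
          rw [this, map_zero]⟩)
        ((IntermediateField.fixingSubgroup_isOpen K).inter (hstab _))
      index_two := fun σ hσ τ hτ hσn hτn => ⟨H.mul_mem hσ hτ, by
        rw [hcH x σ hσ, map_add]
        have h1 : φ (c x σ) ≠ 0 := fun h => hσn ⟨hσ, h⟩
        have h2 : φ (c x τ) ≠ 0 := fun h => hτn ⟨hτ, h⟩
        revert h1 h2
        generalize φ (c x σ) = a; generalize φ (c x τ) = b
        revert a b; decide⟩
      inertia_le := fun ℓ hℓ hℓm A hA σ hσ hσH => ⟨hσH, by
        have : c x σ = 0 := Subtype.ext (by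
          show σ • half x - half x = 0
          rw [hur ℓ hℓ hℓm A hA σ hσ (half x) (fun τ => by rw [hhalf]; exact hxfix x τ), sub_self])
        rw [this, map_zero]⟩ }
  have := (finite_isQuadraticUnramified K hm).to_subtype
  have : Finite (T →ₗ[ZMod 2] ZMod 2) :=
    Finite.of_injective (fun f => (f : T → ZMod 2)) DFunLike.coe_injective
  let data : P → (Γ ⧸ H → T) × ((T →ₗ[ZMod 2] ZMod 2) → {N | IsQuadraticUnramified K m N}) :=
    fun x => (fun q => c x q.out, fun φ => ⟨ker x φ, hker x φ⟩)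
  -- equal data, equal classes
  have heq : ∀ x y : P, data x = data y →
      (x : P) - y ∈ (nsmulAddMonoidHom (α := P) 2).range := by
    intro x y h
    obtain ⟨hq, hφ⟩ := Prod.mk.inj h
    have hH : ∀ σ ∈ H, c x σ = c y σ := by
      intro σ hσ
      refine sub_eq_zero.1 ((Module.forall_dual_apply_eq_zero_iff (ZMod 2) _).1 fun φ => ?_)
      have hiff : φ (c x σ) = 0 ↔ φ (c y σ) = 0 := by
        have h1 : ker x φ = ker y φ := congrArg Subtype.val (congrFun hφ φ)
        exact ⟨fun h0 => ((h1 ▸ (⟨hσ, h0⟩ : σ ∈ ker x φ)) : σ ∈ ker y φ).2,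
          fun h0 => ((h1 ▸ (⟨hσ, h0⟩ : σ ∈ ker y φ)) : σ ∈ ker x φ).2⟩
      rw [map_sub, sub_eq_zero]
      revert hiff
      generalize φ (c x σ) = a; generalize φ (c y σ) = b
      revert a b; decide
    have hall : ∀ σ, c x σ = c y σ := by
      intro σ
      obtain ⟨h', hh'⟩ := QuotientGroup.mk_out_eq_mul H σ
      have hq' : c x (QuotientGroup.mk (s := H) σ).out = c y (QuotientGroup.mk (s := H) σ).out :=
        congrFun hq _
      rw [hh'] at hq'
      apply Subtype.ext
      have hM := congrArg Subtype.val hq'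
      rw [hc, hc, hH _ h'.2] at hM
      exact add_left_cancel hM
    have hz : half x - half y ∈ FixedPoints.addSubgroup Γ M := fun σ => by
      rw [smul_sub, sub_eq_sub_iff_sub_eq_sub]
      exact congrArg Subtype.val (hall σ)
    refine ⟨⟨_, hz⟩, Subtype.ext ?_⟩
    show 2 • (half x - half y) = (x : M) - y
    rw [nsmul_sub, hhalf, hhalf]
  let pick : Set.range data → P ⧸ (nsmulAddMonoidHom (α := P) 2).range :=
    fun d => QuotientAddGroup.mk d.2.choose
  have : Finite (P ⧸ (nsmulAddMonoidHom (α := P) 2).range) := by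
    refine Finite.of_surjective pick fun q => ?_
    obtain ⟨x, rfl⟩ := QuotientAddGroup.mk_surjective q
    exact ⟨⟨data x, x, rfl⟩, QuotientAddGroup.eq_iff_sub_mem.2
      (heq _ _ (⟨x, rfl⟩ : ∃ y, data y = data x).choose_spec)⟩
  exact AddSubgroup.finiteIndex_of_finite_quotient

end Fermat.Agent.MordellWeil
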