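import Fermat.Agent.MordellWeil.Incidence

/-!
Witnesses for the incidence equations, and the reverse: products of complete spaces land in
`w · L(m ∞)`.
-/

set_option autoImplicit false
set_option linter.unusedSectionVars false

noncomputable section

open AlgebraicCurve Fermat.Agent.Curve

namespace Fermat.Agent.MordellWeil

local notation "ℚ̄" => AlgebraicClosure ℚ

theorem castVec_slot {m ι : Type} [DecidableEq m] (p : (m → ι) → ℚ) (J : m → ι) (t : m) :
    castVec (slot p J t) = slot (castVec p) J t := rfl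

variable {F : Type} [Field F] [Algebra ℚ̄ F] [IsFunctionField1 ℚ̄ F]

/-- An effective divisor has at most `degree` places in its support. -/
theorem card_support_le_degree {E : Divisor ℚ̄ F} (hE : 0 ≤ E) :
    (E.support.card : ℤ) ≤ Divisor.degree E := by
  rw [degree_eq_sum]
  calc (E.support.card : ℤ) = ∑ _v ∈ E.support, (1 : ℤ) := by simp
    _ ≤ E.sum fun v n => n * (v.deg : ℤ) := by
      refine Finset.sum_le_sum fun v hv => ?_
      have h1 : E v ≠ 0 := Finsupp.mem_support_iff.mp hv
      have h2 := hE v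
      simp only [Finsupp.coe_zero, Pi.zero_apply] at h2
      simp only [deg_eq_one v, Nat.cast_one, mul_one]
      omega

namespace Setting

variable (S : Setting F)

theorem space_eq_of_map_eq {n : ℕ} {P : Submodule ℚ̄ (S.Coord n → ℚ̄)} {D : Divisor ℚ̄ F}
    (h : P.map (S.elem n) = riemannRochSpace (S.pole n - D)) : P = S.space n D := by
  rw [space, ← h, Submodule.comap_map_eq_of_injective (S.elem_injective n)]

theorem finrank_map_plSpan {n M : ℕ} {p : (Fin M → S.Coord n) → ℚ̄} (hp : IsPlucker p) :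
    Module.finrank ℚ̄ ((plSpan p).map (S.elem n)) = M := by
  rw [← (Submodule.equivMapOfInjective _ (S.elem_injective n) _).finrank_eq, hp.finrank_plSpan,
    Fintype.card_fin]

theorem map_plSpan_le {n M : ℕ} (p : (Fin M → S.Coord n) → ℚ̄) :
    (plSpan p).map (S.elem n) ≤ riemannRochSpace (S.pole n) := by
  rintro _ ⟨x, -, rfl⟩
  exact S.elem_mem n x

theorem map_plSpan_eq_span {n M : ℕ} (p : (Fin M → S.Coord n) → ℚ̄) :
    (plSpan p).map (S.elem n) = Submodule.span ℚ̄
      (Set.range fun k : (Fin M → S.Coord n) × Fin M => S.elem n (slot p k.1 k.2)) := by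
  rw [plSpan, Submodule.map_span, ← Set.range_comp]
  rfl

/-- A rational function with prescribed zeros, and the residual divisor. -/
theorem exists_cofactor {d n : ℕ} {D : Divisor ℚ̄ F} (hD : 0 ≤ D) (hr : S.IsRat D)
    (hd : Divisor.degree D = (d : ℤ)) (hn : d + S.bound = n) :
    ∃ (w : S.Coord n → ℚ) (X : Divisor ℚ̄ F), castVec w ≠ 0 ∧ 0 ≤ X ∧ S.IsRat X ∧
      Divisor.degree X = (S.bound : ℤ) ∧ S.zeros n (castVec w) = D + X := by
  have hb : S.genus < S.bound := by simp [Setting.genus, Setting.bound]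
  obtain ⟨p, hp, -⟩ := S.exists_isRep_space (n := n) hD hr hd hn.le
  have hne : plSpan (castVec p) ≠ ⊥ := fun h => by
    have := hp.card_eq
    rw [← hp.2, h, finrank_bot] at this
    unfold Setting.spaceDim at this
    omega
  obtain ⟨J, t, hJt⟩ : ∃ J t, slot (castVec p) J t ≠ 0 := by
    by_contra hall
    exact hne (Submodule.span_eq_bot.mpr (by
      rintro _ ⟨k, rfl⟩
      exact not_not.mp fun h => hall ⟨k.1, k.2, h⟩))
  have hmem : slot (castVec p) J t ∈ S.space n D :=
    hp.2 ▸ Submodule.subset_span ⟨(J, t), rfl⟩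
  have hw : castVec (slot p J t) ≠ 0 := hJt
  refine ⟨slot p J t, S.zeros n (castVec (slot p J t)) - D, hw, fun v => ?_,
    IsRat.sub S (S.isRat_zeros n _) hr, ?_, by abel⟩
  · have := (mem_sub_iff (S.elem_ne_zero hw)).mp hmem v
    simp only [Setting.zeros, Finsupp.coe_zero, Pi.zero_apply, Finsupp.sub_apply, Finsupp.add_apply,
      divisorOf_apply]
    have h2 : v.ord (S.elem n (castVec (slot p J t))) = v.ord (S.elem n (slot (castVec p) J t)) := rfl
    omega
  · rw [map_sub, S.degree_zeros, hd]
    omega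

/-- Two-factor products land in `w · L(m ∞)`. -/
theorem mul_mem_of_le {a c n m : ℕ} (hm : n + m = a + c) {A C : Divisor ℚ̄ F}
    {w : S.Coord n → ℚ̄} (hw : w ≠ 0) (hle : S.zeros n w ≤ A + C) {f x : F}
    (hf : f ∈ riemannRochSpace (S.pole a - A)) (hx : x ∈ riemannRochSpace (S.pole c - C)) :
    ∃ h ∈ riemannRochSpace (S.pole m), f * x = S.elem n w * h := by
  have hw' := S.elem_ne_zero hw
  refine ⟨f * x / S.elem n w, ?_, (mul_div_cancel₀ _ hw').symm⟩
  rw [mem_riemannRochSpace_iff]
  intro v
  by_cases hfx : f * x = 0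
  · exact Or.inl (by rw [hfx, zero_div])
  obtain ⟨hf0, hx0⟩ := mul_ne_zero_iff.mp hfx
  refine Or.inr ?_
  rw [div_eq_mul_inv, v.ord_mul hfx (inv_ne_zero hw'), v.ord_mul hf0 hx0, v.ord_inv]
  have h1 := (mem_sub_iff hf0).mp hf v
  have h2 := (mem_sub_iff hx0).mp hx v
  have h3 := hle v
  have h4 : S.pole n v + S.pole m v = S.pole a v + S.pole c v := by
    classical
    simp only [Setting.pole, Finsupp.single_apply]
    split_ifs <;> omega
  simp only [Setting.zeros, Finsupp.add_apply, divisorOf_apply] at h3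
  omega

/-- Three-factor products land in `w · L(m ∞)`. -/
theorem mul_mul_mem_of_le {a b c n m : ℕ} (hm : n + m = a + b + c) {A B C : Divisor ℚ̄ F}
    {w : S.Coord n → ℚ̄} (hw : w ≠ 0) (hle : S.zeros n w ≤ A + B + C) {f g x : F}
    (hf : f ∈ riemannRochSpace (S.pole a - A)) (hg : g ∈ riemannRochSpace (S.pole b - B))
    (hx : x ∈ riemannRochSpace (S.pole c - C)) :
    ∃ h ∈ riemannRochSpace (S.pole m), f * g * x = S.elem n w * h := by
  refine S.mul_mem_of_le (a := a + b) (c := c) (A := A + B) hm hw hle ?_ hx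
  by_cases hfg : f * g = 0
  · rw [hfg]; exact Submodule.zero_mem _
  obtain ⟨hf0, hg0⟩ := mul_ne_zero_iff.mp hfg
  refine (mem_sub_iff hfg).mpr fun v => ?_
  have h1 := (mem_sub_iff hf0).mp hf v
  have h2 := (mem_sub_iff hg0).mp hg v
  have h4 : S.pole a v + S.pole b v = S.pole (a + b) v := by
    classical
    simp only [Setting.pole, Finsupp.single_apply]
    split_ifs <;> omega
  rw [v.ord_mul hf0 hg0, Finsupp.add_apply]
  omega

end Setting

end Fermat.Agent.MordellWeil
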